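import Mathlib
import Fermat.Prelude.Thm_ModularForm_sturm_bound_Gamma0
import Fermat.Prelude.Thm_CongruenceSubgroup_one_mem_strictPeriods_Gamma0
import Fermat.Agent.H1.S16L2.Interfaces
import Fermat.Agent.H62.SeparatingForm
import Fermat.Agent.H57.Gamma0Index

/-!
# S16, block L2-L3 (helper69): structure of modular forms on `Γ₀(3)` modulo 2

We prove `Fermat.Agent.H1.S16L2.LevelThreeStatement` from `EisThreeStatement`:
a modular form of even weight `k` on `Γ₀(3)` with `q`-coefficients in a subring `A ⊆ ℂ` is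
congruent modulo `2 A` to a polynomial of degree `≤ k / 3` in `G' = ∑ σ'(n) qⁿ`.
-/

set_option autoImplicit false

namespace Fermat.Agent.H69.L3

open UpperHalfPlane CongruenceSubgroup ModularForm
open scoped MatrixGroups ModularForm

/-! ### Sturm bound at level 3 -/

theorem index_Gamma0_three : (Gamma0 3).index = 4 := by
  rw [Fermat.Agent.H57.index_Gamma0 3]
  unfold ModularCurve.dedekindPsi
  rw [Nat.Prime.divisors Nat.prime_three]
  have h1 : Squarefree (1 : ℕ) := squarefree_one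
  have h3 : Squarefree (3 : ℕ) := Nat.prime_three.squarefree
  rw [Finset.filter_true_of_mem
    (by intro d hd; simp at hd; rcases hd with rfl | rfl <;> assumption)]
  simp

theorem sturm_three (k : ℕ) (f : ModularForm (Gamma0 3) (k : ℤ))
    (h : ∀ n ≤ k / 3, (qExpansion 1 (⇑f)).coeff n = 0) : f = 0 := by
  refine ModularForm.sturm_bound_Gamma0 3 f fun n hn => h n ?_
  rw [index_Gamma0_three] at hn
  have h1 : ((k : ℤ) * ((4 : ℕ) : ℤ)).toNat = k * 4 := by
    have : ((k : ℤ) * ((4 : ℕ) : ℤ)) = ((k * 4 : ℕ) : ℤ) := by push_cast; ring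
    rw [this, Int.toNat_natCast]
  rw [h1] at hn
  omega

lemma one_mem_strictPeriods_three :
    (1 : ℝ) ∈ ((Gamma0 3 : Subgroup SL(2, ℤ)) : Subgroup (GL (Fin 2) ℝ)).strictPeriods :=
  CongruenceSubgroup.one_mem_strictPeriods_Gamma0 3

/-! ### Forms on `Γ₀(3)` with integral `q`-expansion -/

lemma Gamma0_three_le_SL :
    ((Gamma0 3 : Subgroup SL(2, ℤ)) : Subgroup (GL (Fin 2) ℝ)) ≤ 𝒮ℒ := by
  rintro _ ⟨γ, -, rfl⟩
  exact ⟨γ, rfl⟩

/-- A level-one modular form, viewed as a modular form on `Γ₀(3)`. -/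
def restrictThree {k : ℤ} (g : ModularForm 𝒮ℒ k) : ModularForm (Gamma0 3) k where
  toFun := g
  slash_action_eq' γ hγ := g.slash_action_eq' γ (Gamma0_three_le_SL hγ)
  holo' := g.holo'
  bdd_at_cusps' hc := g.bdd_at_cusps' (hc.mono Gamma0_three_le_SL)

@[simp] lemma coe_restrictThree {k : ℤ} (g : ModularForm 𝒮ℒ k) :
    ⇑(restrictThree g) = ⇑g := rfl

/-- The complex power series `Q` is the `q`-expansion of a form of weight `k` on `Γ₀(3)`. -/
def IsQExpC (k : ℕ) (Q : PowerSeries ℂ) : Prop :=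
  ∃ f : ModularForm (Gamma0 3) (k : ℤ), qExpansion 1 (⇑f) = Q

lemma IsQExpC.add {k : ℕ} {Q Q' : PowerSeries ℂ} (h : IsQExpC k Q) (h' : IsQExpC k Q') :
    IsQExpC k (Q + Q') := by
  obtain ⟨f, rfl⟩ := h
  obtain ⟨f', rfl⟩ := h'
  exact ⟨f + f', by
    rw [FunLike.coe_add, ModularForm.qExpansion_add one_pos one_mem_strictPeriods_three]⟩

lemma IsQExpC.sub {k : ℕ} {Q Q' : PowerSeries ℂ} (h : IsQExpC k Q) (h' : IsQExpC k Q') :
    IsQExpC k (Q - Q') := by
  obtain ⟨f, rfl⟩ := h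
  obtain ⟨f', rfl⟩ := h'
  exact ⟨f - f', by
    rw [FunLike.coe_sub, ModularForm.qExpansion_sub one_pos one_mem_strictPeriods_three]⟩

lemma IsQExpC.smul {k : ℕ} {Q : PowerSeries ℂ} (h : IsQExpC k Q) (a : ℂ) :
    IsQExpC k (a • Q) := by
  obtain ⟨f, rfl⟩ := h
  exact ⟨a • f, by
    rw [FunLike.coe_smul, ModularForm.qExpansion_smul one_pos one_mem_strictPeriods_three]⟩

lemma IsQExpC.zero (k : ℕ) : IsQExpC k 0 :=
  ⟨0, by rw [FunLike.coe_zero, qExpansion_zero]⟩

lemma IsQExpC.C_mul {k : ℕ} {Q : PowerSeries ℂ} (h : IsQExpC k Q) (a : ℂ) :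
    IsQExpC k (PowerSeries.C a * Q) := by
  have := h.smul a
  rwa [PowerSeries.smul_eq_C_mul] at this

lemma IsQExpC.sum {k : ℕ} {ι : Type*} (s : Finset ι) (Q : ι → PowerSeries ℂ)
    (h : ∀ i ∈ s, IsQExpC k (Q i)) : IsQExpC k (∑ i ∈ s, Q i) := by
  classical
  induction s using Finset.induction_on with
  | empty => simpa using IsQExpC.zero k
  | insert a s ha ih =>
    rw [Finset.sum_insert ha]
    exact (h a (Finset.mem_insert_self a s)).add
      (ih fun i hi => h i (Finset.mem_insert_of_mem hi))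

lemma IsQExpC.mul {k k' : ℕ} {Q Q' : PowerSeries ℂ} (h : IsQExpC k Q) (h' : IsQExpC k' Q') :
    IsQExpC (k + k') (Q * Q') := by
  obtain ⟨f, rfl⟩ := h
  obtain ⟨f', rfl⟩ := h'
  refine ⟨(f.mul f').mcast (by push_cast; rfl), ?_⟩
  rw [ModularForm.qExpansion_mcast, ModularForm.qExpansion_mul one_pos one_mem_strictPeriods_three]

/-- Sturm bound for `q`-expansions of forms on `Γ₀(3)`. -/
lemma IsQExpC.eq_zero {k : ℕ} {Q : PowerSeries ℂ} (h : IsQExpC k Q)
    (h0 : ∀ n ≤ k / 3, PowerSeries.coeff n Q = 0) : Q = 0 := by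
  obtain ⟨f, rfl⟩ := h
  rw [sturm_three k f h0, FunLike.coe_zero, qExpansion_zero]

/-- The integral power series `P` is the `q`-expansion of a form of weight `k` on `Γ₀(3)`. -/
def IsQExp (k : ℕ) (P : PowerSeries ℤ) : Prop :=
  IsQExpC k (P.map (Int.castRingHom ℂ))

lemma IsQExp.mul {k k' : ℕ} {P P' : PowerSeries ℤ} (h : IsQExp k P) (h' : IsQExp k' P') :
    IsQExp (k + k') (P * P') := by
  unfold IsQExp
  rw [map_mul]
  exact IsQExpC.mul h h'

lemma IsQExp.one : IsQExp 0 1 := by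
  refine ⟨(1 : ModularForm (Gamma0 3) 0).mcast (by simp), ?_⟩
  rw [ModularForm.qExpansion_mcast, ModularForm.qExpansion_one, map_one]

lemma IsQExp.pow {k : ℕ} {P : PowerSeries ℤ} (h : IsQExp k P) (n : ℕ) :
    IsQExp (n * k) (P ^ n) := by
  induction n with
  | zero => simpa using IsQExp.one
  | succ n ih =>
    have := ih.mul h
    rwa [← pow_succ, show n * k + k = (n + 1) * k by ring] at this

/-! ### The basic forms -/

open Fermat.Agent.H1.S16L2 (gPrime EisThreeStatement LevelThreeStatement CongrTwo)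

/-- The `q`-expansion of `E₄`, integrally. -/
noncomputable def pE4 : PowerSeries ℤ :=
  PowerSeries.mk fun n => if n = 0 then 1 else 240 * (ArithmeticFunction.sigma 3 n : ℤ)

/-- The `q`-expansion of `E₆`, integrally. -/
noncomputable def pE6 : PowerSeries ℤ :=
  PowerSeries.mk fun n => if n = 0 then 1 else -504 * (ArithmeticFunction.sigma 5 n : ℤ)

/-- The `q`-expansion of `F₄ = (E₄(z) - E₄(3z)) / 240`. -/
noncomputable def pF4 : PowerSeries ℤ :=
  PowerSeries.mk fun n =>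
    (ArithmeticFunction.sigma 3 n : ℤ) - if 3 ∣ n then (ArithmeticFunction.sigma 3 (n / 3) : ℤ) else 0

/-- The `q`-expansion of `F₂`. -/
noncomputable def pF2 : PowerSeries ℤ := 1 + 12 * gPrime

lemma qExpansion_E4_coeff (m : ℕ) : (qExpansion 1 (⇑E₄)).coeff m =
    if m = 0 then 1 else 240 * (ArithmeticFunction.sigma 3 m : ℂ) := by
  have h := EisensteinSeries.E_qExpansion_coeff (k := 4) (by norm_num) ⟨2, rfl⟩ m
  rw [show (⇑E₄ : ℍ → ℂ) = ⇑(E (k := 4) (by norm_num)) from rfl, h]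
  split_ifs with hm
  · rfl
  · norm_num [show bernoulli 4 = -1 / 30 by decide +kernel]

lemma qExpansion_E6_coeff (m : ℕ) : (qExpansion 1 (⇑E₆)).coeff m =
    if m = 0 then 1 else -504 * (ArithmeticFunction.sigma 5 m : ℂ) := by
  have h := EisensteinSeries.E_qExpansion_coeff (k := 6) (by norm_num) ⟨3, rfl⟩ m
  rw [show (⇑E₆ : ℍ → ℂ) = ⇑(E (k := 6) (by norm_num)) from rfl, h]
  split_ifs with hm
  · rfl
  · norm_num [show bernoulli 6 = 1 / 42 by decide +kernel]

lemma qExpansion_E4 : qExpansion 1 (⇑E₄) = pE4.map (Int.castRingHom ℂ) := by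
  ext m
  rw [qExpansion_E4_coeff, PowerSeries.coeff_map, pE4, PowerSeries.coeff_mk]
  split_ifs <;> simp

lemma qExpansion_E6 : qExpansion 1 (⇑E₆) = pE6.map (Int.castRingHom ℂ) := by
  ext m
  rw [qExpansion_E6_coeff, PowerSeries.coeff_map, pE6, PowerSeries.coeff_mk]
  split_ifs <;> simp

lemma isQExp_E4 : IsQExp 4 pE4 :=
  ⟨(restrictThree E₄).mcast (by norm_num), by
    rw [ModularForm.qExpansion_mcast, coe_restrictThree, qExpansion_E4]⟩

lemma isQExp_E6 : IsQExp 6 pE6 :=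
  ⟨(restrictThree E₆).mcast (by norm_num), by
    rw [ModularForm.qExpansion_mcast, coe_restrictThree, qExpansion_E6]⟩

lemma isQExp_F2 (hE : EisThreeStatement) : IsQExp 2 pF2 := by
  obtain ⟨F2, hF2⟩ := hE
  exact ⟨F2.mcast (by norm_num), by rw [ModularForm.qExpansion_mcast, hF2, pF2]⟩

/-- The form `F₄ = (E₄(z) - E₄(3z)) / 240` on `Γ₀(3)`. -/
noncomputable def formF4 : ModularForm (Gamma0 3) 4 :=
  (240 : ℂ)⁻¹ • (restrictThree E₄ - Fermat.Agent.H62.dilate 3 E₄)

lemma qExpansion_formF4 : qExpansion 1 (⇑formF4) = pF4.map (Int.castRingHom ℂ) := by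
  have h1 := one_mem_strictPeriods_three
  rw [formF4, FunLike.coe_smul, ModularForm.qExpansion_smul one_pos h1, FunLike.coe_sub,
    ModularForm.qExpansion_sub one_pos h1]
  ext m
  rw [PowerSeries.coeff_smul, map_sub, Fermat.Agent.H62.qExpansion_dilate_coeff,
    coe_restrictThree, PowerSeries.coeff_map, pF4, PowerSeries.coeff_mk]
  rw [qExpansion_E4_coeff, qExpansion_E4_coeff]
  by_cases hm : m = 0
  · subst hm
    simp
  · by_cases h3 : 3 ∣ m
    · have hm3 : m / 3 ≠ 0 := by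
        obtain ⟨c, rfl⟩ := h3
        rw [Nat.mul_div_cancel_left _ (by norm_num : 0 < 3)]
        rintro rfl
        exact hm rfl
      simp only [hm, h3, hm3, if_true, if_false, smul_eq_mul, eq_intCast]
      push_cast
      field_simp
    · simp only [hm, h3, if_false, smul_eq_mul, eq_intCast]
      push_cast
      field_simp
      ring

lemma isQExp_F4 : IsQExp 4 pF4 :=
  ⟨formF4.mcast (by norm_num), by rw [ModularForm.qExpansion_mcast, qExpansion_formF4]⟩

/-! ### Low coefficients -/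

lemma coeff012_mul (A B : PowerSeries ℤ) {a0 a1 a2 b0 b1 b2 : ℤ}
    (hA0 : PowerSeries.coeff 0 A = a0) (hA1 : PowerSeries.coeff 1 A = a1)
    (hA2 : PowerSeries.coeff 2 A = a2) (hB0 : PowerSeries.coeff 0 B = b0)
    (hB1 : PowerSeries.coeff 1 B = b1) (hB2 : PowerSeries.coeff 2 B = b2) :
    PowerSeries.coeff 0 (A * B) = a0 * b0 ∧ PowerSeries.coeff 1 (A * B) = a0 * b1 + a1 * b0 ∧
      PowerSeries.coeff 2 (A * B) = a0 * b2 + a1 * b1 + a2 * b0 := by
  refine ⟨?_, ?_, ?_⟩
  · rw [PowerSeries.coeff_mul]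
    simp [hA0, hB0]
  · rw [PowerSeries.coeff_mul]
    simp [Finset.Nat.antidiagonal_succ, hA0, hB0, hA1, hB1]
  · rw [PowerSeries.coeff_mul]
    simp [Finset.Nat.antidiagonal_succ, hA0, hB0, hA1, hB1, hA2, hB2]
    ring

lemma coeff_gPrime (n : ℕ) :
    PowerSeries.coeff n gPrime = ∑ d ∈ n.divisors.filter (fun d => ¬ 3 ∣ d), (d : ℤ) := by
  rw [gPrime, PowerSeries.coeff_mk]

lemma coeff_pF2 (n : ℕ) : PowerSeries.coeff n pF2 =
    (if n = 0 then 1 else 0) + 12 * ∑ d ∈ n.divisors.filter (fun d => ¬ 3 ∣ d), (d : ℤ) := by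
  rw [pF2, map_add, PowerSeries.coeff_one, ← coeff_gPrime]
  congr 1
  rw [show (12 : PowerSeries ℤ) = PowerSeries.C (12 : ℤ) by simp, PowerSeries.coeff_C_mul]

lemma coeff_pF2_zero : PowerSeries.coeff 0 pF2 = 1 := by
  rw [coeff_pF2]; decide

lemma coeff_pF2_one : PowerSeries.coeff 1 pF2 = 12 := by
  rw [coeff_pF2]; decide

lemma coeff_pF2_two : PowerSeries.coeff 2 pF2 = 36 := by
  rw [coeff_pF2]; decide

lemma coeff_pF4 (n : ℕ) : PowerSeries.coeff n pF4 =
    (ArithmeticFunction.sigma 3 n : ℤ) -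
      if 3 ∣ n then (ArithmeticFunction.sigma 3 (n / 3) : ℤ) else 0 := by
  rw [pF4, PowerSeries.coeff_mk]

lemma coeff_pF4_zero : PowerSeries.coeff 0 pF4 = 0 := by
  rw [coeff_pF4]; simp

lemma coeff_pF4_one : PowerSeries.coeff 1 pF4 = 1 := by
  rw [coeff_pF4]; decide

lemma coeff_pF4_two : PowerSeries.coeff 2 pF4 = 9 := by
  rw [coeff_pF4]; decide

lemma coeff_pE6_zero : PowerSeries.coeff 0 pE6 = 1 := by
  rw [pE6, PowerSeries.coeff_mk]; simp

lemma coeff_pE6_one : PowerSeries.coeff 1 pE6 = -504 := by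
  rw [pE6, PowerSeries.coeff_mk]; decide

lemma coeff_pE6_two : PowerSeries.coeff 2 pE6 = -16632 := by
  rw [pE6, PowerSeries.coeff_mk]; decide

/-! ### The form `F₆` -/

/-- `5832 F₆ = F₂³ - 540 F₂ F₄ - E₆`. -/
noncomputable def pG6 : PowerSeries ℤ := pF2 * (pF2 * pF2) - PowerSeries.C 540 * (pF2 * pF4) - pE6

lemma coeff_pG6 : PowerSeries.coeff 0 pG6 = 0 ∧ PowerSeries.coeff 1 pG6 = 0 ∧
    PowerSeries.coeff 2 pG6 = 5832 := by
  obtain ⟨a0, a1, a2⟩ := coeff012_mul pF2 pF2 coeff_pF2_zero coeff_pF2_one coeff_pF2_two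
    coeff_pF2_zero coeff_pF2_one coeff_pF2_two
  obtain ⟨b0, b1, b2⟩ := coeff012_mul pF2 (pF2 * pF2) coeff_pF2_zero coeff_pF2_one coeff_pF2_two
    a0 a1 a2
  obtain ⟨c0, c1, c2⟩ := coeff012_mul pF2 pF4 coeff_pF2_zero coeff_pF2_one coeff_pF2_two
    coeff_pF4_zero coeff_pF4_one coeff_pF4_two
  refine ⟨?_, ?_, ?_⟩
  · rw [pG6, map_sub, map_sub, PowerSeries.coeff_C_mul, b0, c0, coeff_pE6_zero]; norm_num
  · rw [pG6, map_sub, map_sub, PowerSeries.coeff_C_mul, b1, c1, coeff_pE6_one]; norm_num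
  · rw [pG6, map_sub, map_sub, PowerSeries.coeff_C_mul, b2, c2, coeff_pE6_two]; norm_num

lemma coeff_key (n : ℕ) (hn : n ≤ 2) :
    PowerSeries.coeff n (pF2 * pG6 - PowerSeries.C 5832 * (pF4 * pF4)) = 0 := by
  obtain ⟨g0, g1, g2⟩ := coeff_pG6
  obtain ⟨a0, a1, a2⟩ := coeff012_mul pF2 pG6 coeff_pF2_zero coeff_pF2_one coeff_pF2_two
    g0 g1 g2
  obtain ⟨b0, b1, b2⟩ := coeff012_mul pF4 pF4 coeff_pF4_zero coeff_pF4_one coeff_pF4_two
    coeff_pF4_zero coeff_pF4_one coeff_pF4_two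
  interval_cases n
  · rw [map_sub, PowerSeries.coeff_C_mul, a0, b0]; norm_num
  · rw [map_sub, PowerSeries.coeff_C_mul, a1, b1]; norm_num
  · rw [map_sub, PowerSeries.coeff_C_mul, a2, b2]; norm_num

lemma isQExpC_intC_mul {k : ℕ} {P : PowerSeries ℤ} (h : IsQExp k P) (a : ℤ) :
    IsQExp k (PowerSeries.C a * P) := by
  unfold IsQExp
  rw [map_mul, PowerSeries.map_C]
  exact IsQExpC.C_mul h _

lemma IsQExp.sub {k : ℕ} {P P' : PowerSeries ℤ} (h : IsQExp k P) (h' : IsQExp k P') :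
    IsQExp k (P - P') := by
  unfold IsQExp
  rw [map_sub]
  exact IsQExpC.sub h h'

lemma isQExp_pG6 (hE : EisThreeStatement) : IsQExp 6 pG6 := by
  have h2 := isQExp_F2 hE
  have h222 : IsQExp 6 (pF2 * (pF2 * pF2)) := h2.mul (h2.mul h2)
  have h24 : IsQExp 6 (pF2 * pF4) := h2.mul isQExp_F4
  exact (h222.sub (isQExpC_intC_mul h24 540)).sub isQExp_E6

theorem key_identity (hE : EisThreeStatement) :
    pF2 * pG6 = PowerSeries.C 5832 * (pF4 * pF4) := by
  have h8 : IsQExp 8 (pF2 * pG6 - PowerSeries.C 5832 * (pF4 * pF4)) :=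
    ((isQExp_F2 hE).mul (isQExp_pG6 hE)).sub (isQExpC_intC_mul (isQExp_F4.mul isQExp_F4) 5832)
  have h0 := IsQExpC.eq_zero h8 (fun n hn => by
    rw [PowerSeries.coeff_map, coeff_key n (by omega), map_zero])
  have hinj := PowerSeries.map_injective (Int.castRingHom ℂ) Int.cast_injective
  have := hinj (h0.trans (map_zero _).symm)
  exact sub_eq_zero.mp this

/-- The `q`-expansion of `F₆ = F₄² / F₂`. -/
noncomputable def pF6 : PowerSeries ℤ := pF4 * pF4 * PowerSeries.invOfUnit pF2 1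

lemma constantCoeff_pF2 : PowerSeries.constantCoeff pF2 = ((1 : ℤˣ) : ℤ) := by
  rw [← PowerSeries.coeff_zero_eq_constantCoeff_apply, coeff_pF2_zero]; rfl

lemma pG6_eq (hE : EisThreeStatement) : pG6 = PowerSeries.C 5832 * pF6 := by
  have h1 : pF2 * PowerSeries.invOfUnit pF2 1 = 1 :=
    PowerSeries.mul_invOfUnit pF2 1 constantCoeff_pF2
  calc pG6 = (pF2 * pG6) * PowerSeries.invOfUnit pF2 1 := by
        rw [mul_comm pF2 pG6, mul_assoc, h1, mul_one]
    _ = PowerSeries.C 5832 * pF6 := by rw [key_identity hE, pF6, mul_assoc]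

lemma isQExp_F6 (hE : EisThreeStatement) : IsQExp 6 pF6 := by
  have h := (isQExp_pG6 hE : IsQExpC 6 _).smul ((5832 : ℂ)⁻¹)
  unfold IsQExp
  convert h using 1
  rw [pG6_eq hE, map_mul, PowerSeries.map_C, PowerSeries.smul_eq_C_mul, ← mul_assoc, ← map_mul]
  simp

/-! ### Reduction modulo 2 -/

/-- Reduction of integral power series modulo 2. -/
noncomputable def red : PowerSeries ℤ →+* PowerSeries (ZMod 2) :=
  PowerSeries.map (Int.castRingHom (ZMod 2))

lemma coeff_red (n : ℕ) (P : PowerSeries ℤ) :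
    PowerSeries.coeff n (red P) = ((PowerSeries.coeff n P : ℤ) : ZMod 2) := by
  rw [red, PowerSeries.coeff_map]; rfl

lemma zmod_two_pow_three (x : ZMod 2) : x ^ 3 = x := by
  revert x; decide

lemma sum_divisors_three_dvd (n : ℕ) :
    ∑ d ∈ n.divisors.filter (fun d => 3 ∣ d), (d : ZMod 2) =
      if 3 ∣ n then ∑ e ∈ (n / 3).divisors, (e : ZMod 2) else 0 := by
  split_ifs with h3
  · obtain ⟨m, rfl⟩ := h3
    rw [Nat.mul_div_cancel_left _ (by norm_num : 0 < 3)]
    rcases Nat.eq_zero_or_pos m with rfl | hm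
    · simp
    · have hset : (3 * m).divisors.filter (fun d => 3 ∣ d) =
          m.divisors.map ⟨fun e => 3 * e, fun a b h => by simpa using h⟩ := by
        ext d
        simp only [Finset.mem_filter, Nat.mem_divisors, Finset.mem_map]
        change _ ↔ ∃ a, (a ∣ m ∧ m ≠ 0) ∧ 3 * a = d
        constructor
        · rintro ⟨⟨hd, -⟩, ⟨e, rfl⟩⟩
          exact ⟨e, ⟨(Nat.mul_dvd_mul_iff_left (by norm_num)).mp hd, hm.ne'⟩, rfl⟩
        · rintro ⟨e, ⟨he, -⟩, rfl⟩
          exact ⟨⟨Nat.mul_dvd_mul_left 3 he, by omega⟩, dvd_mul_right 3 e⟩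
      rw [hset, Finset.sum_map]
      refine Finset.sum_congr rfl fun e _ => ?_
      change ((3 * e : ℕ) : ZMod 2) = (e : ZMod 2)
      push_cast
      have : (3 : ZMod 2) = 1 := by decide
      rw [this, one_mul]
  · refine Finset.sum_eq_zero fun d hd => ?_
    rw [Finset.mem_filter, Nat.mem_divisors] at hd
    exact absurd (hd.2.trans hd.1.1) h3

lemma cast_sigma_three (n : ℕ) :
    ((ArithmeticFunction.sigma 3 n : ℕ) : ZMod 2) = ∑ d ∈ n.divisors, (d : ZMod 2) := by
  rw [ArithmeticFunction.sigma_apply]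
  push_cast
  exact Finset.sum_congr rfl fun d _ => zmod_two_pow_three _

lemma red_pF4 : red pF4 = red gPrime := by
  ext n
  rw [coeff_red, coeff_red, coeff_pF4, coeff_gPrime]
  push_cast
  rw [cast_sigma_three, ← Finset.sum_filter_add_sum_filter_not n.divisors (fun d => 3 ∣ d),
    sum_divisors_three_dvd]
  split_ifs with h3
  · rw [cast_sigma_three]; ring
  · simp

lemma red_pF2 : red pF2 = 1 := by
  rw [pF2, map_add, map_one, map_mul]
  have : red (12 : PowerSeries ℤ) = 0 := by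
    rw [show (12 : PowerSeries ℤ) = PowerSeries.C (12 : ℤ) by simp, red, PowerSeries.map_C]
    have : (Int.castRingHom (ZMod 2)) 12 = 0 := by decide
    rw [this, map_zero]
  rw [this, zero_mul, add_zero]

lemma red_invOfUnit_pF2 : red (PowerSeries.invOfUnit pF2 1) = 1 := by
  have h1 : pF2 * PowerSeries.invOfUnit pF2 1 = 1 :=
    PowerSeries.mul_invOfUnit pF2 1 constantCoeff_pF2
  have := congrArg red h1
  rwa [map_mul, red_pF2, one_mul, map_one] at this

/-! ### Good series -/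

/-- `P` is the `q`-expansion of a weight `k` form on `Γ₀(3)`, `P = qⁱ (1 + ⋯)` and
`P ≡ G'ⁱ mod 2`. -/
structure Good (k i : ℕ) (P : PowerSeries ℤ) : Prop where
  isQExp : IsQExp k P
  low : ∃ U : PowerSeries ℤ, PowerSeries.constantCoeff U = 1 ∧ P = PowerSeries.X ^ i * U
  red_eq : red P = red gPrime ^ i

lemma Good.mul {k k' i i' : ℕ} {P P' : PowerSeries ℤ} (h : Good k i P) (h' : Good k' i' P') :
    Good (k + k') (i + i') (P * P') := by
  obtain ⟨U, hU, hP⟩ := h.low
  obtain ⟨U', hU', hP'⟩ := h'.low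
  refine ⟨h.isQExp.mul h'.isQExp, ⟨U * U', by rw [map_mul, hU, hU', one_mul], ?_⟩, ?_⟩
  · rw [hP, hP', pow_add]; ring
  · rw [map_mul, h.red_eq, h'.red_eq, pow_add]

lemma Good.one : Good 0 0 1 :=
  ⟨IsQExp.one, ⟨1, map_one _, by simp⟩, by simp⟩

lemma Good.pow {k i : ℕ} {P : PowerSeries ℤ} (h : Good k i P) (n : ℕ) :
    Good (n * k) (n * i) (P ^ n) := by
  induction n with
  | zero => simpa using Good.one
  | succ n ih =>
    have := ih.mul h
    rwa [← pow_succ, show n * k + k = (n + 1) * k by ring,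
      show n * i + i = (n + 1) * i by ring] at this

lemma good_F2 (hE : EisThreeStatement) : Good 2 0 pF2 :=
  ⟨isQExp_F2 hE, ⟨pF2, by rw [constantCoeff_pF2]; rfl, by simp⟩, by rw [red_pF2, pow_zero]⟩

lemma good_F4 : Good 4 1 pF4 := by
  refine ⟨isQExp_F4, ⟨PowerSeries.mk fun n => PowerSeries.coeff (n + 1) pF4, ?_, ?_⟩, ?_⟩
  · rw [← PowerSeries.coeff_zero_eq_constantCoeff_apply, PowerSeries.coeff_mk, zero_add,
      coeff_pF4_one]
  · ext n
    rw [pow_one]
    rcases n with _ | n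
    · rw [coeff_pF4_zero]; simp
    · rw [PowerSeries.coeff_succ_X_mul, PowerSeries.coeff_mk]
  · rw [red_pF4, pow_one]

lemma good_F6 (hE : EisThreeStatement) : Good 6 2 pF6 := by
  obtain ⟨U, hU, hP⟩ := good_F4.low
  refine ⟨isQExp_F6 hE, ⟨U * U * PowerSeries.invOfUnit pF2 1, ?_, ?_⟩, ?_⟩
  · rw [map_mul, map_mul, hU, PowerSeries.constantCoeff_invOfUnit]; simp
  · rw [pF6, hP]; ring
  · rw [pF6, map_mul, map_mul, red_pF4, red_invOfUnit_pF2, mul_one, pow_two]

/-- The triangular family: for `3 i ≤ k`, `k` even, a good series of weight `k` and order `i`. -/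
theorem exists_good (hE : EisThreeStatement) (k : ℕ) (hk : Even k) (i : ℕ) (hi : i ≤ k / 3) :
    ∃ P, Good k i P := by
  obtain ⟨m, hm⟩ := hk
  have h3 : 3 * i ≤ k := by omega
  -- i = b + 2 c, weights 4 b + 6 c + 2 a = k
  set c := i / 2 with hc
  set b := i % 2 with hb
  have hib : i = b + 2 * c := by omega
  have hle : 4 * b + 6 * c ≤ k := by omega
  obtain ⟨a, ha⟩ : ∃ a, k = 2 * a + (4 * b + 6 * c) := ⟨(k - (4 * b + 6 * c)) / 2, by omega⟩
  have h := (((good_F2 hE).pow a).mul (good_F4.pow b)).mul ((good_F6 hE).pow c)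
  have hw : a * 2 + b * 4 + c * 6 = k := by omega
  have ho : a * 0 + b * 1 + c * 2 = i := by omega
  rw [hw, ho] at h
  exact ⟨_, h⟩

/-! ### The structure theorem -/

lemma exists_two_mul_of_red_eq {P Q : PowerSeries ℤ} (h : red P = red Q) (n : ℕ) :
    ∃ r : ℤ, PowerSeries.coeff n P - PowerSeries.coeff n Q = 2 * r := by
  have h1 := congrArg (PowerSeries.coeff n) h
  rw [coeff_red, coeff_red] at h1
  have h2 : (((PowerSeries.coeff n P - PowerSeries.coeff n Q : ℤ)) : ZMod 2) = 0 := by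
    push_cast; rw [h1, sub_self]
  exact (ZMod.intCast_zmod_eq_zero_iff_dvd _ 2).mp h2

lemma Good.coeff_lt {k i : ℕ} {P : PowerSeries ℤ} (h : Good k i P) {n : ℕ} (hn : n < i) :
    PowerSeries.coeff n P = 0 := by
  obtain ⟨U, -, rfl⟩ := h.low
  rw [PowerSeries.coeff_X_pow_mul', if_neg (by omega)]

lemma Good.coeff_self {k i : ℕ} {P : PowerSeries ℤ} (h : Good k i P) :
    PowerSeries.coeff i P = 1 := by
  obtain ⟨U, hU, rfl⟩ := h.low
  rw [PowerSeries.coeff_X_pow_mul', if_pos le_rfl, Nat.sub_self,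
    PowerSeries.coeff_zero_eq_constantCoeff_apply, hU]

lemma coeff_sum_C_mul_map (s : Finset ℕ) (c : ℕ → ℂ) (P : ℕ → PowerSeries ℤ) (n : ℕ) :
    PowerSeries.coeff n (∑ i ∈ s, PowerSeries.C (c i) * (P i).map (Int.castRingHom ℂ)) =
      ∑ i ∈ s, c i * ((PowerSeries.coeff n (P i) : ℤ) : ℂ) := by
  rw [map_sum]
  refine Finset.sum_congr rfl fun i _ => ?_
  rw [PowerSeries.coeff_C_mul, PowerSeries.coeff_map, eq_intCast]

/-- (L3) modulo 2, a form of even weight `k` on `Γ₀(3)` with coefficients in a subring `A ⊆ ℂ` is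
a polynomial of degree `≤ k / 3` in `G'` with coefficients in `A`. -/
theorem levelThree (hE : EisThreeStatement) : LevelThreeStatement := by
  intro k hk A f hf
  classical
  set m := k / 3 with hm
  have hex : ∀ i, ∃ P : PowerSeries ℤ, i ≤ m → Good k i P := fun i => by
    by_cases hi : i ≤ m
    · obtain ⟨P, hP⟩ := exists_good hE k hk i hi
      exact ⟨P, fun _ => hP⟩
    · exact ⟨0, fun h => absurd h hi⟩
  choose P hP using hex
  -- triangular elimination
  have key : ∀ j, j ≤ m + 1 → ∃ c : ℕ → ℂ, (∀ i, c i ∈ A) ∧ (∀ i, j ≤ i → c i = 0) ∧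
      ∀ n, n < j → PowerSeries.coeff n (qExpansion 1 (⇑f)) =
        PowerSeries.coeff n
          (∑ i ∈ Finset.range (m + 1), PowerSeries.C (c i) * (P i).map (Int.castRingHom ℂ)) := by
    intro j
    induction j with
    | zero =>
      intro _
      exact ⟨fun _ => 0, fun _ => A.zero_mem, fun _ _ => rfl, fun n hn => absurd hn (Nat.not_lt_zero n)⟩
    | succ j ih =>
      intro hj
      obtain ⟨c, hcA, hc0, hcn⟩ := ih (by omega)
      have hjm : j ≤ m := by omega
      have hjmem : j ∈ Finset.range (m + 1) := Finset.mem_range.mpr (by omega)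
      set d : ℂ := PowerSeries.coeff j (qExpansion 1 (⇑f)) -
        ∑ i ∈ Finset.range (m + 1), c i * ((PowerSeries.coeff j (P i) : ℤ) : ℂ) with hd
      have hdA : d ∈ A := by
        refine A.sub_mem (hf j) (A.sum_mem fun i _ => A.mul_mem (hcA i) ?_)
        exact intCast_mem A _
      have hsum : ∀ n, ∑ i ∈ Finset.range (m + 1),
          Function.update c j d i * ((PowerSeries.coeff n (P i) : ℤ) : ℂ) =
          ∑ i ∈ Finset.range (m + 1), c i * ((PowerSeries.coeff n (P i) : ℤ) : ℂ) +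
            d * ((PowerSeries.coeff n (P j) : ℤ) : ℂ) := by
        intro n
        rw [← Finset.add_sum_erase _ _ hjmem, ← Finset.add_sum_erase _ (fun i => c i * _) hjmem]
        rw [Function.update_self, hc0 j le_rfl, zero_mul, zero_add, add_comm]
        congr 1
        refine Finset.sum_congr rfl fun i hi => ?_
        rw [Function.update_of_ne (Finset.ne_of_mem_erase hi)]
      refine ⟨Function.update c j d, ?_, ?_, ?_⟩
      · intro i
        by_cases hij : i = j
        · subst hij; rw [Function.update_self]; exact hdA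
        · rw [Function.update_of_ne hij]; exact hcA i
      · intro i hi
        rw [Function.update_of_ne (by omega)]
        exact hc0 i (by omega)
      · intro n hn
        rw [coeff_sum_C_mul_map, hsum]
        rcases Nat.lt_succ_iff_lt_or_eq.mp hn with hlt | rfl
        · rw [(hP j hjm).coeff_lt hlt, Int.cast_zero, mul_zero, add_zero, hcn n hlt,
            coeff_sum_C_mul_map]
        · rw [(hP n hjm).coeff_self, Int.cast_one, mul_one, hd]
          ring
  obtain ⟨c, hcA, -, hcn⟩ := key (m + 1) le_rfl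
  -- Sturm
  have hS : IsQExpC k
      (∑ i ∈ Finset.range (m + 1), PowerSeries.C (c i) * (P i).map (Int.castRingHom ℂ)) :=
    IsQExpC.sum _ _ fun i hi =>
      IsQExpC.C_mul (hP i (by rw [Finset.mem_range] at hi; omega)).isQExp _
  have hfS : qExpansion 1 (⇑f) =
      ∑ i ∈ Finset.range (m + 1), PowerSeries.C (c i) * (P i).map (Int.castRingHom ℂ) := by
    have h0 := IsQExpC.eq_zero (IsQExpC.sub ⟨f, rfl⟩ hS) (fun n hn => by
      rw [map_sub, hcn n (by omega), sub_self])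
    exact sub_eq_zero.mp h0
  -- congruence
  have hr : ∀ i n, ∃ r : ℤ, i ≤ m →
      PowerSeries.coeff n (P i) - PowerSeries.coeff n (gPrime ^ i) = 2 * r := fun i n => by
    by_cases hi : i ≤ m
    · obtain ⟨r, hr⟩ := exists_two_mul_of_red_eq
        (show red (P i) = red (gPrime ^ i) by rw [(hP i hi).red_eq, map_pow]) n
      exact ⟨r, fun _ => hr⟩
    · exact ⟨0, fun h => absurd h hi⟩
  choose r hr using hr
  refine ⟨c, hcA, fun n => ⟨∑ i ∈ Finset.range (m + 1), c i * ((r i n : ℤ) : ℂ), ?_, ?_⟩⟩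
  · exact A.sum_mem fun i _ => A.mul_mem (hcA i) (intCast_mem A _)
  · rw [hfS, coeff_sum_C_mul_map, coeff_sum_C_mul_map, ← Finset.sum_sub_distrib, Finset.mul_sum]
    refine Finset.sum_congr rfl fun i hi => ?_
    have := hr i n (by rw [Finset.mem_range] at hi; omega)
    have h2 : ((PowerSeries.coeff n (P i) : ℤ) : ℂ) - ((PowerSeries.coeff n (gPrime ^ i) : ℤ) : ℂ)
        = 2 * ((r i n : ℤ) : ℂ) := by
      exact_mod_cast congrArg (Int.cast : ℤ → ℂ) this
    rw [← mul_sub, h2]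
    ring

end Fermat.Agent.H69.L3
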