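import Mathlib
import Fermat.Prelude.Def_ModularCurve_LaurentCoeff

/-!
# Linear independence of Laurent series is preserved by extension of the coefficient field

If `f i ∈ K((q))` are `K`-linearly independent and `ι : K →+* L` is a homomorphism of fields,
then the series `coeffMap ι (f i) ∈ L((q))` are `L`-linearly independent.  (GEN-16 slice (i).)
-/

set_option autoImplicit false

noncomputable section

namespace Fermat.Agent.H69

open ModularCurve

/-- Coefficientwise core: an `L`-linear relation between the coefficient sequences of the `f i`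
forces all coefficients of the relation to vanish, if the `f i` admit no nontrivial `K`-linear
relation. -/
theorem coeff_rel_descent {K L : Type*} [Field K] [Field L] (ι : K →+* L) {I : Type*}
    (s : Finset I) (f : I → LaurentSeries K) (c : I → L)
    (h : ∀ m : ℤ, ∑ i ∈ s, c i * ι ((f i).coeff m) = 0)
    (hind : ∀ a : I → K, (∀ m : ℤ, ∑ i ∈ s, a i * (f i).coeff m = 0) → ∀ i ∈ s, a i = 0) :
    ∀ i ∈ s, c i = 0 := by
  let _ : Algebra K L := ι.toAlgebra
  intro i hi
  rw [← Module.forall_dual_apply_eq_zero_iff K (c i)]
  intro φ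
  refine hind (fun j => φ (c j)) (fun m => ?_) i hi
  have h1 : ∀ j ∈ s, φ (c j) * (f j).coeff m = φ (c j * ι ((f j).coeff m)) := by
    intro j _
    have : c j * ι ((f j).coeff m) = (f j).coeff m • c j := by
      rw [Algebra.smul_def, mul_comm]
      rfl
    rw [this, map_smul, smul_eq_mul, mul_comm]
  rw [Finset.sum_congr rfl h1, ← map_sum, h m, map_zero]

/-- Series form, with multiplication by constants `HahnSeries.C (c i)`. -/
theorem coeffMap_rel_descent {K L : Type*} [Field K] [Field L] (ι : K →+* L) {I : Type*}
    (s : Finset I) (f : I → LaurentSeries K) (c : I → L)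
    (h : ∑ i ∈ s, HahnSeries.C (c i) * coeffMap ι (f i) = 0)
    (hind : ∀ a : I → K, ∑ i ∈ s, HahnSeries.C (a i) * f i = 0 → ∀ i ∈ s, a i = 0) :
    ∀ i ∈ s, c i = 0 := by
  refine coeff_rel_descent ι s f c (fun m => ?_) (fun a ha => hind a ?_)
  · have := congrArg (fun x : LaurentSeries L => x.coeff m) h
    simpa [HahnSeries.coeff_sum] using this
  · ext m
    simpa [HahnSeries.coeff_sum] using ha m

/-- Contrapositive form: a nontrivial `L`-linear relation between the `coeffMap ι (f i)` yields a
nontrivial `K`-linear relation between the `f i`. -/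
theorem exists_rel_of_coeffMap_rel {K L : Type*} [Field K] [Field L] (ι : K →+* L) {n : ℕ}
    (f : Fin n → LaurentSeries K) (c : Fin n → L) (hc : c ≠ 0)
    (h : ∑ i, HahnSeries.C (c i) * coeffMap ι (f i) = 0) :
    ∃ a : Fin n → K, a ≠ 0 ∧ ∑ i, HahnSeries.C (a i) * f i = 0 := by
  by_contra hno
  push Not at hno
  apply hc
  funext i
  refine coeffMap_rel_descent ι Finset.univ f c h (fun a ha j _ => ?_) i (Finset.mem_univ i)
  by_contra hj
  have ha0 : a ≠ 0 := fun h0 => hj (by rw [h0]; rfl)
  exact hno a ha0 ha

/-- `LinearIndependent` form. -/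
theorem linearIndependent_coeffMap {K L : Type*} [Field K] [Field L] (ι : K →+* L) {I : Type*}
    (f : I → LaurentSeries K) (hf : LinearIndependent K f) :
    LinearIndependent L (fun i => coeffMap ι (f i)) := by
  rw [linearIndependent_iff'] at hf ⊢
  intro s c hc i hi
  refine coeff_rel_descent ι s f c (fun m => ?_) (fun a ha => hf s a ?_) i hi
  · have := congrArg (fun x : LaurentSeries L => x.coeff m) hc
    simpa [HahnSeries.coeff_sum] using this
  · ext m
    simpa [HahnSeries.coeff_sum] using ha m

end Fermat.Agent.H69

end
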