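import Fermat.Agent.H23.BlueprintMod

/-!
# GEN-16 slice (iv): `jBar N` is transcendental over `ℚ̄`

General lemma: a Laurent series of negative order over a field `K` is transcendental over `K`.
-/

set_option autoImplicit false

noncomputable section

namespace Fermat.Agent.H69

open Polynomial

/-- Coefficients of a scalar multiple (for the algebra structure of Laurent series). -/
theorem coeff_algebra_smul {K : Type*} [Field K] (c : K) (x : LaurentSeries K) (m : ℤ) :
    (@HSMul.hSMul K (LaurentSeries K) (LaurentSeries K)
      (@instHSMul K (LaurentSeries K) Algebra.toSMul) c x).coeff m = c * x.coeff m := by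
  rw [Algebra.smul_def, ModularCurve.algebraMap_laurentSeries_eq_single,
    HahnSeries.coeff_single_mul, sub_zero]

/-- A Laurent series (Hahn series over `ℤ`) of negative order over a field is transcendental over
the field of constants. -/
theorem transcendental_of_order_neg {K : Type*} [Field K] (f : LaurentSeries K)
    (hf : f.order < 0) : Transcendental K f := by
  have hf0 : f ≠ 0 := by
    rintro rfl
    simp at hf
  rintro ⟨P, hP0, hP⟩
  obtain ⟨n, hn⟩ : ∃ n, n = P.natDegree := ⟨_, rfl⟩
  have hlead : P.coeff n ≠ 0 := by
    rw [hn]
    exact Polynomial.leadingCoeff_ne_zero.2 hP0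
  have hcoeff : (Polynomial.aeval f P).coeff (n • f.order) ≠ 0 := by
    rw [Polynomial.aeval_eq_sum_range, ← hn, HahnSeries.coeff_sum, Finset.sum_range_succ,
      Finset.sum_eq_zero, zero_add]
    · rw [coeff_algebra_smul]
      refine mul_ne_zero hlead ?_
      rw [← HahnSeries.order_pow]
      exact fun h => pow_ne_zero _ hf0 (HahnSeries.coeff_order_eq_zero.1 h)
    · intro i hi
      rw [coeff_algebra_smul]
      have hi' : i < n := Finset.mem_range.1 hi
      have : (f ^ i).coeff (n • f.order) = 0 := by
        apply HahnSeries.coeff_eq_zero_of_lt_order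
        rw [HahnSeries.order_pow]
        simp only [nsmul_eq_mul]
        have h1 : (i : ℤ) < (n : ℤ) := by exact_mod_cast hi'
        nlinarith
      rw [this, mul_zero]
  rw [hP] at hcoeff
  exact hcoeff rfl

/-- The `q`-series `j` over any field of characteristic zero has order `< 0`. -/
theorem order_coeffEmb_jq_neg (L : Type*) [Field L] [Algebra ℚ L] :
    (ModularCurve.coeffEmb L ModularCurve.jq).order < 0 := by
  have hc : (ModularCurve.coeffEmb L ModularCurve.jq).coeff (-1 : ℤ) ≠ 0 := by
    rw [ModularCurve.coeffEmb_coeff, ModularCurve.coeff_jq_neg_one, map_one]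
    exact one_ne_zero
  have := HahnSeries.order_le_of_coeff_ne_zero hc
  omega

/-- **GEN-16 (iv)**: `j` is transcendental over `ℚ̄` in the function field of `X₀(N)`. -/
theorem transcendental_jBar (N : ℕ) [NeZero N] :
    Transcendental (AlgebraicClosure ℚ) (Fermat.Agent.H23.jBar N) := by
  intro halg
  have h1 : IsAlgebraic (AlgebraicClosure ℚ)
      (algebraMap ↥(ModularCurve.modularFunctionFieldBar N)
        (LaurentSeries (AlgebraicClosure ℚ)) (Fermat.Agent.H23.jBar N)) :=
    halg.algebraMap
  exact transcendental_of_order_neg _ (order_coeffEmb_jq_neg (AlgebraicClosure ℚ)) h1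

end Fermat.Agent.H69

end
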