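import Mathlib
import Fermat.Agent.H69.CoeffMapIndep
import Fermat.Agent.H69.JBarTranscendental

/-!
# P-ES1, row ES1-FINITE (helper69): algebraic relations over `K[j]` and finiteness

* `AlgRel K j x` : `x ∈ K((q))` satisfies a nontrivial polynomial relation over `K[j]`
  (`∑ c_{ab} j^a x^b = 0`).  This notion is stable under extension of the coefficient field
  (`AlgRel.map`) and descends (`AlgRel.descent`).
* `finiteDimensional_laurentBaseChange` : if `F₀ = ℚ(S)` with `S` finite, `j ∈ F₀` and every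
  element of `S` satisfies `AlgRel ℚ jq`, then `L · F₀` is finite over `L(j)` for every field `L`
  of characteristic zero.
-/

set_option autoImplicit false

noncomputable section

namespace Fermat.Agent.H69.ES1

open ModularCurve IntermediateField Polynomial

/-- `x` satisfies a nontrivial polynomial relation with coefficients in `K[j]`. -/
def AlgRel (K : Type*) [Field K] (j x : LaurentSeries K) : Prop :=
  ∃ (s : Finset (ℕ × ℕ)) (c : ℕ × ℕ → K), (∃ i ∈ s, c i ≠ 0) ∧
    ∑ i ∈ s, HahnSeries.C (c i) * (j ^ i.2 * x ^ i.1) = 0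

theorem coeffMap_hahnC {K L : Type*} [Field K] [Field L] (ι : K →+* L) (c : K) :
    coeffMap ι (HahnSeries.C c) = HahnSeries.C (ι c) := by
  show coeffMap ι (HahnSeries.single 0 c) = HahnSeries.single 0 (ι c)
  rw [coeffMap_single]

theorem algebraMap_eq_hahnC {K : Type*} [Field K] (c : K) :
    algebraMap K (LaurentSeries K) c = HahnSeries.C c := by
  rw [algebraMap_laurentSeries_eq_single]
  rfl

theorem AlgRel.map {K L : Type*} [Field K] [Field L] (ι : K →+* L) {j x : LaurentSeries K}
    (h : AlgRel K j x) : AlgRel L (coeffMap ι j) (coeffMap ι x) := by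
  obtain ⟨s, c, ⟨i, hi, hci⟩, hrel⟩ := h
  refine ⟨s, fun i => ι (c i), ⟨i, hi, (map_ne_zero ι).2 hci⟩, ?_⟩
  have := congrArg (coeffMap ι) hrel
  rw [map_sum, map_zero] at this
  rw [← this]
  refine Finset.sum_congr rfl fun i _ => ?_
  rw [map_mul, map_mul, map_pow, map_pow, coeffMap_hahnC]

theorem AlgRel.descent {K L : Type*} [Field K] [Field L] (ι : K →+* L) {j x : LaurentSeries K}
    (h : AlgRel L (coeffMap ι j) (coeffMap ι x)) : AlgRel K j x := by
  obtain ⟨s, c, ⟨i₀, hi₀, hci₀⟩, hrel⟩ := h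
  by_contra hno
  apply hci₀
  refine Fermat.Agent.H69.coeffMap_rel_descent ι s (fun i => j ^ i.2 * x ^ i.1) c ?_ ?_ i₀ hi₀
  · rw [← hrel]
    refine Finset.sum_congr rfl fun i _ => ?_
    rw [map_mul, map_pow, map_pow]
  · intro a ha i hi
    by_contra hne
    exact hno ⟨s, a, ⟨i, hi, hne⟩, ha⟩

/-- A ring homomorphism of Laurent series commuting with constants transports relations. -/
theorem AlgRel.ringHom {K : Type*} [Field K] (φ : LaurentSeries K →+* LaurentSeries K)
    (hφ : ∀ c : K, φ (HahnSeries.C c) = HahnSeries.C c) {j x : LaurentSeries K}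
    (h : AlgRel K j x) : AlgRel K (φ j) (φ x) := by
  obtain ⟨s, c, hc, hrel⟩ := h
  refine ⟨s, c, hc, ?_⟩
  have := congrArg φ hrel
  rw [map_sum, map_zero] at this
  rw [← this]
  refine Finset.sum_congr rfl fun i _ => ?_
  rw [map_mul, map_mul, map_pow, map_pow, hφ]

/-- The two-variable polynomial of a relation. -/
theorem AlgRel.exists_poly {K : Type*} [Field K] {j x : LaurentSeries K} (h : AlgRel K j x) :
    ∃ P : Polynomial (Polynomial K), P ≠ 0 ∧
      Polynomial.eval₂ ((Polynomial.aeval j : Polynomial K →ₐ[K] LaurentSeries K) :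
        Polynomial K →+* LaurentSeries K) x P = 0 := by
  classical
  obtain ⟨s, c, ⟨i₀, hi₀, hci₀⟩, hrel⟩ := h
  refine ⟨∑ i ∈ s, Polynomial.monomial i.1 (Polynomial.monomial i.2 (c i)), ?_, ?_⟩
  · intro h0
    have h1 := congrArg (fun P : Polynomial (Polynomial K) => (P.coeff i₀.1).coeff i₀.2) h0
    simp only [Polynomial.finsetSum_coeff, Polynomial.coeff_monomial, Polynomial.coeff_zero]
      at h1
    rw [Finset.sum_eq_single i₀] at h1
    · rw [if_pos rfl, Polynomial.coeff_monomial, if_pos rfl] at h1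
      exact hci₀ h1
    · intro i _ hne
      by_cases h1' : i.1 = i₀.1
      · rw [if_pos h1', Polynomial.coeff_monomial]
        have h2 : i.2 ≠ i₀.2 := fun h2 => hne (Prod.ext h1' h2)
        rw [if_neg h2]
      · rw [if_neg h1', Polynomial.coeff_zero]
    · intro hni
      exact absurd hi₀ hni
  · rw [Polynomial.eval₂_finsetSum, ← hrel]
    refine Finset.sum_congr rfl fun i _ => ?_
    rw [Polynomial.eval₂_monomial, AlgHom.coe_toRingHom, Polynomial.aeval_monomial,
      algebraMap_eq_hahnC, mul_assoc]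

set_option synthInstance.maxHeartbeats 400000 in
/-- An algebraic relation over `K[j]`, `j` transcendental, makes `x` algebraic over `K(j)`;
form inside an intermediate field. -/
theorem AlgRel.isAlgebraic_adjoin {L : Type*} [Field L]
    (E : IntermediateField L (LaurentSeries L)) {j x : LaurentSeries L} (hj : j ∈ E)
    (hx : x ∈ E) (hjt : Transcendental L j) (h : AlgRel L j x) :
    IsAlgebraic ↥(L⟮(⟨j, hj⟩ : ↥E)⟯) (⟨x, hx⟩ : ↥E) := by
  obtain ⟨P, hP0, hP⟩ := h.exists_poly
  set jE : ↥E := ⟨j, hj⟩ with hjE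
  set g : ↥(L⟮jE⟯) := AdjoinSimple.gen L jE with hg
  have hgt : Transcendental L g := by
    intro halg
    have h1 : IsAlgebraic L ((algebraMap ↥E (LaurentSeries L))
        ((algebraMap ↥(L⟮jE⟯) ↥E) g)) := (halg.algebraMap).algebraMap
    exact hjt h1
  have hinj : Function.Injective
      ((Polynomial.aeval g : Polynomial L →ₐ[L] ↥(L⟮jE⟯)) : Polynomial L →+* ↥(L⟮jE⟯)) :=
    transcendental_iff_injective.1 hgt
  refine ⟨P.map ((Polynomial.aeval g : Polynomial L →ₐ[L] ↥(L⟮jE⟯)) :
      Polynomial L →+* ↥(L⟮jE⟯)), (Polynomial.map_ne_zero_iff hinj).2 hP0, ?_⟩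
  apply Subtype.ext
  show ((Polynomial.aeval (⟨x, hx⟩ : ↥E) (P.map _) : ↥E) : LaurentSeries L) = 0
  rw [Polynomial.aeval_def, Polynomial.eval₂_map]
  have hcoe : ∀ y : ↥E, ((y : ↥E) : LaurentSeries L) = (E.val : ↥E →+* LaurentSeries L) y :=
    fun _ => rfl
  rw [hcoe, Polynomial.hom_eval₂, ← hP]
  congr 1
  refine RingHom.ext fun Q => ?_
  induction Q using Polynomial.induction_on' with
  | add p q hp hq => rw [map_add, map_add, hp, hq]
  | monomial n a =>
    simp only [RingHom.comp_apply, AlgHom.coe_toRingHom, Polynomial.aeval_monomial, map_mul,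
      map_pow]
    rfl

/-! ## Generation and finiteness -/

theorem coeffEmb_algebraMap (L : Type*) [Field L] [Algebra ℚ L] (r : ℚ) :
    coeffEmb L (algebraMap ℚ (LaurentSeries ℚ) r)
      = algebraMap L (LaurentSeries L) (algebraMap ℚ L r) := by
  rw [algebraMap_laurentSeries_eq_single, algebraMap_laurentSeries_eq_single, coeffEmb,
    coeffMap_single]

/-- `L · ℚ(S) = L(S)`. -/
theorem laurentBaseChange_adjoin (L : Type*) [Field L] [Algebra ℚ L]
    (S : Set (LaurentSeries ℚ)) :
    laurentBaseChange L (IntermediateField.adjoin ℚ S)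
      = IntermediateField.adjoin L (⇑(coeffEmb L) '' S) := by
  apply le_antisymm
  · have key : ∀ z ∈ IntermediateField.adjoin ℚ S,
        coeffEmb L z ∈ IntermediateField.adjoin L (⇑(coeffEmb L) '' S) := by
      intro z hz
      induction hz using IntermediateField.adjoin_induction with
      | mem x hx => exact IntermediateField.subset_adjoin L _ ⟨x, hx, rfl⟩
      | algebraMap r =>
        rw [coeffEmb_algebraMap]
        exact IntermediateField.algebraMap_mem _ _
      | add x y _ _ hx hy => rw [map_add]; exact add_mem hx hy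
      | inv x _ hx => rw [map_inv₀]; exact inv_mem hx
      | mul x y _ _ hx hy => rw [map_mul]; exact mul_mem hx hy
    rw [laurentBaseChange, IntermediateField.adjoin_le_iff]
    rintro _ ⟨z, hz, rfl⟩
    exact key z hz
  · rw [IntermediateField.adjoin_le_iff]
    rintro _ ⟨x, hx, rfl⟩
    exact coeffEmb_mem_laurentBaseChange L (IntermediateField.subset_adjoin ℚ S hx)

theorem transcendental_coeffEmb_jq (L : Type*) [Field L] [Algebra ℚ L] :
    Transcendental L (coeffEmb L jq) :=
  Fermat.Agent.H69.transcendental_of_order_neg _ (Fermat.Agent.H69.order_coeffEmb_jq_neg L)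

set_option synthInstance.maxHeartbeats 400000 in
/-- An element of an intermediate field of `L((q))` whose underlying series is transcendental
is transcendental. -/
theorem transcendental_subtype {L : Type*} [Field L] (E : IntermediateField L (LaurentSeries L))
    {j : LaurentSeries L} (hj : j ∈ E) (hjt : Transcendental L j) :
    Transcendental L (⟨j, hj⟩ : ↥E) := by
  intro halg
  have h1 : IsAlgebraic L ((algebraMap ↥E (LaurentSeries L)) (⟨j, hj⟩ : ↥E)) := halg.algebraMap
  exact hjt h1

/-- Transitivity of integrality through simple adjunctions (pure field theory). -/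
theorem isIntegral_adjoin_trans {L E : Type*} [Field L] [Field E] [Algebra L E] (j j' y : E)
    (h1 : IsIntegral ↥(L⟮j⟯) j') (h2 : IsIntegral ↥(L⟮j'⟯) y) : IsIntegral ↥(L⟮j⟯) y := by
  have hint : Algebra.IsIntegral ↥(L⟮j⟯) ↥((L⟮j⟯)⟮j'⟯) :=
    (IntermediateField.isAlgebraic_adjoin_simple h1).isIntegral
  have hle : L⟮j'⟯ ≤ ((L⟮j⟯)⟮j'⟯).restrictScalars L := by
    rw [IntermediateField.adjoin_simple_le_iff]
    exact IntermediateField.mem_adjoin_simple_self _ j'
  let f : ↥(L⟮j'⟯) →+* ↥((L⟮j⟯)⟮j'⟯) :=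
    (IntermediateField.inclusion hle :
      ↥(L⟮j'⟯) →ₐ[L] ↥(((L⟮j⟯)⟮j'⟯).restrictScalars L)).toRingHom
  have hy : IsIntegral ↥((L⟮j⟯)⟮j'⟯) y := by
    obtain ⟨P, hPm, hP⟩ := h2
    refine ⟨P.map f, hPm.map f, ?_⟩
    rw [Polynomial.eval₂_map]
    exact hP
  exact isIntegral_trans y hy

set_option synthInstance.maxHeartbeats 400000 in
/-- Integrality over `L(j)` from a relation over `L[j']` and a relation of `j'` over `L[j]`. -/
theorem AlgRel.isIntegral_of_trans {L : Type*} [Field L]
    (E : IntermediateField L (LaurentSeries L)) {j j' x : LaurentSeries L} (hj : j ∈ E)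
    (hj' : j' ∈ E) (hx : x ∈ E) (hjt : Transcendental L j) (hj't : Transcendental L j')
    (h1 : AlgRel L j j') (h2 : AlgRel L j' x) :
    IsIntegral ↥(L⟮(⟨j, hj⟩ : ↥E)⟯) (⟨x, hx⟩ : ↥E) :=
  isIntegral_adjoin_trans (⟨j, hj⟩ : ↥E) (⟨j', hj'⟩ : ↥E) (⟨x, hx⟩ : ↥E)
    (AlgRel.isAlgebraic_adjoin E hj hj' hjt h1).isIntegral
    (AlgRel.isAlgebraic_adjoin E hj' hx hj't h2).isIntegral

set_option synthInstance.maxHeartbeats 400000 in
set_option maxHeartbeats 800000 in
/-- **Finiteness**, integrality form: an intermediate field `E` of `L((q))` generated by a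
finite set of series each of which is integral over `L(j)`, is finite over `L(j)`. -/
theorem finiteDimensional_of_isIntegral {L : Type*} [Field L]
    (E : IntermediateField L (LaurentSeries L)) (S' : Set (LaurentSeries L)) (hS : S'.Finite)
    (hE : E = IntermediateField.adjoin L S') {j : LaurentSeries L} (hj : j ∈ E)
    (hint : ∀ y : ↥E, (y : LaurentSeries L) ∈ S' → IsIntegral ↥(L⟮(⟨j, hj⟩ : ↥E)⟯) y) :
    FiniteDimensional ↥(L⟮(⟨j, hj⟩ : ↥E)⟯) ↥E := by
  classical
  have hSE : ∀ x ∈ S', x ∈ E := fun x hx => by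
    rw [hE]; exact IntermediateField.subset_adjoin L S' hx
  let T : Set ↥E := {y | (y : LaurentSeries L) ∈ S'}
  have hTfin : T.Finite := hS.preimage (Subtype.val_injective.injOn)
  have hTint : ∀ y ∈ T, IsIntegral ↥(L⟮(⟨j, hj⟩ : ↥E)⟯) y := fun y hy => hint y hy
  have : Finite T := hTfin
  have hfd : FiniteDimensional ↥(L⟮(⟨j, hj⟩ : ↥E)⟯)
      ↥(IntermediateField.adjoin ↥(L⟮(⟨j, hj⟩ : ↥E)⟯) T) :=
    IntermediateField.finiteDimensional_adjoin hTint
  have htop : IntermediateField.adjoin ↥(L⟮(⟨j, hj⟩ : ↥E)⟯) T = ⊤ := by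
    rw [eq_top_iff]
    intro e _
    let A : IntermediateField L (LaurentSeries L) :=
      ((IntermediateField.adjoin ↥(L⟮(⟨j, hj⟩ : ↥E)⟯) T).restrictScalars L).map E.val
    have hle : E ≤ A := by
      rw [hE, IntermediateField.adjoin_le_iff]
      intro x hx
      refine ⟨⟨x, hSE x hx⟩, ?_, rfl⟩
      exact IntermediateField.subset_adjoin _ T (show (⟨x, hSE x hx⟩ : ↥E) ∈ T from hx)
    obtain ⟨e', he', hee'⟩ := hle e.2
    have : e' = e := Subtype.ext hee'
    rw [← this]
    exact he'
  rw [htop] at hfd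
  exact (IntermediateField.topEquiv
    (F := ↥(L⟮(⟨j, hj⟩ : ↥E)⟯)) (E := ↥E)).toLinearEquiv.finiteDimensional

/-- **Finiteness**: an intermediate field `E` of `L((q))` generated by a finite set of series
each of which satisfies an algebraic relation over `L[j]`, `j ∈ E` transcendental, is finite
over `L(j)`. -/
theorem finiteDimensional_of_algRel {L : Type*} [Field L]
    (E : IntermediateField L (LaurentSeries L)) (S' : Set (LaurentSeries L)) (hS : S'.Finite)
    (hE : E = IntermediateField.adjoin L S') {j : LaurentSeries L} (hj : j ∈ E)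
    (hjt : Transcendental L j) (halg : ∀ x ∈ S', AlgRel L j x) :
    FiniteDimensional ↥(L⟮(⟨j, hj⟩ : ↥E)⟯) ↥E :=
  finiteDimensional_of_isIntegral E S' hS hE hj fun y hy =>
    (AlgRel.isAlgebraic_adjoin E hj y.2 hjt (halg _ hy)).isIntegral

/-- **Finiteness**, two coordinates: every generator satisfies a relation over `L[j]` or over
`L[j']`, where `j'` satisfies a relation over `L[j]`. -/
theorem finiteDimensional_of_algRel₂ {L : Type*} [Field L]
    (E : IntermediateField L (LaurentSeries L)) (S' : Set (LaurentSeries L)) (hS : S'.Finite)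
    (hE : E = IntermediateField.adjoin L S') {j j' : LaurentSeries L} (hj : j ∈ E)
    (hj' : j' ∈ E) (hjt : Transcendental L j) (hj't : Transcendental L j')
    (h1 : AlgRel L j j') (halg : ∀ x ∈ S', AlgRel L j x ∨ AlgRel L j' x) :
    FiniteDimensional ↥(L⟮(⟨j, hj⟩ : ↥E)⟯) ↥E :=
  finiteDimensional_of_isIntegral E S' hS hE hj fun y hy => by
    rcases halg _ hy with h | h
    · exact (AlgRel.isAlgebraic_adjoin E hj y.2 hjt h).isIntegral
    · exact AlgRel.isIntegral_of_trans E hj hj' y.2 hjt hj't h1 h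

/-- `j` as an element of the base change `L · F₀`. -/
def jGenL (L : Type*) [Field L] [Algebra ℚ L] (F₀ : IntermediateField ℚ (LaurentSeries ℚ))
    (hj : jq ∈ F₀) : ↥(laurentBaseChange L F₀) :=
  ⟨coeffEmb L jq, coeffEmb_mem_laurentBaseChange L hj⟩

theorem coe_jGenL (L : Type*) [Field L] [Algebra ℚ L]
    (F₀ : IntermediateField ℚ (LaurentSeries ℚ)) (hj : jq ∈ F₀) :
    ((jGenL L F₀ hj : ↥(laurentBaseChange L F₀)) : LaurentSeries L) = coeffEmb L jq := rfl

theorem transcendental_jGenL (L : Type*) [Field L] [Algebra ℚ L]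
    (F₀ : IntermediateField ℚ (LaurentSeries ℚ)) (hj : jq ∈ F₀) :
    Transcendental L (jGenL L F₀ hj) :=
  transcendental_subtype _ _ (transcendental_coeffEmb_jq L)

/-- **Finiteness of the base change**: if `F₀ = ℚ(S)`, `S` finite, `j ∈ F₀`, and every element
of `S` satisfies an algebraic relation over `ℚ[j]`, then `L · F₀` is finite over `L(j)`. -/
theorem finiteDimensional_laurentBaseChange (L : Type*) [Field L] [Algebra ℚ L]
    (F₀ : IntermediateField ℚ (LaurentSeries ℚ)) (S : Set (LaurentSeries ℚ)) (hS : S.Finite)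
    (hF : F₀ = IntermediateField.adjoin ℚ S) (hj : jq ∈ F₀)
    (halg : ∀ x ∈ S, AlgRel ℚ jq x) :
    FiniteDimensional ↥(L⟮jGenL L F₀ hj⟯) ↥(laurentBaseChange L F₀) := by
  have hE : laurentBaseChange L F₀ = IntermediateField.adjoin L (⇑(coeffEmb L) '' S) := by
    rw [hF, laurentBaseChange_adjoin]
  refine finiteDimensional_of_algRel (laurentBaseChange L F₀) (⇑(coeffEmb L) '' S)
    (hS.image _) hE (coeffEmb_mem_laurentBaseChange L hj) (transcendental_coeffEmb_jq L) ?_
  rintro _ ⟨x, hx, rfl⟩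
  exact (halg x hx).map (algebraMap ℚ L)

/-- **Finiteness of the base change**, two coordinates. -/
theorem finiteDimensional_laurentBaseChange₂ (L : Type*) [Field L] [Algebra ℚ L]
    (F₀ : IntermediateField ℚ (LaurentSeries ℚ)) (S : Set (LaurentSeries ℚ)) (hS : S.Finite)
    (hF : F₀ = IntermediateField.adjoin ℚ S) (hj : jq ∈ F₀) {j' : LaurentSeries ℚ}
    (hj' : j' ∈ F₀) (hj't : Transcendental L (coeffEmb L j')) (h1 : AlgRel ℚ jq j')
    (halg : ∀ x ∈ S, AlgRel ℚ jq x ∨ AlgRel ℚ j' x) :
    FiniteDimensional ↥(L⟮jGenL L F₀ hj⟯) ↥(laurentBaseChange L F₀) := by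
  have hE : laurentBaseChange L F₀ = IntermediateField.adjoin L (⇑(coeffEmb L) '' S) := by
    rw [hF, laurentBaseChange_adjoin]
  refine finiteDimensional_of_algRel₂ (laurentBaseChange L F₀) (⇑(coeffEmb L) '' S)
    (hS.image _) hE (coeffEmb_mem_laurentBaseChange L hj) (coeffEmb_mem_laurentBaseChange L hj')
    (transcendental_coeffEmb_jq L) hj't (h1.map (algebraMap ℚ L)) ?_
  rintro _ ⟨x, hx, rfl⟩
  rcases halg x hx with h | h
  · exact Or.inl (h.map (algebraMap ℚ L))
  · exact Or.inr (h.map (algebraMap ℚ L))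

end Fermat.Agent.H69.ES1

end
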