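import Mathlib

/-!
# Bounded degree implies finite degree (separable case)

If `F/k` is an algebraic separable field extension in which every element has degree `≤ μ` over
`k`, then `F/k` is finite of degree `≤ μ`.  (GEN-16 slice (iii), abstract form.)
-/

set_option autoImplicit false

noncomputable section

namespace Fermat.Agent.H69

open IntermediateField Polynomial

/-- If every element of an algebraic separable extension `F/k` has degree at most `μ`, then there
is an element `x` with `k⟮x⟯ = ⊤`, and its degree is at most `μ`. -/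
theorem exists_adjoin_eq_top_of_forall_natDegree_le {k F : Type*} [Field k] [Field F]
    [Algebra k F] [Algebra.IsAlgebraic k F] [Algebra.IsSeparable k F] (μ : ℕ)
    (h : ∀ y : F, (minpoly k y).natDegree ≤ μ) :
    ∃ x : F, k⟮x⟯ = ⊤ ∧ (minpoly k x).natDegree ≤ μ := by
  classical
  have hint : ∀ y : F, IsIntegral k y := fun y => (Algebra.IsAlgebraic.isAlgebraic y).isIntegral
  -- an element of maximal degree
  have hex : ∃ n, ∀ y : F, (minpoly k y).natDegree ≤ n := ⟨μ, h⟩
  obtain ⟨x, hx⟩ : ∃ x : F, ∀ y : F, (minpoly k y).natDegree ≤ (minpoly k x).natDegree := by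
    have hspec := Nat.find_spec hex
    have hmin := fun m => Nat.find_min (m := m) hex
    rcases Nat.eq_zero_or_pos (Nat.find hex) with h0 | hpos
    · exfalso
      have := hspec (0 : F)
      rw [h0] at this
      have hp := minpoly.natDegree_pos (hint (0 : F))
      omega
    · have := hmin (Nat.find hex - 1) (by omega)
      push Not at this
      obtain ⟨x, hx⟩ := this
      refine ⟨x, fun y => ?_⟩
      have := hspec y
      omega
  refine ⟨x, ?_, h x⟩
  rw [eq_top_iff]
  intro y _
  -- the field generated by `x` and `y`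
  have hfin : FiniteDimensional k ↥(IntermediateField.adjoin k ({x, y} : Set F)) :=
    IntermediateField.finiteDimensional_adjoin (fun z _ => hint z)
  have hsep : Algebra.IsSeparable k ↥(IntermediateField.adjoin k ({x, y} : Set F)) :=
    IntermediateField.isSeparable_tower_bot k _
  obtain ⟨α, hα⟩ := Field.exists_primitive_element k ↥(IntermediateField.adjoin k ({x, y} : Set F))
  have hdeg : Module.finrank k ↥(IntermediateField.adjoin k ({x, y} : Set F))
      = (minpoly k (α : F)).natDegree := by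
    rw [← (Field.primitive_element_iff_minpoly_natDegree_eq k α).1 hα]
    congr 1
    exact (minpoly.algebraMap_eq
      (algebraMap (↥(IntermediateField.adjoin k ({x, y} : Set F))) F).injective α).symm
  have hle : k⟮x⟯ ≤ IntermediateField.adjoin k ({x, y} : Set F) :=
    IntermediateField.adjoin.mono k _ _ (by simp)
  have heq : k⟮x⟯ = IntermediateField.adjoin k ({x, y} : Set F) := by
    refine IntermediateField.eq_of_le_of_finrank_le hle ?_
    rw [hdeg, IntermediateField.adjoin.finrank (hint x)]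
    exact hx _
  rw [heq]
  exact IntermediateField.subset_adjoin k _ (by simp)

/-- If every element of an algebraic separable extension `F/k` has degree at most `μ`, then
`F/k` is finite of degree at most `μ`. -/
theorem finrank_le_of_forall_natDegree_le {k F : Type*} [Field k] [Field F]
    [Algebra k F] [Algebra.IsAlgebraic k F] [Algebra.IsSeparable k F] (μ : ℕ)
    (h : ∀ y : F, (minpoly k y).natDegree ≤ μ) :
    FiniteDimensional k F ∧ Module.finrank k F ≤ μ := by
  obtain ⟨x, hx, hμ⟩ := exists_adjoin_eq_top_of_forall_natDegree_le μ h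
  have hint : IsIntegral k x := (Algebra.IsAlgebraic.isAlgebraic x).isIntegral
  have hfin : FiniteDimensional k ↥k⟮x⟯ := IntermediateField.adjoin.finiteDimensional hint
  have hfin' : FiniteDimensional k ↥(⊤ : IntermediateField k F) := hx ▸ hfin
  have hF : FiniteDimensional k F :=
    LinearEquiv.finiteDimensional (IntermediateField.topEquiv (F := k) (E := F)).toLinearEquiv
  refine ⟨hF, ?_⟩
  rw [← IntermediateField.finrank_top', ← hx, IntermediateField.adjoin.finrank hint]
  exact hμ

/-- The degree of an element of `k⟮x⟯` is at most the degree of `x`. -/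
theorem natDegree_minpoly_le_of_mem_adjoin_simple {k F : Type*} [Field k] [Field F]
    [Algebra k F] {x y : F} (hx : IsIntegral k x) (hy : y ∈ k⟮x⟯) :
    IsIntegral k y ∧ (minpoly k y).natDegree ≤ (minpoly k x).natDegree := by
  have hfin : FiniteDimensional k ↥k⟮x⟯ := IntermediateField.adjoin.finiteDimensional hx
  have hy' : IsIntegral k (⟨y, hy⟩ : ↥k⟮x⟯) := IsIntegral.of_finite k _
  have hmin : minpoly k y = minpoly k (⟨y, hy⟩ : ↥k⟮x⟯) :=
    minpoly.algebraMap_eq (algebraMap ↥k⟮x⟯ F).injective (⟨y, hy⟩ : ↥k⟮x⟯)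
  refine ⟨?_, ?_⟩
  · have := hy'.map (IsScalarTower.toAlgHom k ↥k⟮x⟯ F)
    simpa using this
  · rw [hmin, ← IntermediateField.adjoin.finrank hx]
    exact minpoly.natDegree_le _

open scoped IntermediateField.algebraAdjoinAdjoin in
/-- Inverting an algebraic element of a subalgebra `R ∋ j` up to a nonzero element of `K₀[j]`. -/
theorem exists_mul_eq_of_isIntegral {K₀ F : Type*} [Field K₀] [Field F] [Algebra K₀ F]
    (j : F) (R : Subalgebra K₀ F) (hj : j ∈ R) {s : F} (hs : s ∈ R) (hs0 : s ≠ 0)
    (hint : IsIntegral K₀⟮j⟯ s) :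
    ∃ t ∈ R, ∃ a ∈ K₀⟮j⟯, a ≠ 0 ∧ s * t = a := by
  have hAR : Algebra.adjoin K₀ ({j} : Set F) ≤ R :=
    Algebra.adjoin_le (Set.singleton_subset_iff.2 hj)
  obtain ⟨b, hb, hq⟩ := IsLocalization.integerNormalization_spec
    (nonZeroDivisors ↥(Algebra.adjoin K₀ ({j} : Set F))) (minpoly K₀⟮j⟯ s)
  set q := IsLocalization.integerNormalization
    (nonZeroDivisors ↥(Algebra.adjoin K₀ ({j} : Set F))) (minpoly K₀⟮j⟯ s) with hqdef
  -- `q` kills `s`
  have hqs : Polynomial.aeval s q = 0 := by
    have h1 : Polynomial.aeval s (q.map (algebraMap ↥(Algebra.adjoin K₀ ({j} : Set F)) ↥K₀⟮j⟯))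
        = Polynomial.aeval s q := Polynomial.aeval_map_algebraMap _ _ _
    rw [← h1, hq, ← algebraMap_smul ↥K₀⟮j⟯ b, map_smul, minpoly.aeval, smul_zero]
  -- constant coefficient of `q`
  have hq0 : (q.coeff 0 : F) ≠ 0 := by
    have h2 : algebraMap ↥(Algebra.adjoin K₀ ({j} : Set F)) ↥K₀⟮j⟯ (q.coeff 0)
        = b • (minpoly K₀⟮j⟯ s).coeff 0 := by
      rw [← Polynomial.coeff_map, hq, Polynomial.coeff_smul]
    have h3 : b • (minpoly K₀⟮j⟯ s).coeff 0 ≠ 0 := by
      rw [Algebra.smul_def]
      refine mul_ne_zero ?_ (minpoly.coeff_zero_ne_zero hint hs0)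
      intro h0
      have := (map_eq_zero_iff _ (IsFractionRing.injective
        ↥(Algebra.adjoin K₀ ({j} : Set F)) ↥K₀⟮j⟯)).1 h0
      exact nonZeroDivisors.ne_zero hb this
    intro h0
    apply h3
    rw [← h2]
    have : q.coeff 0 = 0 := Subtype.ext h0
    rw [this, map_zero]
  -- values of polynomials over `K₀[j]` at `s` lie in `R`
  have hmem : ∀ P : Polynomial ↥(Algebra.adjoin K₀ ({j} : Set F)), Polynomial.aeval s P ∈ R := by
    intro P
    induction P using Polynomial.induction_on' with
    | add p q hp hq =>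
      rw [map_add]
      exact add_mem hp hq
    | monomial n a =>
      rw [Polynomial.aeval_monomial]
      exact mul_mem (hAR a.2) (pow_mem hs n)
  refine ⟨-(Polynomial.aeval s q.divX), neg_mem (hmem _), (q.coeff 0 : F), ?_, hq0, ?_⟩
  · exact IntermediateField.algebra_adjoin_le_adjoin K₀ _ (q.coeff 0).2
  · have hdecomp : Polynomial.aeval s q
        = Polynomial.aeval s q.divX * s + (q.coeff 0 : F) := by
      conv_lhs => rw [← Polynomial.divX_mul_X_add q]
      rw [map_add, map_mul, Polynomial.aeval_X, Polynomial.aeval_C]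
      rfl
    rw [hqs] at hdecomp
    linear_combination hdecomp

/-- **GEN-16 slice (iii)** (abstract form).  Let `R ∋ j` be a `K₀`-subalgebra of a field `F` of
characteristic zero such that every element of `F` is a quotient of elements of `R`, and such that
every element of `R` is a root of a nonzero polynomial of degree `≤ μ` over `K₀⟮j⟯`.  Then `F` is
finite over `K₀⟮j⟯`, of degree `≤ μ`. -/
theorem finrank_adjoin_simple_le_of_subalgebra {K₀ F : Type*} [Field K₀] [Field F]
    [Algebra K₀ F] [CharZero K₀] (j : F) (R : Subalgebra K₀ F) (hj : j ∈ R) (μ : ℕ)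
    (hdeg : ∀ r : ↥R, ∃ P : Polynomial ↥K₀⟮j⟯, P ≠ 0 ∧ P.natDegree ≤ μ ∧
      Polynomial.aeval (r : F) P = 0)
    (hfrac : ∀ f : F, ∃ r s : ↥R, s ≠ 0 ∧ f * (s : F) = (r : F)) :
    FiniteDimensional K₀⟮j⟯ F ∧ Module.finrank K₀⟮j⟯ F ≤ μ := by
  -- elements of `R` are integral of degree `≤ μ`
  have hR : ∀ r : F, r ∈ R → IsIntegral K₀⟮j⟯ r ∧ (minpoly K₀⟮j⟯ r).natDegree ≤ μ := by
    intro r hr
    obtain ⟨P, hP0, hPμ, hPr⟩ := hdeg ⟨r, hr⟩
    have hint : IsIntegral K₀⟮j⟯ r := IsAlgebraic.isIntegral ⟨P, hP0, hPr⟩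
    exact ⟨hint, (Polynomial.natDegree_le_of_dvd (minpoly.dvd _ _ hPr) hP0).trans hPμ⟩
  -- every element of `F` is integral of degree `≤ μ`
  have hF : ∀ f : F, IsIntegral K₀⟮j⟯ f ∧ (minpoly K₀⟮j⟯ f).natDegree ≤ μ := by
    intro f
    obtain ⟨r, s, hs0, hfs⟩ := hfrac f
    have hs0' : (s : F) ≠ 0 := fun h => hs0 (Subtype.ext h)
    obtain ⟨t, ht, a, ha, ha0, hst⟩ :=
      exists_mul_eq_of_isIntegral j R hj s.2 hs0' (hR _ s.2).1
    have hrt := hR ((r : F) * t) (mul_mem r.2 ht)
    have hf : f = a⁻¹ * ((r : F) * t) := by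
      field_simp
      rw [← hst, ← hfs]
      ring
    have hmem : f ∈ K₀⟮j⟯⟮(r : F) * t⟯ := by
      rw [hf]
      refine mul_mem ?_ (IntermediateField.mem_adjoin_simple_self _ _)
      refine inv_mem ?_
      have : a = algebraMap ↥K₀⟮j⟯ F ⟨a, ha⟩ := rfl
      rw [this]
      exact IntermediateField.algebraMap_mem _ _
    obtain ⟨h1, h2⟩ := natDegree_minpoly_le_of_mem_adjoin_simple hrt.1 hmem
    exact ⟨h1, h2.trans hrt.2⟩
  have halg : Algebra.IsAlgebraic K₀⟮j⟯ F := ⟨fun f => (hF f).1.isAlgebraic⟩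
  have hchar : CharZero ↥K₀⟮j⟯ :=
    charZero_of_injective_algebraMap (algebraMap K₀ ↥K₀⟮j⟯).injective
  have hsep : Algebra.IsSeparable K₀⟮j⟯ F := Algebra.IsAlgebraic.isSeparable_of_perfectField
  exact finrank_le_of_forall_natDegree_le μ (fun f => (hF f).2)

end Fermat.Agent.H69

end
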