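import Fermat.Agent.H23.BlueprintAn
import Fermat.Agent.H69.DegreeBound
import Fermat.Agent.H69.JBarTranscendental

/-!
# GEN-16: reduction of `DegreeStatement N` to an elementwise polynomial relation

`DegreeStatement N` follows from: (a) every element of the function field is a quotient of
elements of `Rsub N` (last clause of `CoreStatement N`), and (b) every element of `Rsub N` is a
root of a nonzero polynomial of degree `≤ [SL(2,ℤ) : Γ₀(N)]` over `ℚ̄(j)`.
-/

set_option autoImplicit false

noncomputable section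

open IntermediateField
open scoped MatrixGroups

namespace Fermat.Agent.H69

theorem jBarD_one_eq (N : ℕ) [NeZero N] :
    Fermat.Agent.H23.jBarD N 1 (one_dvd N) = Fermat.Agent.H23.jBar N := by
  apply Subtype.ext
  show ModularCurve.coeffEmb (AlgebraicClosure ℚ) (ModularCurve.qExpand ℚ 1 ModularCurve.jq)
    = ModularCurve.coeffEmb (AlgebraicClosure ℚ) ModularCurve.jq
  rw [ModularCurve.qExpand_one_apply]

theorem jBar_mem_Rsub (N : ℕ) [NeZero N] :
    Fermat.Agent.H23.jBar N ∈ Fermat.Agent.H23.Rsub N := by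
  rw [← jBarD_one_eq]
  exact Algebra.subset_adjoin ⟨1, inferInstance, one_dvd N, rfl⟩

/-- **GEN-16, reduction**: the degree statement follows from the fraction clause of the core
statement and an elementwise polynomial relation of bounded degree. -/
theorem degreeStatement_of_elementwise (N : ℕ) [NeZero N]
    (hfrac : ∀ f : ↥(ModularCurve.modularFunctionFieldBar N),
      ∃ r s : ↥(Fermat.Agent.H23.Rsub N), s ≠ 0 ∧
        f * (s : ↥(ModularCurve.modularFunctionFieldBar N)) = r)
    (hdeg : ∀ r : ↥(Fermat.Agent.H23.Rsub N),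
      ∃ P : Polynomial ↥((AlgebraicClosure ℚ)⟮Fermat.Agent.H23.jBar N⟯), P ≠ 0 ∧
        P.natDegree ≤ Nat.card (SL(2, ℤ) ⧸ CongruenceSubgroup.Gamma0 N) ∧
        Polynomial.aeval (r : ↥(ModularCurve.modularFunctionFieldBar N)) P = 0) :
    Fermat.Agent.H23.DegreeStatement N := by
  obtain ⟨h1, h2⟩ := finrank_adjoin_simple_le_of_subalgebra (Fermat.Agent.H23.jBar N)
    (Fermat.Agent.H23.Rsub N) (jBar_mem_Rsub N) _ hdeg hfrac
  exact ⟨transcendental_jBar N, h1, h2⟩

/-- Variant taking the whole core statement. -/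
theorem degreeStatement_of_core (N : ℕ) [NeZero N] (hcore : Fermat.Agent.H23.CoreStatement N)
    (hdeg : ∀ r : ↥(Fermat.Agent.H23.Rsub N),
      ∃ P : Polynomial ↥((AlgebraicClosure ℚ)⟮Fermat.Agent.H23.jBar N⟯), P ≠ 0 ∧
        P.natDegree ≤ Nat.card (SL(2, ℤ) ⧸ CongruenceSubgroup.Gamma0 N) ∧
        Polynomial.aeval (r : ↥(ModularCurve.modularFunctionFieldBar N)) P = 0) :
    Fermat.Agent.H23.DegreeStatement N := by
  obtain ⟨ι, Θ, -, -, -, -, hfrac⟩ := hcore
  exact degreeStatement_of_elementwise N hfrac hdeg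

end Fermat.Agent.H69

end
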