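import Mathlib
import Fermat.Agent.H69.ES1AlgRel
import Fermat.Agent.H85.Gen16Final
import Fermat.Agent.H29.ES1.GenInterfaces
import Fermat.Agent.H29.ES1.Hecke
import Fermat.Prelude.Def_ModularCurve_X0ModL
import Fermat.Agent.H16.FFPrincipal
import Fermat.Agent.H29.ESB.Interfaces
import Fermat.Agent.H33.ESB.GenFinite
import Fermat.Agent.H33.ESB.LaurentBC

/-!
# P-ES1, row ES1-FINITE (helper69): `F1 M` is a function field of one variable

* `algRel_jqd`  : `j(q^d)` satisfies an algebraic relation over `ℚ[j]` (from the landed GEN-16).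
* `algRel_vGen` : `v_a` satisfies an algebraic relation over `ℚ[j]` (from `VFunStatement` and the
  coset product polynomial for `Γ₁(M)`).
* `finiteDimensional_F1` : `L · F1 M` is finite over `L(j)`.
-/

set_option autoImplicit false

noncomputable section

namespace Fermat.Agent.H69.ES1

open ModularCurve IntermediateField Polynomial UpperHalfPlane
open Fermat.Agent.H29.ES1
open scoped MatrixGroups

/-! ## `j(q^d)` -/

theorem coe_algebraMap_bar (N : ℕ) (a : AlgebraicClosure ℚ) :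
    ((algebraMap (AlgebraicClosure ℚ) ↥(modularFunctionFieldBar N) a :
      ↥(modularFunctionFieldBar N)) : LaurentSeries (AlgebraicClosure ℚ)) = HahnSeries.C a := by
  have h : ((algebraMap (AlgebraicClosure ℚ) ↥(modularFunctionFieldBar N) a :
      ↥(modularFunctionFieldBar N)) : LaurentSeries (AlgebraicClosure ℚ))
      = algebraMap (AlgebraicClosure ℚ) (LaurentSeries (AlgebraicClosure ℚ)) a := rfl
  rw [h, algebraMap_eq_hahnC]

/-- `j(q^d)` is algebraic over `ℚ̄[j]`. -/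
theorem algRel_jqd_bar (d : ℕ) [NeZero d] :
    AlgRel (AlgebraicClosure ℚ) (coeffEmb (AlgebraicClosure ℚ) jq)
      (coeffEmb (AlgebraicClosure ℚ) (qExpand ℚ d jq)) := by
  have hmem : Fermat.Agent.H23.jBarD d d dvd_rfl ∈ Fermat.Agent.H23.Rsub d :=
    Algebra.subset_adjoin ⟨d, inferInstance, dvd_rfl, rfl⟩
  obtain ⟨D, a, ⟨i₀, hi₀, hai₀⟩, hrel⟩ :=
    Fermat.Agent.H85.exists_rational_relation d ⟨Fermat.Agent.H23.jBarD d d dvd_rfl, hmem⟩
  refine ⟨_, a, ⟨i₀, hi₀, hai₀⟩, ?_⟩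
  have h1 := congrArg (fun x : ↥(modularFunctionFieldBar d) =>
    (x : LaurentSeries (AlgebraicClosure ℚ))) hrel
  simp only [AddSubmonoidClass.coe_finsetSum, MulMemClass.coe_mul, SubmonoidClass.coe_pow,
    ZeroMemClass.coe_zero, coe_algebraMap_bar] at h1
  exact h1

/-- `j(q^d)` is algebraic over `ℚ[j]`. -/
theorem algRel_jqd (d : ℕ) [NeZero d] : AlgRel ℚ jq (qExpand ℚ d jq) :=
  AlgRel.descent (algebraMap ℚ (AlgebraicClosure ℚ)) (algRel_jqd_bar d)

/-! ## `v_a` -/

theorem laurentRel_pow' {h : ℍ → ℂ} {x : LaurentSeries ℂ} (H : Fermat.Agent.H44.LaurentRel h x)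
    (n : ℕ) : Fermat.Agent.H44.LaurentRel (h ^ n) (x ^ n) := by
  induction n with
  | zero => simpa using Fermat.Agent.H44.laurentRel_one
  | succ n ih => rw [pow_succ, pow_succ]; exact ih.mul H

theorem coeffEmb_jq_eq (K : Type*) [Field K] [Algebra ℚ K] : coeffEmb K jq = jqModC K := by
  rw [coeffEmb, ← jqModC_rat, coeffMap_jqModC]

/-- `v_a` is algebraic over `ℂ[j]`. -/
theorem algRel_vGen_C (hV : VFunStatement) (M : ℕ) [NeZero M] (a : ZMod M) (ha : a ≠ 0) :
    AlgRel ℂ (coeffEmb ℂ jq) (coeffEmb ℂ (vGen M a)) := by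
  classical
  obtain ⟨hmd, hrel, hperm, hgr⟩ := hV M a ha
  have hinv : ∀ β ∈ CongruenceSubgroup.Gamma1 M, ∀ z : ℍ, VFun M a (β • z) = VFun M a z := by
    intro β hβ z
    have h0 : β ∈ CongruenceSubgroup.Gamma0 M := CongruenceSubgroup.Gamma1_in_Gamma0 M hβ
    rw [hperm β h0 z]
    have h1 := (CongruenceSubgroup.Gamma1_mem M β).1 hβ
    rw [h1.1, one_mul]
  obtain ⟨P, hPμ, hP⟩ := Fermat.Agent.H85.exists_poly_relation
    (Γ := CongruenceSubgroup.Gamma1 M) hmd hinv (fun γ => hgr γ)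
  set μ := Nat.card (SL(2, ℤ) ⧸ CongruenceSubgroup.Gamma1 M) with hμ
  set D := (Finset.range (μ + 1)).sup (fun k => (P k).natDegree) with hD
  set s := Finset.range (μ + 1) ×ˢ Finset.range (D + 1) with hs
  have hfun : (∑ i ∈ s, ((P i.1).coeff i.2) • (Fermat.Agent.H23.jfun ^ i.2 * VFun M a ^ i.1))
      = 0 := by
    funext z
    rw [Finset.sum_apply, Pi.zero_apply, hs, Finset.sum_product, ← hP z]
    refine Finset.sum_congr rfl fun k hk => ?_
    have hdeg : (P k).natDegree < D + 1 :=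
      Nat.lt_succ_of_le (Finset.le_sup (f := fun k => (P k).natDegree) hk)
    rw [eval_eq_sum_range' hdeg, Finset.sum_mul]
    refine Finset.sum_congr rfl fun b _ => ?_
    simp only [Pi.smul_apply, Pi.mul_apply, Pi.pow_apply, smul_eq_mul]
    ring
  have hj : Fermat.Agent.H44.LaurentRel Fermat.Agent.H23.jfun (coeffEmb ℂ jq) := by
    rw [coeffEmb_jq_eq]
    exact Fermat.Agent.H44.laurentRel_jfun
  have h1 : Fermat.Agent.H44.LaurentRel
      (∑ i ∈ s, ((P i.1).coeff i.2) • (Fermat.Agent.H23.jfun ^ i.2 * VFun M a ^ i.1))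
      (∑ i ∈ s, ((P i.1).coeff i.2) • (coeffEmb ℂ jq ^ i.2 * coeffEmb ℂ (vGen M a) ^ i.1)) :=
    Fermat.Agent.H44.LaurentRel.sum _ fun i _ =>
      ((laurentRel_pow' hj i.2).mul (laurentRel_pow' hrel i.1)).smul _
  rw [hfun] at h1
  have h2 := h1.unique_right Fermat.Agent.H44.laurentRel_zero
  refine ⟨s, fun i => (P i.1).coeff i.2, ⟨(μ, 0), ?_, ?_⟩, ?_⟩
  · rw [hs, Finset.mem_product]
    exact ⟨Finset.mem_range.mpr (Nat.lt_succ_self μ), Finset.mem_range.mpr (Nat.succ_pos D)⟩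
  · show (P μ).coeff 0 ≠ 0
    rw [hPμ, coeff_one_zero]
    exact one_ne_zero
  · rw [← h2]
    refine Finset.sum_congr rfl fun i _ => ?_
    rw [HahnSeries.C_mul_eq_smul]

/-- `v_a` is algebraic over `ℚ[j]`. -/
theorem algRel_vGen (hV : VFunStatement) (M : ℕ) [NeZero M] (a : ZMod M) (ha : a ≠ 0) :
    AlgRel ℚ jq (vGen M a) :=
  AlgRel.descent (algebraMap ℚ ℂ) (algRel_vGen_C hV M a ha)

/-! ## The generators of `F1 M` -/

theorem finite_divisorExpansions (M : ℕ) [NeZero M] : (divisorExpansions M).Finite := by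
  classical
  refine Set.Finite.subset ((Finset.range (M + 1)).finite_toSet.image
    (fun d : ℕ => if h : d = 0 then (0 : LaurentSeries ℚ) else
      (haveI : NeZero d := ⟨h⟩; qExpand ℚ d jq))) ?_
  rintro x ⟨d, hd, hdM, rfl⟩
  refine ⟨d, ?_, ?_⟩
  · rw [Finset.coe_range, Set.mem_Iio]
    exact Nat.lt_succ_of_le (Nat.le_of_dvd (Nat.pos_of_ne_zero (NeZero.ne M)) hdM)
  · simp only
    rw [dif_neg (NeZero.ne d)]

theorem finite_vGenSet (M : ℕ) [NeZero M] : (vGenSet M).Finite := by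
  have h : vGenSet M = Set.range (fun a : (ZMod M)ˣ => vGen M (a : ZMod M)) := by
    ext x
    constructor
    · rintro ⟨a, rfl⟩
      exact ⟨a, rfl⟩
    · rintro ⟨a, rfl⟩
      exact ⟨a, rfl⟩
  rw [h]
  exact Set.finite_range _

/-- The generating set of `F1 M`. -/
def gensF1 (M : ℕ) : Set (LaurentSeries ℚ) := divisorExpansions M ∪ vGenSet M

theorem finite_gensF1 (M : ℕ) [NeZero M] : (gensF1 M).Finite :=
  (finite_divisorExpansions M).union (finite_vGenSet M)

theorem F1_eq_adjoin (M : ℕ) [NeZero M] : F1 M = IntermediateField.adjoin ℚ (gensF1 M) := rfl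

/-- Every generator of `F1 M` is algebraic over `ℚ[j]`. -/
theorem algRel_gensF1 (hV : VFunStatement) (M : ℕ) [NeZero M] (hM : 1 < M) :
    ∀ x ∈ gensF1 M, AlgRel ℚ jq x := by
  rintro x (⟨d, hd, -, rfl⟩ | ⟨a, rfl⟩)
  · exact algRel_jqd d
  · have : Fact (1 < M) := ⟨hM⟩
    exact algRel_vGen hV M (a : ZMod M) a.ne_zero

/-! ## Finiteness -/

/-- **ES1-FINITE (2).**  `L · F1 M` is finite over `L(j)`. -/
theorem finiteDimensional_F1 (hV : VFunStatement) (M : ℕ) [NeZero M] (hM : 1 < M)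
    (L : Type*) [Field L] [Algebra ℚ L] :
    FiniteDimensional ↥(L⟮jGenL L (F1 M) (jq_mem_F1 M)⟯) ↥(laurentBaseChange L (F1 M)) :=
  finiteDimensional_laurentBaseChange L (F1 M) (gensF1 M) (finite_gensF1 M) rfl (jq_mem_F1 M)
    (algRel_gensF1 hV M hM)

theorem order_jq_neg : (jq : LaurentSeries ℚ).order < 0 := by
  have hc : (jq : LaurentSeries ℚ).coeff (-1 : ℤ) ≠ 0 := by
    rw [coeff_jq_neg_one]
    exact one_ne_zero
  have := HahnSeries.order_le_of_coeff_ne_zero hc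
  omega

theorem transcendental_jq : Transcendental ℚ (jq : LaurentSeries ℚ) :=
  Fermat.Agent.H69.transcendental_of_order_neg _ order_jq_neg

/-- Finiteness over `L(j)` of an intermediate field of `L((q))`, as a proposition in which the
algebra structures are those of `IntermediateField` (for `L = ℚ` this avoids the competing
`ℚ`-algebra instances). -/
def FiniteOverJ {L : Type*} [Field L] (E : IntermediateField L (LaurentSeries L))
    (j : ↥E) : Prop :=
  FiniteDimensional ↥(L⟮j⟯) ↥E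

/-- **ES1-FINITE (1).**  `F1 M` is finite over `ℚ(j)`. -/
theorem finiteDimensional_F1_rat (hV : VFunStatement) (M : ℕ) [NeZero M] (hM : 1 < M) :
    FiniteOverJ (F1 M) ⟨jq, jq_mem_F1 M⟩ :=
  finiteDimensional_of_algRel (F1 M) (gensF1 M) (finite_gensF1 M) rfl (jq_mem_F1 M)
    transcendental_jq (algRel_gensF1 hV M hM)

/-! ## The Hecke field -/

theorem qExpand_hahnC (ℓ : ℕ) [NeZero ℓ] (c : ℚ) :
    qExpand ℚ ℓ (HahnSeries.C c) = HahnSeries.C c := by
  show qExpand ℚ ℓ (HahnSeries.single 0 c) = HahnSeries.single 0 c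
  rw [qExpand_single, mul_zero]

theorem qExpand_algebraMap (ℓ : ℕ) [NeZero ℓ] (c : ℚ) :
    qExpand ℚ ℓ (algebraMap ℚ (LaurentSeries ℚ) c) = algebraMap ℚ (LaurentSeries ℚ) c := by
  rw [algebraMap_eq_hahnC, qExpand_hahnC]

/-- The Hecke field of `ℚ(S)` is `ℚ(S ∪ V_ℓ S)`. -/
theorem heckeField_adjoin (S : Set (LaurentSeries ℚ)) (ℓ : ℕ) [NeZero ℓ] :
    heckeField (IntermediateField.adjoin ℚ S) ℓ
      = IntermediateField.adjoin ℚ (S ∪ ⇑(qExpand ℚ ℓ) '' S) := by
  apply le_antisymm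
  · have key : ∀ z ∈ IntermediateField.adjoin ℚ S,
        qExpand ℚ ℓ z ∈ IntermediateField.adjoin ℚ (S ∪ ⇑(qExpand ℚ ℓ) '' S) := by
      intro z hz
      induction hz using IntermediateField.adjoin_induction with
      | mem x hx => exact IntermediateField.subset_adjoin ℚ _ (Or.inr ⟨x, hx, rfl⟩)
      | algebraMap r =>
        rw [qExpand_algebraMap]
        exact IntermediateField.algebraMap_mem _ _
      | add x y _ _ hx hy => rw [map_add]; exact add_mem hx hy
      | inv x _ hx => rw [map_inv₀]; exact inv_mem hx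
      | mul x y _ _ hx hy => rw [map_mul]; exact mul_mem hx hy
    rw [heckeField, IntermediateField.adjoin_le_iff]
    rintro x (hx | ⟨z, hz, rfl⟩)
    · exact IntermediateField.adjoin.mono ℚ _ _ Set.subset_union_left hx
    · exact key z hz
  · rw [IntermediateField.adjoin_le_iff]
    rintro x (hx | ⟨z, hz, rfl⟩)
    · exact le_heckeField _ ℓ (IntermediateField.subset_adjoin ℚ S hx)
    · exact qExpand_mem_heckeField _ ℓ (IntermediateField.subset_adjoin ℚ S hz)

theorem jq_mem_heckeField {F₀ : IntermediateField ℚ (LaurentSeries ℚ)} (hj : jq ∈ F₀) (ℓ : ℕ)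
    [NeZero ℓ] : jq ∈ heckeField F₀ ℓ := le_heckeField F₀ ℓ hj

theorem transcendental_coeffEmb_qExpand_jq (L : Type*) [Field L] [Algebra ℚ L] (ℓ : ℕ)
    [NeZero ℓ] : Transcendental L (coeffEmb L (qExpand ℚ ℓ jq)) := by
  refine Fermat.Agent.H69.transcendental_of_order_neg _ ?_
  have hc : (coeffEmb L (qExpand ℚ ℓ jq)).coeff ((ℓ : ℤ) * (-1)) ≠ 0 := by
    rw [coeffEmb_coeff, qExpand_coeff_mul, coeff_jq_neg_one, map_one]
    exact one_ne_zero
  have h1 := HahnSeries.order_le_of_coeff_ne_zero hc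
  have h2 : (0 : ℤ) < (ℓ : ℤ) := by
    have := Nat.pos_of_ne_zero (NeZero.ne ℓ)
    exact_mod_cast this
  linarith

/-- **Finiteness of the Hecke field**, generic form. -/
theorem finiteDimensional_heckeField (L : Type*) [Field L] [Algebra ℚ L]
    (F₀ : IntermediateField ℚ (LaurentSeries ℚ)) (S : Set (LaurentSeries ℚ)) (hS : S.Finite)
    (hF : F₀ = IntermediateField.adjoin ℚ S) (hj : jq ∈ F₀)
    (halg : ∀ x ∈ S, AlgRel ℚ jq x) (ℓ : ℕ) [NeZero ℓ] :
    FiniteDimensional ↥(L⟮jGenL L (heckeField F₀ ℓ) (jq_mem_heckeField hj ℓ)⟯)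
      ↥(laurentBaseChange L (heckeField F₀ ℓ)) := by
  refine finiteDimensional_laurentBaseChange₂ L (heckeField F₀ ℓ) (S ∪ ⇑(qExpand ℚ ℓ) '' S)
    (hS.union (hS.image _)) (by rw [hF, heckeField_adjoin]) (jq_mem_heckeField hj ℓ)
    (qExpand_mem_heckeField F₀ ℓ hj) (transcendental_coeffEmb_qExpand_jq L ℓ) (algRel_jqd ℓ) ?_
  rintro x (hx | ⟨z, hz, rfl⟩)
  · exact Or.inl (halg x hx)
  · exact Or.inr ((halg z hz).ringHom (qExpand ℚ ℓ) (qExpand_hahnC ℓ))

/-- **ES1-FINITE (2').**  `L · heckeField (F1 M) ℓ` is finite over `L(j)`. -/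
theorem finiteDimensional_heckeField_F1 (hV : VFunStatement) (M : ℕ) [NeZero M] (hM : 1 < M)
    (ℓ : ℕ) [NeZero ℓ] (L : Type*) [Field L] [Algebra ℚ L] :
    FiniteDimensional
      ↥(L⟮jGenL L (heckeField (F1 M) ℓ) (jq_mem_heckeField (jq_mem_F1 M) ℓ)⟯)
      ↥(laurentBaseChange L (heckeField (F1 M) ℓ)) :=
  finiteDimensional_heckeField L (F1 M) (gensF1 M) (finite_gensF1 M) rfl (jq_mem_F1 M)
    (algRel_gensF1 hV M hM) ℓ

/-! ## By-product: the same facts for `X₀(N)`, over every field of characteristic zero -/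

theorem jq_mem_full (N : ℕ) [NeZero N] : jq ∈ modularFunctionFieldFull N :=
  modularFunctionField_le_full N (jq_mem N)

theorem algRel_divisorExpansions (N : ℕ) : ∀ x ∈ divisorExpansions N, AlgRel ℚ jq x := by
  rintro x ⟨d, hd, -, rfl⟩
  exact algRel_jqd d

/-- `L · ℚ(j(q^d) : d ∣ N)` is finite over `L(j)`, for every field `L` of characteristic zero. -/
theorem finiteDimensional_full (N : ℕ) [NeZero N] (L : Type*) [Field L] [Algebra ℚ L] :
    FiniteDimensional ↥(L⟮jGenL L (modularFunctionFieldFull N) (jq_mem_full N)⟯)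
      ↥(laurentBaseChange L (modularFunctionFieldFull N)) :=
  finiteDimensional_laurentBaseChange L (modularFunctionFieldFull N) (divisorExpansions N)
    (finite_divisorExpansions N) rfl (jq_mem_full N) (algRel_divisorExpansions N)

/-- The Hecke field of `X₀(N)` is finite over `L(j)`. -/
theorem finiteDimensional_heckeField_full (N : ℕ) [NeZero N] (ℓ : ℕ) [NeZero ℓ] (L : Type*)
    [Field L] [Algebra ℚ L] :
    FiniteDimensional
      ↥(L⟮jGenL L (heckeField (modularFunctionFieldFull N) ℓ)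
        (jq_mem_heckeField (jq_mem_full N) ℓ)⟯)
      ↥(laurentBaseChange L (heckeField (modularFunctionFieldFull N) ℓ)) :=
  finiteDimensional_heckeField L (modularFunctionFieldFull N) (divisorExpansions N)
    (finite_divisorExpansions N) rfl (jq_mem_full N) (algRel_divisorExpansions N) ℓ

/-! ## Principal divisors -/

set_option synthInstance.maxHeartbeats 400000 in
/-- Principal divisors of `L · F₀`, from finiteness over `L(j)`. -/
theorem hasPrincipalDivisors_of_finite (L : Type*) [Field L] [Algebra ℚ L] [IsAlgClosed L]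
    (F₀ : IntermediateField ℚ (LaurentSeries ℚ)) (hj : jq ∈ F₀)
    (hfin : FiniteDimensional ↥(L⟮jGenL L F₀ hj⟯) ↥(laurentBaseChange L F₀)) :
    AlgebraicCurve.HasPrincipalDivisors L ↥(laurentBaseChange L F₀) := by
  have := hfin
  have : CharZero L := algebraRat.charZero L
  have : CharZero ↥(L⟮jGenL L F₀ hj⟯) :=
    charZero_of_injective_algebraMap (algebraMap L ↥(L⟮jGenL L F₀ hj⟯)).injective
  exact Fermat.Agent.H16.ffb_hasPrincipalDivisors (jGenL L F₀ hj)

/-- **ES1-FINITE (3).**  Principal divisors of `L · F1 M`. -/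
theorem hasPrincipalDivisors_F1 (hV : VFunStatement) (M : ℕ) [NeZero M] (hM : 1 < M)
    (L : Type*) [Field L] [Algebra ℚ L] [IsAlgClosed L] :
    AlgebraicCurve.HasPrincipalDivisors L ↥(laurentBaseChange L (F1 M)) :=
  hasPrincipalDivisors_of_finite L (F1 M) (jq_mem_F1 M) (finiteDimensional_F1 hV M hM L)

/-- **ES1-FINITE (3').**  Principal divisors of `L · heckeField (F1 M) ℓ`. -/
theorem hasPrincipalDivisors_heckeField_F1 (hV : VFunStatement) (M : ℕ) [NeZero M]
    (hM : 1 < M) (ℓ : ℕ) [NeZero ℓ] (L : Type*) [Field L] [Algebra ℚ L] [IsAlgClosed L] :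
    AlgebraicCurve.HasPrincipalDivisors L ↥(laurentBaseChange L (heckeField (F1 M) ℓ)) :=
  hasPrincipalDivisors_of_finite L (heckeField (F1 M) ℓ) (jq_mem_heckeField (jq_mem_F1 M) ℓ)
    (finiteDimensional_heckeField_F1 hV M hM ℓ L)

/-! ## The constant field extension `ℚ̄ → ℂ` -/

theorem laurentBC_jGenL (ι : AlgebraicClosure ℚ →+* ℂ)
    (F₀ : IntermediateField ℚ (LaurentSeries ℚ)) (hj : jq ∈ F₀) :
    Fermat.Agent.H33.ESB.laurentBC ι F₀ (jGenL (AlgebraicClosure ℚ) F₀ hj) = jGenL ℂ F₀ hj := by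
  apply Subtype.ext
  rw [Fermat.Agent.H33.ESB.laurentBC_coe]
  exact Fermat.Agent.H33.ESB.coeffMap_coeffEmb_bar ι jq

/-- The Laurent constant field extension `ℚ̄ · F₀ → ℂ · F₀`, from finiteness over `ℚ̄(j)`. -/
def constExtOfFinite (ι : AlgebraicClosure ℚ →+* ℂ)
    (F₀ : IntermediateField ℚ (LaurentSeries ℚ)) (hj : jq ∈ F₀)
    (hfin : FiniteDimensional ↥((AlgebraicClosure ℚ)⟮jGenL (AlgebraicClosure ℚ) F₀ hj⟯)
      ↥(laurentBaseChange (AlgebraicClosure ℚ) F₀)) :
    Fermat.Agent.H29.ConstExt (AlgebraicClosure ℚ) ℂ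
      ↥(laurentBaseChange (AlgebraicClosure ℚ) F₀) ↥(laurentBaseChange ℂ F₀) where
  ι := ι
  bc := Fermat.Agent.H33.ESB.laurentBC ι F₀
  bc_algebraMap := Fermat.Agent.H33.ESB.laurentBC_algebraMap ι F₀
  ld := Fermat.Agent.H33.ESB.laurentBC_ld ι F₀
  gen := Fermat.Agent.H33.ESB.laurentBC_gen ι F₀
  x := jGenL (AlgebraicClosure ℚ) F₀ hj
  x_transc := transcendental_jGenL (AlgebraicClosure ℚ) F₀ hj
  x_fin := hfin
  bcx_transc := by
    rw [laurentBC_jGenL]
    exact transcendental_jGenL ℂ F₀ hj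
  bcx_fin := Fermat.Agent.H33.ESB.finiteDimensional_of_gen ι
    (Fermat.Agent.H33.ESB.laurentBC ι F₀) (Fermat.Agent.H33.ESB.laurentBC_algebraMap ι F₀)
    (Fermat.Agent.H33.ESB.laurentBC_gen ι F₀) (jGenL (AlgebraicClosure ℚ) F₀ hj) hfin

/-- **ES1-FINITE (4).**  The constant field extension `F1Bar M → F1C M`. -/
def constExtF1 (hV : VFunStatement) (M : ℕ) [NeZero M] (hM : 1 < M)
    (ι : AlgebraicClosure ℚ →+* ℂ) :
    Fermat.Agent.H29.ConstExt (AlgebraicClosure ℚ) ℂ ↥(F1Bar M) ↥(F1C M) :=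
  constExtOfFinite ι (F1 M) (jq_mem_F1 M) (finiteDimensional_F1 hV M hM (AlgebraicClosure ℚ))

theorem constExtF1_ι (hV : VFunStatement) (M : ℕ) [NeZero M] (hM : 1 < M)
    (ι : AlgebraicClosure ℚ →+* ℂ) : (constExtF1 hV M hM ι).ι = ι := rfl

theorem constExtF1_bc_coe (hV : VFunStatement) (M : ℕ) [NeZero M] (hM : 1 < M)
    (ι : AlgebraicClosure ℚ →+* ℂ) (f : ↥(F1Bar M)) :
    (((constExtF1 hV M hM ι).bc f : ↥(F1C M)) : LaurentSeries ℂ)
      = coeffMap ι (f : LaurentSeries (AlgebraicClosure ℚ)) := rfl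

theorem constExtF1_x (hV : VFunStatement) (M : ℕ) [NeZero M] (hM : 1 < M)
    (ι : AlgebraicClosure ℚ →+* ℂ) :
    (constExtF1 hV M hM ι).x = jGenL (AlgebraicClosure ℚ) (F1 M) (jq_mem_F1 M) := rfl

end Fermat.Agent.H69.ES1

end
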