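import Mathlib

/-!
# Degree of a function field under extension of the constant field (abstract form)

Setting: fields `K ⊆ L` (via `ι`), a field `F` over `K`, a field `E` over `L` and a ring
homomorphism `φ : F → E` extending `ι`, such that `φ` carries `K`-linearly independent families
to `L`-linearly independent families ("linear disjointness") and `E` is generated by `L` and
`φ(F)`.  If `j ∈ F` is transcendental over `K` and `F` is finite over `K(j)`, then `E` is finite
over `L(φ j)` of the same degree.
-/

set_option autoImplicit false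

noncomputable section

namespace Fermat.Agent.H69.BC

open IntermediateField Polynomial

variable {K L F E : Type*} [Field K] [Field L] [Field F] [Field E] [Algebra K F] [Algebra L E]

/-- `φ` maps `K⟮j⟯` into `L⟮φ j⟯`. -/
theorem map_mem_adjoin_simple (ι : K →+* L) (φ : F →+* E)
    (hφ : ∀ c : K, φ (algebraMap K F c) = algebraMap L E (ι c))
    (j : F) {a : F} (ha : a ∈ K⟮j⟯) : φ a ∈ L⟮φ j⟯ := by
  induction ha using IntermediateField.adjoin_induction with
  | mem x hx =>
    rw [Set.mem_singleton_iff] at hx
    subst hx
    exact mem_adjoin_simple_self L _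
  | algebraMap c =>
    rw [hφ]
    exact IntermediateField.algebraMap_mem _ _
  | add x y _ _ hx hy => rw [map_add]; exact add_mem hx hy
  | inv x _ hx => rw [map_inv₀]; exact inv_mem hx
  | mul x y _ _ hx hy => rw [map_mul]; exact mul_mem hx hy

/-- The powers of a transcendental element are linearly independent. -/
theorem linearIndependent_pow_of_transcendental {j : F} (hj : Transcendental K j) :
    LinearIndependent K (fun k : ℕ => j ^ k) := by
  have h1 : LinearIndependent K (fun k : ℕ => (Polynomial.X : K[X]) ^ k) := by
    have h := (Polynomial.basisMonomials K).linearIndependent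
    have he : (fun k : ℕ => (Polynomial.X : K[X]) ^ k) = ⇑(Polynomial.basisMonomials K) := by
      funext k
      rw [Polynomial.coe_basisMonomials, Polynomial.X_pow_eq_monomial]
    rw [he]
    exact h
  have h2 := h1.map' (Polynomial.aeval j).toLinearMap
    (LinearMap.ker_eq_bot.2 (transcendental_iff_injective.1 hj))
  have he : (⇑(Polynomial.aeval j).toLinearMap ∘ fun k : ℕ => (Polynomial.X : K[X]) ^ k)
      = fun k : ℕ => j ^ k := by
    funext k
    simp
  rwa [he] at h2

/-- If `x` is linearly independent over `K⟮j⟯` with `j` transcendental over `K`, then the family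
`j ^ k * x i` is linearly independent over `K`. -/
theorem linearIndependent_pow_mul {I : Type*} {j : F} (hj : Transcendental K j) (x : I → F)
    (hx : LinearIndependent K⟮j⟯ x) :
    LinearIndependent K (fun p : ℕ × I => j ^ p.1 * x p.2) := by
  have hb : LinearIndependent K (fun k : ℕ => (AdjoinSimple.gen K j) ^ k) := by
    refine LinearIndependent.of_comp (IsScalarTower.toAlgHom K ↥K⟮j⟯ F).toLinearMap ?_
    have he : (⇑(IsScalarTower.toAlgHom K ↥K⟮j⟯ F).toLinearMap ∘
        fun k : ℕ => (AdjoinSimple.gen K j) ^ k) = fun k : ℕ => j ^ k := by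
      funext k
      simp
    rw [he]
    exact linearIndependent_pow_of_transcendental hj
  have h := linearIndependent_smul hb hx
  have he : (fun p : ℕ × I => (AdjoinSimple.gen K j) ^ p.1 • x p.2)
      = fun p : ℕ × I => j ^ p.1 * x p.2 := by
    funext p
    rw [IntermediateField.smul_def]
    simp
  rwa [he] at h

open scoped IntermediateField.algebraAdjoinAdjoin in
/-- **Linear disjointness transfer.** -/
theorem linearIndependent_map_of_adjoin_simple (φ : F →+* E) {I : Type*} {j : F}
    (hj : Transcendental K j) (x : I → F)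
    (hLD : ∀ y : ℕ × I → F, LinearIndependent K y → LinearIndependent L (fun p => φ (y p)))
    (hx : LinearIndependent K⟮j⟯ x) : LinearIndependent L⟮φ j⟯ (fun i => φ (x i)) := by
  classical
  have hy := hLD _ (linearIndependent_pow_mul hj x hx)
  rw [← LinearIndependent.iff_fractionRing (Algebra.adjoin L ({φ j} : Set E)) ↥L⟮φ j⟯]
  rw [linearIndependent_iff']
  intro s g hg i hi
  -- write the coefficients as polynomials in `φ j`
  have hP : ∀ i : I, ∃ P : L[X], Polynomial.aeval (φ j) P = (g i : E) := by
    intro i
    have h1 : (g i : E) ∈ (Polynomial.aeval (R := L) (φ j)).range := by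
      rw [← Algebra.adjoin_singleton_eq_range_aeval]
      exact (g i).2
    exact h1
  choose P hP using hP
  set M : ℕ := s.sup (fun i => (P i).natDegree) + 1 with hM
  have hsum : ∑ p ∈ (Finset.range M ×ˢ s), (P p.2).coeff p.1 • φ (j ^ p.1 * x p.2) = 0 := by
    rw [Finset.sum_product_right]
    rw [← hg]
    refine Finset.sum_congr rfl (fun i hi => ?_)
    have hdeg : (P i).natDegree < M := by
      have : (P i).natDegree ≤ s.sup (fun i => (P i).natDegree) :=
        Finset.le_sup (f := fun i => (P i).natDegree) hi
      omega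
    have h1 : (g i • φ (x i) : E) = (g i : E) * φ (x i) := rfl
    rw [h1, ← hP i, Polynomial.aeval_eq_sum_range' hdeg, Finset.sum_mul]
    refine Finset.sum_congr rfl (fun k _ => ?_)
    rw [map_mul, map_pow, smul_mul_assoc]
  have h0 := linearIndependent_iff'.1 hy (Finset.range M ×ˢ s)
    (fun p => (P p.2).coeff p.1) hsum
  have hPi : P i = 0 := by
    ext k
    rw [Polynomial.coeff_zero]
    by_cases hk : k < M
    · exact h0 (k, i) (Finset.mem_product.2 ⟨Finset.mem_range.2 hk, hi⟩)
    · apply Polynomial.coeff_eq_zero_of_natDegree_lt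
      have : (P i).natDegree ≤ s.sup (fun i => (P i).natDegree) :=
        Finset.le_sup (f := fun i => (P i).natDegree) hi
      omega
  apply Subtype.ext
  rw [← hP i, hPi, map_zero]
  rfl

/-- **Degree under extension of the constant field.** -/
theorem finrank_eq_of_baseChange (ι : K →+* L) (φ : F →+* E)
    (hφ : ∀ c : K, φ (algebraMap K F c) = algebraMap L E (ι c))
    (hLD : ∀ (n : ℕ) (y : ℕ × Fin n → F), LinearIndependent K y →
      LinearIndependent L (fun p => φ (y p)))
    (hgen : IntermediateField.adjoin L (Set.range φ) = ⊤)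
    {j : F} (hj : Transcendental K j) [FiniteDimensional K⟮j⟯ F] :
    FiniteDimensional L⟮φ j⟯ E ∧ Module.finrank L⟮φ j⟯ E = Module.finrank K⟮j⟯ F := by
  classical
  let b : Module.Basis (Fin (Module.finrank K⟮j⟯ F)) K⟮j⟯ F := Module.finBasis K⟮j⟯ F
  have hli : LinearIndependent L⟮φ j⟯ (fun i => φ (b i)) :=
    linearIndependent_map_of_adjoin_simple φ hj b (hLD _) b.linearIndependent
  -- the span of the image of the basis
  set V : Submodule L⟮φ j⟯ E := Submodule.span L⟮φ j⟯ (Set.range (fun i => φ (b i))) with hV
  have hFV : ∀ x : F, φ x ∈ V := by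
    intro x
    have hx := b.sum_repr x
    rw [← hx, map_sum]
    refine Submodule.sum_mem _ (fun i _ => ?_)
    have h1 : φ ((b.repr x i) • b i)
        = (⟨φ (b.repr x i : F), map_mem_adjoin_simple ι φ hφ j (b.repr x i).2⟩ : ↥L⟮φ j⟯)
          • φ (b i) := by
      rw [IntermediateField.smul_def, IntermediateField.smul_def, smul_eq_mul, smul_eq_mul,
        map_mul]
    rw [h1]
    exact Submodule.smul_mem _ _ (Submodule.subset_span ⟨i, rfl⟩)
  have hmul : ∀ u v : E, u ∈ V → v ∈ V → u * v ∈ V := by
    intro u v hu hv
    induction hu using Submodule.span_induction with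
    | mem u hu =>
      obtain ⟨i, rfl⟩ := hu
      induction hv using Submodule.span_induction with
      | mem v hv =>
        obtain ⟨k, rfl⟩ := hv
        rw [← map_mul]
        exact hFV _
      | zero => rw [mul_zero]; exact V.zero_mem
      | add v w _ _ hv hw => rw [mul_add]; exact V.add_mem hv hw
      | smul c v _ hv => rw [mul_smul_comm]; exact V.smul_mem c hv
    | zero => rw [zero_mul]; exact V.zero_mem
    | add u w _ _ hu hw => rw [add_mul]; exact V.add_mem hu hw
    | smul c u _ hu => rw [smul_mul_assoc]; exact V.smul_mem c hu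
  have hone : (1 : E) ∈ V := by
    rw [← map_one φ]
    exact hFV 1
  let A : Subalgebra L⟮φ j⟯ E := Submodule.toSubalgebra V hone hmul
  have hVfin : Module.Finite L⟮φ j⟯ ↥V := FiniteDimensional.span_of_finite _ (Set.finite_range _)
  have hAfin : Module.Finite L⟮φ j⟯ ↥A := hVfin
  have hinv : ∀ u ∈ A, u⁻¹ ∈ A := by
    intro u hu
    have hint : IsIntegral L⟮φ j⟯ (⟨u, hu⟩ : ↥A) := IsIntegral.of_finite _ _
    have halg : IsAlgebraic L⟮φ j⟯ (((⟨u, hu⟩ : ↥A) : E)) :=
      (hint.isAlgebraic).algebraMap (A := E)
    exact A.inv_mem_of_algebraic (x := ⟨u, hu⟩) halg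
  let S : IntermediateField L⟮φ j⟯ E := A.toIntermediateField hinv
  have htop : V = ⊤ := by
    rw [eq_top_iff]
    intro u _
    have hu : u ∈ IntermediateField.adjoin L (Set.range φ) := by
      rw [hgen]
      trivial
    have hle : IntermediateField.adjoin L (Set.range φ) ≤ S.restrictScalars L := by
      rw [IntermediateField.adjoin_le_iff]
      rintro _ ⟨x, rfl⟩
      exact hFV x
    exact hle hu
  have hspan : ⊤ ≤ Submodule.span L⟮φ j⟯ (Set.range (fun i => φ (b i))) := by
    rw [← hV, htop]
  let b' := Module.Basis.mk hli hspan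
  refine ⟨Module.Finite.of_basis b', ?_⟩
  rw [Module.finrank_eq_card_basis b', Fintype.card_fin]

end Fermat.Agent.H69.BC

end
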