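import Fermat.Agent.H23.EsA.Parts
import Fermat.Agent.H69.CoeffMapIndep
import Fermat.Agent.H69.JBarTranscendental

/-!
# P-ES / ES-A, package DEG-C, part 1: the coefficientwise embedding `Fbar N → FC N`

`phi N` is the ring homomorphism from the function field of `X₀(N)` over `ℚ̄` to the function
field over `ℂ` induced by an embedding `ℚ̄ → ℂ` on the coefficients of Laurent series.  It is
semilinear, preserves linear independence over the constants, its image generates `FC N` over
`ℂ`, and it sends `j` to `j`.
-/

set_option autoImplicit false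
noncomputable section
open IntermediateField ModularCurve
open scoped MatrixGroups

namespace Fermat.Agent.H69.DegC

/-- An embedding of `ℚ̄` into `ℂ`. -/
def emb : AlgebraicClosure ℚ →+* ℂ :=
  haveI : Algebra.IsAlgebraic ℚ (AlgebraicClosure ℚ) := AlgebraicClosure.isAlgebraic ℚ
  (IsAlgClosed.lift : AlgebraicClosure ℚ →ₐ[ℚ] ℂ).toRingHom

theorem emb_comp_algebraMap :
    emb.comp (algebraMap ℚ (AlgebraicClosure ℚ)) = algebraMap ℚ ℂ := by
  have : Algebra.IsAlgebraic ℚ (AlgebraicClosure ℚ) := AlgebraicClosure.isAlgebraic ℚ
  exact RingHom.ext fun c => (IsAlgClosed.lift : AlgebraicClosure ℚ →ₐ[ℚ] ℂ).commutes c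

theorem coeffMap_emb_coeffEmb (x : LaurentSeries ℚ) :
    coeffMap emb (coeffEmb (AlgebraicClosure ℚ) x) = coeffEmb ℂ x := by
  rw [coeffEmb, coeffMap_coeffMap]
  exact coeffMap_congr emb_comp_algebraMap x

theorem coeffMap_emb_algebraMap (c : AlgebraicClosure ℚ) :
    coeffMap emb (algebraMap (AlgebraicClosure ℚ) (LaurentSeries (AlgebraicClosure ℚ)) c)
      = algebraMap ℂ (LaurentSeries ℂ) (emb c) := by
  rw [algebraMap_laurentSeries_eq_single, algebraMap_laurentSeries_eq_single, coeffMap_single]

theorem coeffMap_emb_mem {N : ℕ} {x : LaurentSeries (AlgebraicClosure ℚ)}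
    (hx : x ∈ modularFunctionFieldBar N) :
    coeffMap emb x ∈ Fermat.Agent.H23.EsA.FC N := by
  rw [mem_laurentBaseChange_iff] at hx
  induction hx using Subfield.closure_induction with
  | mem y hy =>
      rcases hy with ⟨a, rfl⟩ | ⟨z, hz, rfl⟩
      · rw [coeffMap_emb_algebraMap]
        exact (Fermat.Agent.H23.EsA.FC N).algebraMap_mem _
      · rw [coeffMap_emb_coeffEmb]
        exact coeffEmb_mem_laurentBaseChange ℂ hz
  | one => simp
  | add x y _ _ hx hy => simpa using add_mem hx hy
  | neg x _ hx => simpa using neg_mem hx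
  | inv x _ hx => simpa using inv_mem hx
  | mul x y _ _ hx hy => simpa using mul_mem hx hy

/-- The coefficientwise embedding of the function field over `ℚ̄` into the one over `ℂ`. -/
def phi (N : ℕ) : ↥(modularFunctionFieldBar N) →+* ↥(Fermat.Agent.H23.EsA.FC N) where
  toFun x := ⟨coeffMap emb (x : LaurentSeries (AlgebraicClosure ℚ)), coeffMap_emb_mem x.2⟩
  map_one' := Subtype.ext (by simp)
  map_mul' x y := Subtype.ext (by simp)
  map_zero' := Subtype.ext (by simp)
  map_add' x y := Subtype.ext (by simp)

@[simp]
theorem coe_phi (N : ℕ) (x : ↥(modularFunctionFieldBar N)) :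
    ((phi N x : ↥(Fermat.Agent.H23.EsA.FC N)) : LaurentSeries ℂ)
      = coeffMap emb (x : LaurentSeries (AlgebraicClosure ℚ)) := rfl

theorem phi_algebraMap (N : ℕ) (c : AlgebraicClosure ℚ) :
    phi N (algebraMap (AlgebraicClosure ℚ) ↥(modularFunctionFieldBar N) c)
      = algebraMap ℂ ↥(Fermat.Agent.H23.EsA.FC N) (emb c) := by
  apply Subtype.ext
  rw [coe_phi]
  exact coeffMap_emb_algebraMap c

/-- The two scalar multiplications on Laurent series (from the algebra structure, and the
coefficientwise one) agree. -/
theorem algebra_smul_eq {K : Type*} [Field K] (c : K) (x : LaurentSeries K) :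
    (@HSMul.hSMul K (LaurentSeries K) (LaurentSeries K)
      (@instHSMul K (LaurentSeries K) Algebra.toSMul) c x)
    = (@HSMul.hSMul K (LaurentSeries K) (LaurentSeries K)
      (@instHSMul K (LaurentSeries K) HahnSeries.instSMul) c x) := by
  ext m
  rw [Fermat.Agent.H69.coeff_algebra_smul, HahnSeries.coeff_smul, smul_eq_mul]

/-- Linear independence of Laurent series does not depend on the choice of the module
structure. -/
theorem li_iff {K : Type*} [Field K] {I : Type*} (f : I → LaurentSeries K) :
    @LinearIndependent I K (LaurentSeries K) f _ _ Algebra.toModule ↔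
    @LinearIndependent I K (LaurentSeries K) f _ _ HahnSeries.instModule := by
  constructor
  · intro h
    have h' := (@linearIndependent_iff' I K (LaurentSeries K) _ _ Algebra.toModule f).1 h
    refine (@linearIndependent_iff' I K (LaurentSeries K) _ _ HahnSeries.instModule f).2 ?_
    intro s g hg i hi
    refine h' s g ?_ i hi
    rw [← hg]
    exact Finset.sum_congr rfl (fun i _ => algebra_smul_eq _ _)
  · intro h
    have h' := (@linearIndependent_iff' I K (LaurentSeries K) _ _ HahnSeries.instModule f).1 h
    refine (@linearIndependent_iff' I K (LaurentSeries K) _ _ Algebra.toModule f).2 ?_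
    intro s g hg i hi
    refine h' s g ?_ i hi
    rw [← hg]
    exact Finset.sum_congr rfl (fun i _ => (algebra_smul_eq _ _).symm)

end Fermat.Agent.H69.DegC

end
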