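import Fermat.Agent.H23.EsA.Parts
import Fermat.Agent.H23.Final3
import Fermat.Agent.H82.CuspDatum
import Fermat.Agent.H69.DegreeBaseChange
import Fermat.Agent.H69.DegreeCPhi

/-!
# P-ES / ES-A, package DEG-C: the degree of the function field of `X₀(N)` over `ℂ(j)`

`DegreeCStatement N`: `j` is transcendental over `ℂ`, and the function field `FC N` of `X₀(N)`
over `ℂ` is finite over `ℂ(j)` of degree exactly `[SL(2,ℤ) : Γ₀(N)]`.

Route: base change.  The landed results over `ℚ̄` (upper bound `DegreeStatement N`, lower bound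
from the analytic datum at the cusp) give the degree over `ℚ̄(j)`; the coefficientwise embedding
`ℚ̄((q)) → ℂ((q))` preserves linear independence over the constants, which yields the same degree
over `ℂ(j)` (`BC.finrank_eq_of_baseChange`).
-/

set_option autoImplicit false

noncomputable section

open IntermediateField ModularCurve
open scoped MatrixGroups

namespace Fermat.Agent.H69.DegC

theorem coe_smul_FC (N : ℕ) (c : ℂ) (u : ↥(Fermat.Agent.H23.EsA.FC N)) :
    ((c • u : ↥(Fermat.Agent.H23.EsA.FC N)) : LaurentSeries ℂ)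
      = HahnSeries.C c * (u : LaurentSeries ℂ) := by
  rw [Algebra.smul_def]
  show algebraMap ℂ (LaurentSeries ℂ) c * (u : LaurentSeries ℂ) = _
  rw [algebraMap_laurentSeries_eq_single]
  rfl

theorem coe_smul_Fbar (N : ℕ) (c : AlgebraicClosure ℚ) (u : ↥(modularFunctionFieldBar N)) :
    ((c • u : ↥(modularFunctionFieldBar N)) : LaurentSeries (AlgebraicClosure ℚ))
      = HahnSeries.C c * (u : LaurentSeries (AlgebraicClosure ℚ)) := by
  rw [Algebra.smul_def]
  show algebraMap (AlgebraicClosure ℚ) (LaurentSeries (AlgebraicClosure ℚ)) c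
    * (u : LaurentSeries (AlgebraicClosure ℚ)) = _
  rw [algebraMap_laurentSeries_eq_single]
  rfl

theorem phi_linearIndependent (N : ℕ) {I : Type*} (y : I → ↥(modularFunctionFieldBar N))
    (hy : LinearIndependent (AlgebraicClosure ℚ) y) :
    LinearIndependent ℂ (fun p => phi N (y p)) := by
  rw [linearIndependent_iff'] at hy ⊢
  intro s g hg
  refine coeffMap_rel_descent emb s
    (fun i => ((y i : ↥(modularFunctionFieldBar N)) : LaurentSeries (AlgebraicClosure ℚ))) g ?_ ?_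
  · have h1 : ((∑ i ∈ s, g i • phi N (y i) : ↥(Fermat.Agent.H23.EsA.FC N)) : LaurentSeries ℂ)
        = 0 := by
      rw [hg]
      rfl
    rw [← h1]
    rw [show ((∑ i ∈ s, g i • phi N (y i) : ↥(Fermat.Agent.H23.EsA.FC N)) : LaurentSeries ℂ)
      = ∑ i ∈ s, ((g i • phi N (y i) : ↥(Fermat.Agent.H23.EsA.FC N)) : LaurentSeries ℂ) from
      map_sum (Fermat.Agent.H23.EsA.FC N).val _ _]
    refine Finset.sum_congr rfl (fun i _ => ?_)
    rw [coe_smul_FC, coe_phi]
  · intro a ha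
    refine hy s a ?_
    apply Subtype.ext
    rw [show ((∑ i ∈ s, a i • y i : ↥(modularFunctionFieldBar N)) :
        LaurentSeries (AlgebraicClosure ℚ))
      = ∑ i ∈ s, ((a i • y i : ↥(modularFunctionFieldBar N)) :
        LaurentSeries (AlgebraicClosure ℚ)) from
      map_sum (modularFunctionFieldBar N).val _ _]
    rw [show (((0 : ↥(modularFunctionFieldBar N)) : LaurentSeries (AlgebraicClosure ℚ))) = 0
      from rfl, ← ha]
    exact Finset.sum_congr rfl (fun i _ => coe_smul_Fbar N _ _)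

theorem phi_gen_aux (N : ℕ) (x : LaurentSeries ℂ)
    (hx : x ∈ IntermediateField.adjoin ℂ
      (⇑(coeffEmb ℂ) '' ((modularFunctionFieldFull N) : Set (LaurentSeries ℚ)))) :
    ∃ h : x ∈ Fermat.Agent.H23.EsA.FC N,
        (⟨x, h⟩ : ↥(Fermat.Agent.H23.EsA.FC N)) ∈
          IntermediateField.adjoin ℂ (Set.range (phi N)) := by
  induction hx using IntermediateField.adjoin_induction with
  | mem x hx =>
    obtain ⟨z, hz, rfl⟩ := hx
    refine ⟨coeffEmb_mem_laurentBaseChange ℂ hz, ?_⟩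
    refine IntermediateField.subset_adjoin ℂ _
      ⟨⟨coeffEmb (AlgebraicClosure ℚ) z, coeffEmb_mem_laurentBaseChange _ hz⟩, ?_⟩
    apply Subtype.ext
    rw [coe_phi]
    exact coeffMap_emb_coeffEmb z
  | algebraMap c =>
    refine ⟨(Fermat.Agent.H23.EsA.FC N).algebraMap_mem c, ?_⟩
    exact (IntermediateField.adjoin ℂ (Set.range (phi N))).algebraMap_mem c
  | add x y _ _ hx hy =>
    obtain ⟨h1, h2⟩ := hx
    obtain ⟨h3, h4⟩ := hy
    refine ⟨add_mem h1 h3, ?_⟩
    have e : (⟨x + y, add_mem h1 h3⟩ : ↥(Fermat.Agent.H23.EsA.FC N))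
        = (⟨x, h1⟩ : ↥(Fermat.Agent.H23.EsA.FC N)) + ⟨y, h3⟩ :=
      Subtype.ext (by rw [IntermediateField.coe_add])
    rw [e]
    exact add_mem h2 h4
  | inv x _ hx =>
    obtain ⟨h1, h2⟩ := hx
    refine ⟨inv_mem h1, ?_⟩
    have e : (⟨x⁻¹, inv_mem h1⟩ : ↥(Fermat.Agent.H23.EsA.FC N))
        = (⟨x, h1⟩ : ↥(Fermat.Agent.H23.EsA.FC N))⁻¹ :=
      Subtype.ext (by rw [IntermediateField.coe_inv])
    rw [e]
    exact inv_mem h2
  | mul x y _ _ hx hy =>
    obtain ⟨h1, h2⟩ := hx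
    obtain ⟨h3, h4⟩ := hy
    refine ⟨mul_mem h1 h3, ?_⟩
    have e : (⟨x * y, mul_mem h1 h3⟩ : ↥(Fermat.Agent.H23.EsA.FC N))
        = (⟨x, h1⟩ : ↥(Fermat.Agent.H23.EsA.FC N)) * ⟨y, h3⟩ :=
      Subtype.ext (by rw [IntermediateField.coe_mul])
    rw [e]
    exact mul_mem h2 h4

theorem phi_gen (N : ℕ) :
    IntermediateField.adjoin ℂ (Set.range (phi N)) = ⊤ := by
  rw [eq_top_iff]
  rintro ⟨u, hu⟩ -
  obtain ⟨_, h⟩ := phi_gen_aux N u hu
  exact h

theorem phi_jBar (N : ℕ) [NeZero N] :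
    phi N (Fermat.Agent.H23.jBar N) = Fermat.Agent.H23.EsA.jC N 1 (one_dvd N) := by
  apply Subtype.ext
  rw [coe_phi]
  show coeffMap emb (coeffEmb (AlgebraicClosure ℚ) jq) = coeffEmb ℂ (qExpand ℚ 1 jq)
  rw [qExpand_one_apply, coeffMap_emb_coeffEmb]

/-- `j` is transcendental over `ℂ` in the function field of `X₀(N)` over `ℂ`. -/
theorem transcendental_jC (N : ℕ) [NeZero N] :
    Transcendental ℂ (Fermat.Agent.H23.EsA.jC N 1 (one_dvd N)) := by
  intro halg
  have h1 : IsAlgebraic ℂ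
      (algebraMap ↥(Fermat.Agent.H23.EsA.FC N) (LaurentSeries ℂ)
        (Fermat.Agent.H23.EsA.jC N 1 (one_dvd N))) :=
    halg.algebraMap
  have h2 : (algebraMap ↥(Fermat.Agent.H23.EsA.FC N) (LaurentSeries ℂ)
        (Fermat.Agent.H23.EsA.jC N 1 (one_dvd N))) = coeffEmb ℂ jq := by
    show coeffEmb ℂ (qExpand ℚ 1 jq) = coeffEmb ℂ jq
    rw [qExpand_one_apply]
  rw [h2] at h1
  exact transcendental_of_order_neg _ (order_coeffEmb_jq_neg ℂ) h1

/-- The degree of the function field of `X₀(N)` over `ℚ̄(j)` is exactly the index of `Γ₀(N)`. -/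
theorem finrank_bar_eq (N : ℕ) [NeZero N] :
    FiniteDimensional (AlgebraicClosure ℚ)⟮Fermat.Agent.H23.jBar N⟯
        ↥(modularFunctionFieldBar N) ∧
      Module.finrank (AlgebraicClosure ℚ)⟮Fermat.Agent.H23.jBar N⟯ ↥(modularFunctionFieldBar N)
        = Nat.card (SL(2, ℤ) ⧸ CongruenceSubgroup.Gamma0 N) := by
  obtain ⟨-, hfd, hle⟩ := Fermat.Agent.H23.degreeStatement_holds N
  obtain ⟨A⟩ := Fermat.Agent.H82.analytic_cusp N Fermat.Agent.H33.merGerm_statement
    (Fermat.Agent.H44.core N)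
  have hge := Fermat.Agent.H23.card_le_finrank_of_analyticDatum A
  exact ⟨hfd, le_antisymm hle hge⟩

/-- **[DEG-C]**: `j` is transcendental over `ℂ` and the function field of `X₀(N)` over `ℂ` has
degree exactly `[SL(2,ℤ) : Γ₀(N)]` over `ℂ(j)`. -/
theorem degreeC (N : ℕ) [NeZero N] : Fermat.Agent.H23.EsA.DegreeCStatement N := by
  obtain ⟨hfd, heq⟩ := finrank_bar_eq N
  obtain ⟨h1, h2⟩ := BC.finrank_eq_of_baseChange emb (phi N) (phi_algebraMap N)
    (fun n y hy => phi_linearIndependent N y hy) (phi_gen N)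
    (Fermat.Agent.H69.transcendental_jBar N)
  rw [phi_jBar] at h1 h2
  exact ⟨transcendental_jC N, h1, h2.trans heq⟩

end Fermat.Agent.H69.DegC

end
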