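import Fermat.Agent.H23.BlueprintRH

/-!
# GEN-3 (P-GENUS): Kähler differentials of a function field of one variable

For `K` algebraically closed of characteristic zero, `F` a finite extension of `K⟮x⟯`:
* `dz` spans `Ω[F⁄K]` for every transcendental `z`;
* the coordinate differential `v.dCoord` of every place spans `Ω[F⁄K]`.
-/

set_option autoImplicit false

noncomputable section

open AlgebraicCurve KaehlerDifferential IntermediateField

open scoped IntermediateField.algebraAdjoinAdjoin

namespace Fermat.Agent.H69

/-- Exchange: if `F` is finite over `K⟮x⟯` and `z` is transcendental over `K`, then `F` is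
algebraic over `K⟮z⟯`. -/
theorem isAlgebraic_adjoin_simple_of_transcendental {K F : Type} [Field K] [Field F]
    [Algebra K F] (x : F) (hfin : FiniteDimensional K⟮x⟯ F) (z : F)
    (hz : Transcendental K z) : Algebra.IsAlgebraic K⟮z⟯ F := by
  have h1 : Algebra.IsAlgebraic K⟮x⟯ F := Algebra.IsAlgebraic.of_finite _ _
  have h2 : Algebra.IsAlgebraic (Algebra.adjoin K ({x} : Set F)) F :=
    (IsFractionRing.comap_isAlgebraic_iff (K := K⟮x⟯)).2 h1
  have h3 : Algebra.trdeg K F ≤ 1 := by
    simpa using Algebra.IsAlgebraic.trdeg_le_cardinalMk K ({x} : Set F)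
  have hz' : AlgebraicIndependent K (fun _ : Unit => z) :=
    algebraicIndependent_unique_type_iff.2 hz
  have h4 : IsTranscendenceBasis K (fun _ : Unit => z) :=
    hz'.isTranscendenceBasis_of_trdeg_le_of_finite (by simpa using h3)
  have h5 := h4.isAlgebraic_field
  rwa [Set.range_const] at h5

/-- The differentials of elements of `K⟮z⟯` are multiples of `dz`. -/
theorem D_mem_span_of_mem_adjoin_simple {K F : Type} [Field K] [Field F] [Algebra K F]
    (z : F) {c : F} (hc : c ∈ K⟮z⟯) :
    D K F c ∈ Submodule.span F ({D K F z} : Set Ω[F⁄K]) := by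
  induction hc using IntermediateField.adjoin_induction with
  | mem a ha =>
    rw [Set.mem_singleton_iff] at ha
    subst ha
    exact Submodule.mem_span_singleton_self _
  | algebraMap a =>
    rw [Derivation.map_algebraMap]
    exact zero_mem _
  | add a b _ _ ha hb =>
    rw [map_add]
    exact add_mem ha hb
  | inv a _ ha =>
    rw [Derivation.leibniz_inv]
    exact Submodule.smul_mem _ _ ha
  | mul a b _ _ ha hb =>
    rw [Derivation.leibniz]
    exact add_mem (Submodule.smul_mem _ _ hb) (Submodule.smul_mem _ _ ha)

/-- `dz` spans `Ω[F⁄K]` for every transcendental `z`. -/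
theorem exists_eq_smul_D_of_transcendental {K F : Type} [Field K] [Field F] [Algebra K F]
    [CharZero K] (x : F) (hfin : FiniteDimensional K⟮x⟯ F) (z : F)
    (hz : Transcendental K z) (ω : Ω[F⁄K]) : ∃ f : F, ω = f • D K F z := by
  have : Algebra.IsAlgebraic K⟮z⟯ F := isAlgebraic_adjoin_simple_of_transcendental x hfin z hz
  have : CharZero K⟮z⟯ := charZero_of_injective_algebraMap (algebraMap K K⟮z⟯).injective
  have : Algebra.IsSeparable K⟮z⟯ F := Algebra.IsAlgebraic.isSeparable_of_perfectField
  have : Algebra.FormallyUnramified K⟮z⟯ F := Algebra.FormallyUnramified.of_isSeparable _ _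
  have : Subsingleton Ω[F⁄K⟮z⟯] := Algebra.FormallyUnramified.subsingleton_kaehlerDifferential
  have hrange : ω ∈ LinearMap.range (mapBaseChange K K⟮z⟯ F) := by
    rw [KaehlerDifferential.range_mapBaseChange, LinearMap.mem_ker]
    exact Subsingleton.elim _ _
  obtain ⟨t, rfl⟩ := hrange
  have key : ∀ t : TensorProduct K⟮z⟯ F Ω[K⟮z⟯⁄K],
      mapBaseChange K K⟮z⟯ F t ∈ Submodule.span F ({D K F z} : Set Ω[F⁄K]) := by
    intro t
    induction t using TensorProduct.induction_on with
    | zero =>
      rw [map_zero]
      exact zero_mem _
    | tmul f η =>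
      rw [KaehlerDifferential.mapBaseChange_tmul]
      apply Submodule.smul_mem
      have hη : η ∈ Submodule.span K⟮z⟯ (Set.range (D K K⟮z⟯)) := by
        rw [KaehlerDifferential.span_range_derivation]
        trivial
      induction hη using Submodule.span_induction with
      | mem y hy =>
        obtain ⟨c, rfl⟩ := hy
        rw [KaehlerDifferential.map_D]
        exact D_mem_span_of_mem_adjoin_simple z c.2
      | zero =>
        rw [map_zero]
        exact zero_mem _
      | add a b _ _ ha hb =>
        rw [map_add]
        exact add_mem ha hb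
      | smul c a _ ha =>
        rw [map_smul]
        exact Submodule.smul_of_tower_mem _ c ha
    | add a b ha hb =>
      rw [map_add]
      exact add_mem ha hb
  obtain ⟨f, hf⟩ := Submodule.mem_span_singleton.1 (key t)
  exact ⟨f, hf.symm⟩

/-- Nonzero constants have order zero at every place. -/
theorem ord_algebraMap_eq_zero {K F : Type} [Field K] [Field F] [Algebra K F]
    (v : Place K F) (c : K) : v.ord (algebraMap K F c) = 0 := by
  rcases eq_or_ne c 0 with rfl | hc
  · rw [map_zero]
    exact v.ord_zero
  · have h := v.ord_coe_unit
      (Units.map (algebraMap K v.toValuationSubring).toMonoidHom (Units.mk0 c hc))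
    simpa using h

/-- An element of nonzero order at some place is transcendental over the (algebraically closed)
constant field. -/
theorem transcendental_of_ord_ne_zero {K F : Type} [Field K] [Field F] [Algebra K F]
    [IsAlgClosed K] (v : Place K F) {f : F} (hf : v.ord f ≠ 0) : Transcendental K f := by
  intro halg
  have hint : IsIntegral K f := halg.isIntegral
  have hdeg : (minpoly K f).degree = 1 :=
    IsAlgClosed.degree_eq_one_of_irreducible K (minpoly.irreducible hint)
  obtain ⟨c, rfl⟩ := minpoly.mem_range_of_degree_eq_one K f hdeg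
  exact hf (ord_algebraMap_eq_zero v c)

/-- The coordinate differential of a place is `d π` for an element `π` of order one. -/
theorem exists_dCoord_eq {K F : Type} [Field K] [Field F] [Algebra K F] (v : Place K F) :
    ∃ π : F, v.ord π = 1 ∧ v.dCoord = D K F π :=
  ⟨((IsDiscreteValuationRing.exists_irreducible v.toValuationSubring).choose : F),
    v.ord_coe_irreducible
      (IsDiscreteValuationRing.exists_irreducible v.toValuationSubring).choose_spec, rfl⟩

/-- **GEN-3** (P-GENUS): Kähler differentials of a function field of one variable. -/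
theorem kaehler : Fermat.Agent.H23.KaehlerStatement := by
  intro K F _ _ _ _ _ x _ hfin
  refine ⟨fun z hz ω => exists_eq_smul_D_of_transcendental x hfin z hz ω, fun v ω => ?_⟩
  obtain ⟨π, hπ, hd⟩ := exists_dCoord_eq v
  rw [hd]
  exact exists_eq_smul_D_of_transcendental x hfin π
    (transcendental_of_ord_ne_zero v (by rw [hπ]; exact one_ne_zero)) ω

end Fermat.Agent.H69

end
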