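import Mathlib

/-!
# P-DS block (5b): bounded image (Deligne–Serre, Prop. 7.2), classification-free

Let `F` be a field with `2 ≠ 0`, `G` a finite group and `ρ : G →* M₂(F)` a faithful
two-dimensional representation which is semisimple (every `G`-stable line has a `G`-stable
complementary line).  Let `H ⊆ G` and let `T ⊆ F` be a finite set containing the traces of the
elements of `H`.  Then `|G| ≤ 4 |G ∖ H| + |T|⁴`.

Proof.  Let `A` be the `F`-span of `ρ(G)`.  The trace form `(x, y) ↦ tr(xy)` on `A` is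
nondegenerate: its radical consists of matrices `r` with `tr r = tr r² = 0`, hence `r² = 0`, is
stable under multiplication by `ρ(G)`, and semisimplicity forces it to vanish.  Choose
`g₁, …, g_d ∈ G`, `d ≤ 4`, such that the `ρ(gᵢ)` span `A`.  Then `h ↦ (tr ρ(h gᵢ))ᵢ` is injective
on `G`; on the set of `h` with `h gᵢ ∈ H` for all `i`, whose complement has at most `d |G ∖ H|`
elements, it takes values in `Tᵈ`.
-/

set_option autoImplicit false

noncomputable section

namespace Fermat.Agent.H69.DS

open Matrix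

variable {F : Type*} [Field F]

/-! ### Linear algebra of `2 × 2` matrices -/

/-- A `2 × 2` matrix with `tr r = 0` and `tr r² = 0` squares to zero, if `2 ≠ 0`. -/
theorem mul_self_eq_zero_of_trace (h2 : (2 : F) ≠ 0) (r : Matrix (Fin 2) (Fin 2) F)
    (h1 : r.trace = 0) (h3 : (r * r).trace = 0) : r * r = 0 := by
  rw [Matrix.trace_fin_two] at h1 h3
  simp only [Matrix.mul_apply, Fin.sum_univ_two] at h3
  have hd : r 1 1 = - r 0 0 := by linear_combination h1
  have hq : r 0 0 * r 0 0 + r 0 1 * r 1 0 = 0 := by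
    have : (2 : F) * (r 0 0 * r 0 0 + r 0 1 * r 1 0) = 0 := by
      rw [hd] at h3
      linear_combination h3
    rcases mul_eq_zero.1 this with h | h
    · exact absurd h h2
    · exact h
  ext i j
  fin_cases i <;> fin_cases j <;>
    simp only [Matrix.mul_apply, Fin.sum_univ_two, Matrix.zero_apply, Fin.zero_eta, Fin.mk_one]
  · exact hq
  · rw [hd]; ring
  · rw [hd]; ring
  · rw [hd]; linear_combination hq

/-- A matrix killing two linearly independent vectors vanishes. -/
theorem eq_zero_of_mulVec_eq_zero (r : Matrix (Fin 2) (Fin 2) F) (u w : Fin 2 → F)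
    (hD : u 0 * w 1 - u 1 * w 0 ≠ 0) (hu : r.mulVec u = 0) (hw : r.mulVec w = 0) : r = 0 := by
  have hu0 := congrFun hu 0
  have hu1 := congrFun hu 1
  have hw0 := congrFun hw 0
  have hw1 := congrFun hw 1
  simp only [Matrix.mulVec, dotProduct, Fin.sum_univ_two, Pi.zero_apply] at hu0 hu1 hw0 hw1
  have e00 : r 0 0 * (u 0 * w 1 - u 1 * w 0) = 0 := by
    linear_combination w 1 * hu0 - u 1 * hw0
  have e01 : r 0 1 * (u 0 * w 1 - u 1 * w 0) = 0 := by
    linear_combination u 0 * hw0 - w 0 * hu0
  have e10 : r 1 0 * (u 0 * w 1 - u 1 * w 0) = 0 := by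
    linear_combination w 1 * hu1 - u 1 * hw1
  have e11 : r 1 1 * (u 0 * w 1 - u 1 * w 0) = 0 := by
    linear_combination u 0 * hw1 - w 0 * hu1
  ext i j
  fin_cases i <;> fin_cases j <;> simp only [Matrix.zero_apply, Fin.zero_eta, Fin.mk_one]
  · exact (mul_eq_zero.1 e00).resolve_right hD
  · exact (mul_eq_zero.1 e01).resolve_right hD
  · exact (mul_eq_zero.1 e10).resolve_right hD
  · exact (mul_eq_zero.1 e11).resolve_right hD

/-- Two vectors of the plane with vanishing determinant, the first being nonzero, are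
proportional. -/
theorem exists_smul_of_det_eq_zero (u x : Fin 2 → F) (hu : u ≠ 0)
    (hD : u 0 * x 1 - u 1 * x 0 = 0) : ∃ c : F, x = c • u := by
  by_cases h0 : u 0 = 0
  · have h1 : u 1 ≠ 0 := by
      intro h1
      apply hu
      ext i
      fin_cases i
      · exact h0
      · exact h1
    refine ⟨x 1 / u 1, ?_⟩
    ext i
    fin_cases i
    · simp only [Fin.zero_eta, Pi.smul_apply, smul_eq_mul, h0, mul_zero]
      rw [h0, zero_mul, zero_sub, neg_eq_zero] at hD
      exact (mul_eq_zero.1 hD).resolve_left h1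
    · simp only [Fin.mk_one, Pi.smul_apply, smul_eq_mul]
      field_simp
  · refine ⟨x 0 / u 0, ?_⟩
    ext i
    fin_cases i
    · simp only [Fin.zero_eta, Pi.smul_apply, smul_eq_mul]
      field_simp
    · simp only [Fin.mk_one, Pi.smul_apply, smul_eq_mul]
      field_simp
      linear_combination hD

/-! ### The trace form of a semisimple representation -/

section Rep

variable {G : Type*} [Group G] (ρ : G →* Matrix (Fin 2) (Fin 2) F)

/-- The linear span of the image of the representation. -/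
def spanAlg : Submodule F (Matrix (Fin 2) (Fin 2) F) := Submodule.span F (Set.range ρ)

theorem map_mem_spanAlg (g : G) : ρ g ∈ spanAlg ρ := Submodule.subset_span ⟨g, rfl⟩

theorem mul_mem_spanAlg (g : G) {a : Matrix (Fin 2) (Fin 2) F} (ha : a ∈ spanAlg ρ) :
    ρ g * a ∈ spanAlg ρ := by
  unfold spanAlg at ha ⊢
  induction ha using Submodule.span_induction with
  | mem x hx =>
    obtain ⟨g', rfl⟩ := hx
    rw [← map_mul]
    exact Submodule.subset_span ⟨_, rfl⟩
  | zero => rw [mul_zero]; exact zero_mem _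
  | add x y _ _ hx hy => rw [mul_add]; exact add_mem hx hy
  | smul c x _ hx => rw [Matrix.mul_smul]; exact Submodule.smul_mem _ c hx

/-- Semisimplicity of a two-dimensional representation: every stable line has a stable
complementary line. -/
def IsSemisimpleRep : Prop :=
  ∀ u : Fin 2 → F, u ≠ 0 → (∀ g, ∃ c : F, (ρ g).mulVec u = c • u) →
    ∃ w : Fin 2 → F, (∀ g, ∃ c : F, (ρ g).mulVec w = c • w) ∧ u 0 * w 1 - u 1 * w 0 ≠ 0

theorem trace_mul_eq_zero_of_forall {r : Matrix (Fin 2) (Fin 2) F} {s : Set G}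
    (hr : ∀ g ∈ s, (r * ρ g).trace = 0) {a : Matrix (Fin 2) (Fin 2) F}
    (ha : a ∈ Submodule.span F (ρ '' s)) : (r * a).trace = 0 := by
  induction ha using Submodule.span_induction with
  | mem x hx =>
    obtain ⟨g', hg', rfl⟩ := hx
    exact hr g' hg'
  | zero => rw [mul_zero, Matrix.trace_zero]
  | add x y _ _ hx hy => rw [mul_add, Matrix.trace_add, hx, hy, add_zero]
  | smul c x _ hx => rw [Matrix.mul_smul, Matrix.trace_smul, hx, smul_zero]

theorem eigen_of_mem_spanAlg {w : Fin 2 → F} (hw : ∀ g, ∃ c : F, (ρ g).mulVec w = c • w)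
    {a : Matrix (Fin 2) (Fin 2) F} (ha : a ∈ spanAlg ρ) : ∃ c : F, a.mulVec w = c • w := by
  unfold spanAlg at ha
  induction ha using Submodule.span_induction with
  | mem x hx =>
    obtain ⟨g', rfl⟩ := hx
    exact hw g'
  | zero => exact ⟨0, by rw [Matrix.zero_mulVec, zero_smul]⟩
  | add x y _ _ hx hy =>
    obtain ⟨c, hc⟩ := hx
    obtain ⟨d, hd⟩ := hy
    exact ⟨c + d, by rw [Matrix.add_mulVec, hc, hd, add_smul]⟩
  | smul c x _ hx =>
    obtain ⟨d, hd⟩ := hx
    exact ⟨c * d, by rw [Matrix.smul_mulVec, hd, smul_smul]⟩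

/-- **Nondegeneracy of the trace form** on the span of a semisimple two-dimensional
representation, in characteristic different from `2`. -/
theorem eq_zero_of_trace_mul_eq_zero (h2 : (2 : F) ≠ 0) (hss : IsSemisimpleRep ρ)
    {r : Matrix (Fin 2) (Fin 2) F} (hrA : r ∈ spanAlg ρ) (hr : ∀ g, (r * ρ g).trace = 0) :
    r = 0 := by
  by_contra hne
  have key : ∀ x ∈ spanAlg ρ, (∀ g, (x * ρ g).trace = 0) → x * x = 0 := by
    intro x hx hxt
    apply mul_self_eq_zero_of_trace h2
    · have := hxt 1
      rwa [map_one, mul_one] at this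
    · refine trace_mul_eq_zero_of_forall ρ (s := Set.univ) (fun g _ => hxt g) ?_
      rw [Set.image_univ]
      exact hx
  have hrr := key r hrA hr
  have hgr : ∀ g, (ρ g * r) * (ρ g * r) = 0 := by
    intro g
    apply key _ (mul_mem_spanAlg ρ g hrA)
    intro g'
    rw [Matrix.mul_assoc, Matrix.trace_mul_comm, Matrix.mul_assoc, ← map_mul]
    exact hr _
  have hrgr : ∀ g, r * ρ g * r = 0 := by
    intro g
    have h := hgr g
    have e : ρ g⁻¹ * ((ρ g * r) * (ρ g * r)) = r * ρ g * r := by
      rw [Matrix.mul_assoc (ρ g) r, ← Matrix.mul_assoc (ρ g⁻¹), ← map_mul, inv_mul_cancel,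
        map_one, one_mul, Matrix.mul_assoc]
    rw [← e, h, mul_zero]
  obtain ⟨v, hv⟩ : ∃ v : Fin 2 → F, r.mulVec v ≠ 0 := by
    by_contra hall
    push Not at hall
    apply hne
    ext i j
    have := congrFun (hall (Pi.single j 1)) i
    simpa using this
  have hru : r.mulVec (r.mulVec v) = 0 := by
    rw [Matrix.mulVec_mulVec, hrr, Matrix.zero_mulVec]
  have hker : ∀ x : Fin 2 → F, r.mulVec x = 0 → ∃ c : F, x = c • r.mulVec v := by
    intro x hx
    apply exists_smul_of_det_eq_zero (r.mulVec v) x hv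
    by_contra hD
    exact hne (eq_zero_of_mulVec_eq_zero r (r.mulVec v) x hD hru hx)
  have hstable : ∀ g, ∃ c : F, (ρ g).mulVec (r.mulVec v) = c • r.mulVec v := by
    intro g
    apply hker
    rw [Matrix.mulVec_mulVec, Matrix.mulVec_mulVec, hrgr g, Matrix.zero_mulVec]
  obtain ⟨w, hw, hD⟩ := hss (r.mulVec v) hv hstable
  obtain ⟨c, hc⟩ := eigen_of_mem_spanAlg ρ hw hrA
  have hw0 : w ≠ 0 := by
    rintro rfl
    simp at hD
  have hc0 : c = 0 := by
    have h3 : (r * r).mulVec w = (c * c) • w := by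
      rw [← Matrix.mulVec_mulVec, hc, Matrix.mulVec_smul, hc, smul_smul]
    rw [hrr, Matrix.zero_mulVec] at h3
    have h4 : c * c = 0 := by
      rcases smul_eq_zero.1 h3.symm with h | h
      · exact h
      · exact absurd h hw0
    exact mul_self_eq_zero.1 h4
  rw [hc0, zero_smul] at hc
  exact hne (eq_zero_of_mulVec_eq_zero r (r.mulVec v) w hD hru hc)

/-- The span of the representation is spanned by the images of at most four group elements. -/
theorem exists_finset_span :
    ∃ B : Finset G, B.card ≤ 4 ∧ Submodule.span F (ρ '' (B : Set G)) = spanAlg ρ := by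
  classical
  obtain ⟨b, hbs, hspan, hli⟩ := exists_linearIndependent F (Set.range ρ)
  have hfin : b.Finite := hli.setFinite
  have hcard : hfin.toFinset.card ≤ 4 := by
    have h1 := hli.cardinal_le_rank
    have h2 : Module.rank F (Matrix (Fin 2) (Fin 2) F) = 4 := by
      rw [← Module.finrank_eq_rank, Module.finrank_matrix]
      simp
    rw [h2] at h1
    have h3 : Cardinal.mk ↥b = (hfin.toFinset.card : Cardinal) := by
      rw [← Cardinal.mk_coe_finset]
      simp
    rw [h3] at h1
    exact_mod_cast h1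
  have hpre : ∀ x : Matrix (Fin 2) (Fin 2) F, ∃ g : G, x ∈ b → ρ g = x := by
    intro x
    by_cases hx : x ∈ b
    · obtain ⟨g, hg⟩ := hbs hx
      exact ⟨g, fun _ => hg⟩
    · exact ⟨1, fun h => absurd h hx⟩
  choose f hf using hpre
  refine ⟨hfin.toFinset.image f, ?_, ?_⟩
  · exact (Finset.card_image_le).trans hcard
  · have himg : ρ '' ((hfin.toFinset.image f : Finset G) : Set G) = b := by
      ext x
      constructor
      · rintro ⟨g, hg, rfl⟩
        rw [Finset.mem_coe, Finset.mem_image] at hg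
        obtain ⟨y, hy, rfl⟩ := hg
        rw [Set.Finite.mem_toFinset] at hy
        rw [hf y hy]
        exact hy
      · intro hx
        refine ⟨f x, ?_, hf x hx⟩
        rw [Finset.mem_coe, Finset.mem_image]
        exact ⟨x, (Set.Finite.mem_toFinset hfin).2 hx, rfl⟩
    rw [himg, hspan]
    rfl

/-- **Bounded image** (Deligne–Serre, Prop. 7.2; classification-free form).  Let `ρ` be a
faithful semisimple two-dimensional representation of a finite group `G` over a field in which
`2 ≠ 0`.  If the traces of the elements of `H ⊆ G` lie in a finite set `T`, then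
`|G| ≤ 4 |G ∖ H| + |T|⁴`. -/
theorem card_le_of_trace_mem (h2 : (2 : F) ≠ 0) [Finite G] (hinj : Function.Injective ρ)
    (hss : IsSemisimpleRep ρ) (H : Set G) (T : Finset F) (hT : ∀ h ∈ H, (ρ h).trace ∈ T) :
    Nat.card G ≤ 4 * (Hᶜ).ncard + T.card ^ 4 := by
  classical
  have := Fintype.ofFinite G
  rw [Nat.card_eq_fintype_card]
  set Hc : Finset G := Finset.univ.filter (fun x => x ∉ H) with hHc
  have hHc' : (Hᶜ).ncard = Hc.card := by
    rw [← Set.ncard_coe_finset]
    congr 1
    ext x
    simp [hHc]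
  rw [hHc']
  rcases T.eq_empty_or_nonempty with hTe | hTne
  · have hall : Hc = Finset.univ := by
      rw [hHc, Finset.filter_eq_self]
      intro x _ hx
      have := hT x hx
      rw [hTe] at this
      exact absurd this (Finset.notMem_empty _)
    rw [hall, Finset.card_univ]
    omega
  obtain ⟨B, hB4, hBspan⟩ := exists_finset_span ρ
  set S : Finset G := Finset.univ.filter (fun h => ∀ g ∈ B, h * g ∈ H) with hS
  -- the map `h ↦ (tr ρ(h g))_{g ∈ B}` is injective
  have hSle : S.card ≤ T.card ^ B.card := by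
    let Φ : ↥S → (↥B → ↥T) := fun h g =>
      ⟨(ρ (h.1 * g.1)).trace, hT _ ((Finset.mem_filter.1 h.2).2 g.1 g.2)⟩
    have hΦ : Function.Injective Φ := by
      intro h h' hhh'
      apply Subtype.ext
      apply hinj
      have hx : ρ h.1 - ρ h'.1 = 0 := by
        apply eq_zero_of_trace_mul_eq_zero ρ h2 hss
        · exact sub_mem (map_mem_spanAlg ρ _) (map_mem_spanAlg ρ _)
        · intro g
          refine trace_mul_eq_zero_of_forall ρ (s := (B : Set G)) ?_ ?_
          · intro g' hg'
            have h1 := congrArg Subtype.val (congrFun hhh' ⟨g', hg'⟩)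
            simp only [Φ] at h1
            rw [sub_mul, Matrix.trace_sub, ← map_mul, ← map_mul, h1, sub_self]
          · rw [hBspan]
            exact map_mem_spanAlg ρ g
      exact sub_eq_zero.1 hx
    have h1 := Fintype.card_le_of_injective Φ hΦ
    rw [Fintype.card_fun, Fintype.card_coe, Fintype.card_coe, Fintype.card_coe] at h1
    exact h1
  have hpow : T.card ^ B.card ≤ T.card ^ 4 :=
    Nat.pow_le_pow_right (Finset.card_pos.2 hTne) hB4
  -- the complement of `S`
  have hcompl : (Finset.univ \ S).card ≤ B.card * Hc.card := by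
    have hsub : Finset.univ \ S ⊆ B.biUnion (fun g => Finset.univ.filter (fun h => h * g ∉ H)) := by
      intro h hh
      rw [Finset.mem_sdiff, hS, Finset.mem_filter] at hh
      have h3 : ¬ ∀ g ∈ B, h * g ∈ H := fun h4 => hh.2 ⟨Finset.mem_univ _, h4⟩
      push Not at h3
      obtain ⟨g, hg, hgH⟩ := h3
      rw [Finset.mem_biUnion]
      exact ⟨g, hg, Finset.mem_filter.2 ⟨Finset.mem_univ _, hgH⟩⟩
    refine (Finset.card_le_card hsub).trans ?_
    refine (Finset.card_biUnion_le).trans ?_
    rw [← smul_eq_mul, ← Finset.sum_const]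
    refine Finset.sum_le_sum (fun g _ => ?_)
    refine le_of_eq ?_
    refine Finset.card_bij (fun h _ => h * g) ?_ ?_ ?_
    · intro h hh
      rw [Finset.mem_filter] at hh
      rw [hHc, Finset.mem_filter]
      exact ⟨Finset.mem_univ _, hh.2⟩
    · intro a _ b _ hab
      exact mul_right_cancel hab
    · intro x hx
      rw [hHc, Finset.mem_filter] at hx
      refine ⟨x * g⁻¹, ?_, ?_⟩
      · rw [Finset.mem_filter]
        refine ⟨Finset.mem_univ _, ?_⟩
        rw [inv_mul_cancel_right]
        exact hx.2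
      · exact inv_mul_cancel_right x g
  have htot : Fintype.card G = S.card + (Finset.univ \ S).card := by
    rw [← Finset.card_univ, add_comm]
    exact (Finset.card_sdiff_add_card_eq_card (Finset.subset_univ S)).symm
  have h5 : B.card * Hc.card ≤ 4 * Hc.card := Nat.mul_le_mul_right _ hB4
  omega

/-- Form with `η = 1/5`: if at most one fifth of the elements of `G` lie outside `H`, then
`|G| ≤ 5 |T|⁴`. -/
theorem card_le_five_mul (h2 : (2 : F) ≠ 0) [Finite G] (hinj : Function.Injective ρ)
    (hss : IsSemisimpleRep ρ) (H : Set G) (T : Finset F) (hT : ∀ h ∈ H, (ρ h).trace ∈ T)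
    (hH : 5 * (Hᶜ).ncard ≤ Nat.card G) : Nat.card G ≤ 5 * T.card ^ 4 := by
  have := card_le_of_trace_mem ρ h2 hinj hss H T hT
  omega

/-- General form with `η = a / b < 1/4`: if `b |G ∖ H| ≤ a |G|` with `4 a < b`, then
`(b - 4 a) |G| ≤ b |T|⁴`. -/
theorem mul_card_le (h2 : (2 : F) ≠ 0) [Finite G] (hinj : Function.Injective ρ)
    (hss : IsSemisimpleRep ρ) (H : Set G) (T : Finset F) (hT : ∀ h ∈ H, (ρ h).trace ∈ T)
    (a b : ℕ) (hH : b * (Hᶜ).ncard ≤ a * Nat.card G) :
    (b - 4 * a) * Nat.card G ≤ b * T.card ^ 4 := by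
  have h1 := card_le_of_trace_mem ρ h2 hinj hss H T hT
  rcases Nat.lt_or_ge (4 * a) b with hab | hab
  · have h3 : b * Nat.card G ≤ 4 * (a * Nat.card G) + b * T.card ^ 4 := by
      calc b * Nat.card G ≤ b * (4 * (Hᶜ).ncard + T.card ^ 4) := Nat.mul_le_mul_left _ h1
        _ = 4 * (b * (Hᶜ).ncard) + b * T.card ^ 4 := by ring
        _ ≤ 4 * (a * Nat.card G) + b * T.card ^ 4 := by
          have := Nat.mul_le_mul_left 4 hH
          omega
    have h4 : (b - 4 * a) * Nat.card G + 4 * (a * Nat.card G) = b * Nat.card G := by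
      rw [← mul_assoc, ← add_mul]
      congr 1
      omega
    omega
  · rw [Nat.sub_eq_zero_of_le hab, zero_mul]
    exact Nat.zero_le _

/-- An irreducible representation (no stable line) is semisimple. -/
theorem isSemisimpleRep_of_irreducible
    (h : ∀ u : Fin 2 → F, u ≠ 0 → ¬ ∀ g, ∃ c : F, (ρ g).mulVec u = c • u) :
    IsSemisimpleRep ρ :=
  fun u hu hst => absurd hst (h u hu)

/-- A representation with two independent stable lines is semisimple. -/
theorem isSemisimpleRep_of_two_lines (u₁ u₂ : Fin 2 → F)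
    (h₁ : ∀ g, ∃ c : F, (ρ g).mulVec u₁ = c • u₁) (h₂ : ∀ g, ∃ c : F, (ρ g).mulVec u₂ = c • u₂)
    (hD : u₁ 0 * u₂ 1 - u₁ 1 * u₂ 0 ≠ 0) : IsSemisimpleRep ρ := by
  intro u hu _
  by_cases h : u 0 * u₁ 1 - u 1 * u₁ 0 = 0
  · refine ⟨u₂, h₂, ?_⟩
    obtain ⟨c, hc⟩ := exists_smul_of_det_eq_zero u u₁ hu h
    have hc0 : c ≠ 0 := by
      rintro rfl
      rw [zero_smul] at hc
      rw [hc] at hD
      simp at hD
    intro h0
    apply hD
    have e0 : u₁ 0 = c * u 0 := by rw [hc]; rfl
    have e1 : u₁ 1 = c * u 1 := by rw [hc]; rfl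
    rw [e0, e1]
    linear_combination c * h0
  · exact ⟨u₁, h₁, h⟩

end Rep

/-! ### Versions for subgroups of `GL₂(F)` -/

section GLTwo

/-- The tautological representation of a subgroup of `GL₂(F)`. -/
def subgroupRep (Γ : Subgroup (GL (Fin 2) F)) : ↥Γ →* Matrix (Fin 2) (Fin 2) F :=
  (Units.coeHom (Matrix (Fin 2) (Fin 2) F)).comp Γ.subtype

theorem subgroupRep_apply (Γ : Subgroup (GL (Fin 2) F)) (x : ↥Γ) :
    subgroupRep Γ x = ((x : GL (Fin 2) F) : Matrix (Fin 2) (Fin 2) F) := rfl

theorem subgroupRep_injective (Γ : Subgroup (GL (Fin 2) F)) :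
    Function.Injective (subgroupRep Γ) := by
  intro x y h
  apply Subtype.ext
  apply Units.ext
  exact h

/-- **Bounded image**, for a finite subgroup `Γ` of `GL₂(F)` acting semisimply: if `T` is a finite
set of scalars, then `|Γ| ≤ 4 |{x ∈ Γ : tr x ∉ T}| + |T|⁴`. -/
theorem card_subgroup_le (h2 : (2 : F) ≠ 0) (Γ : Subgroup (GL (Fin 2) F)) [Finite ↥Γ]
    (hss : IsSemisimpleRep (subgroupRep Γ)) (T : Finset F) :
    Nat.card ↥Γ ≤
      4 * {x : ↥Γ | ((x : GL (Fin 2) F) : Matrix (Fin 2) (Fin 2) F).trace ∉ T}.ncard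
        + T.card ^ 4 := by
  have h := card_le_of_trace_mem (subgroupRep Γ) h2 (subgroupRep_injective Γ) hss
    {x : ↥Γ | ((x : GL (Fin 2) F) : Matrix (Fin 2) (Fin 2) F).trace ∈ T} T (fun x hx => hx)
  have e : ({x : ↥Γ | ((x : GL (Fin 2) F) : Matrix (Fin 2) (Fin 2) F).trace ∈ T}ᶜ : Set ↥Γ)
      = {x : ↥Γ | ((x : GL (Fin 2) F) : Matrix (Fin 2) (Fin 2) F).trace ∉ T} := by
    ext x
    simp
  rw [e] at h
  exact h

/-- **Bounded image**, for the image of a homomorphism `ρ : G → GL₂(F)` with finite semisimple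
image. -/
theorem card_range_le (h2 : (2 : F) ≠ 0) {G : Type*} [Group G] (ρ : G →* GL (Fin 2) F)
    [Finite ↥ρ.range]
    (hss : IsSemisimpleRep ((Units.coeHom (Matrix (Fin 2) (Fin 2) F)).comp ρ)) (T : Finset F) :
    Nat.card ↥ρ.range ≤
      4 * {x : ↥ρ.range | ((x : GL (Fin 2) F) : Matrix (Fin 2) (Fin 2) F).trace ∉ T}.ncard
        + T.card ^ 4 := by
  refine card_subgroup_le h2 ρ.range ?_ T
  intro u hu hst
  obtain ⟨w, hw, hD⟩ := hss u hu (fun g => hst ⟨ρ g, g, rfl⟩)
  refine ⟨w, ?_, hD⟩
  rintro ⟨x, g, rfl⟩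
  exact hw g

end GLTwo

end Fermat.Agent.H69.DS

end
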