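import Mathlib
import Fermat.Prelude.Thm_ModularForm_sturm_bound_of_isArithmetic
import Fermat.Agent.H20.DS.Interfaces

/-!
# P-DS block (1), B1-ALG (helper69): basic linear algebra of `S_k(Γ₁(N))`

* `qSeq N k` : the sequence of `q`-coefficients as a linear map `S_k(Γ₁(N)) → (ℕ → ℂ)`;
* `qSeq_injective` ;
* `finiteDimensional_cuspForm_Gamma1` : `S_k(Γ₁(N))` is finite-dimensional (Sturm bound of the
  prelude for arithmetic subgroups).
-/

set_option autoImplicit false

noncomputable section

open CongruenceSubgroup UpperHalfPlane ModularFormClass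
open scoped MatrixGroups ModularForm

namespace Fermat.Agent.H69.DS1

theorem one_mem_strictPeriods_G1 (N : ℕ) :
    (1 : ℝ) ∈ ((Gamma1 N : Subgroup SL(2, ℤ)) : Subgroup (GL (Fin 2) ℝ)).strictPeriods := by
  rw [strictPeriods_Gamma1]
  exact AddSubgroup.mem_zmultiples 1

/-- The sequence of `q`-coefficients, as a linear map. -/
def qSeq (N : ℕ) (k : ℤ) : CuspForm (Gamma1 N) k →ₗ[ℂ] (ℕ → ℂ) where
  toFun f n := qCoeff f n
  map_add' f g := by
    funext n
    simp only [qCoeff, Pi.add_apply]
    rw [FunLike.coe_add, ModularForm.qExpansion_add one_pos (one_mem_strictPeriods_G1 N) f g,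
      map_add]
  map_smul' c f := by
    funext n
    simp only [qCoeff, Pi.smul_apply, RingHom.id_apply]
    rw [FunLike.coe_smul, ModularForm.qExpansion_smul one_pos (one_mem_strictPeriods_G1 N) c f]
    simp

@[simp] theorem qSeq_apply (N : ℕ) (k : ℤ) (f : CuspForm (Gamma1 N) k) (n : ℕ) :
    qSeq N k f n = qCoeff f n := rfl

theorem qSeq_injective (N : ℕ) (k : ℤ) : Function.Injective (qSeq N k) := by
  rw [← LinearMap.ker_eq_bot, LinearMap.ker_eq_bot']
  intro f hf
  have hq : qExpansion 1 (⇑f) = 0 := by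
    ext n
    have := congrFun hf n
    simpa [qCoeff] using this
  have h0 : (CuspForm.toModularFormₗ f : ModularForm (Gamma1 N) k) = 0 :=
    (ModularForm.qExpansion_eq_zero_iff one_pos (one_mem_strictPeriods_G1 N) _).1 hq
  exact CuspForm.toModularFormₗ_injective (by rw [h0, map_zero])

/-- Truncation of the `q`-coefficient sequence. -/
def qTruncG1 (N : ℕ) (k : ℤ) (B : ℕ) : CuspForm (Gamma1 N) k →ₗ[ℂ] (Fin (B + 1) → ℂ) where
  toFun f i := qCoeff f (i : ℕ)
  map_add' f g := by
    funext i
    exact congrFun ((qSeq N k).map_add f g) i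
  map_smul' c f := by
    funext i
    exact congrFun ((qSeq N k).map_smul c f) i

theorem qTruncG1_injective (N : ℕ) [NeZero N] (k : ℤ) :
    Function.Injective (qTruncG1 N k
      ((k * ((Gamma1 N : Subgroup SL(2, ℤ)) : Subgroup (GL (Fin 2) ℝ)).relIndex 𝒮ℒ).toNat / 12)) := by
  rw [← LinearMap.ker_eq_bot, LinearMap.ker_eq_bot']
  intro f hf
  have h0 : (CuspForm.toModularFormₗ f : ModularForm (Gamma1 N) k) = 0 := by
    refine ModularForm.sturm_bound_of_isArithmetic (one_mem_strictPeriods_G1 N) ?_
    refine lt_of_lt_of_le (by exact_mod_cast Nat.lt_succ_self _)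
      (PowerSeries.nat_le_order _ _ fun n hn => ?_)
    have := congrFun hf ⟨n, hn⟩
    exact this
  exact CuspForm.toModularFormₗ_injective (by rw [h0, map_zero])

/-- `S_k(Γ₁(N))` is finite-dimensional. -/
theorem finiteDimensional_cuspForm_Gamma1 (N : ℕ) [NeZero N] (k : ℤ) :
    FiniteDimensional ℂ (CuspForm (Gamma1 N) k) :=
  FiniteDimensional.of_injective _ (qTruncG1_injective N k)

end Fermat.Agent.H69.DS1
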