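import Mathlib
import Fermat.Agent.H69.DS1Basic

/-!
# P-DS block (1), B1-ALG (helper69): finiteness of the conjugate eigenvalue systems

`finiteConj_of_conj : ConjStatement → FiniteConjStatement`.

For a fixed character `ψ` the forms satisfying the hypotheses of S48 with pairwise different
eigenvalue systems `(a_p)_{p ∤ N}` are linearly independent (they are eigenvectors, with
pairwise different systems of eigenvalues, of the formal Hecke operators on sequences), so there
are at most `dim S₁(Γ₁(N))` systems for each of the finitely many characters.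
-/

set_option autoImplicit false

noncomputable section

open CongruenceSubgroup UpperHalfPlane ModularFormClass
open scoped MatrixGroups ModularForm

namespace Fermat.Agent.H69.DS1

open Fermat.Agent.H20.DS

/-- Eigenvectors of a family of linear maps with pairwise different systems of eigenvalues are
linearly independent (no commutativity needed). -/
theorem linearIndependent_of_eigenSystems {K V ι J : Type*} [Field K] [AddCommGroup V]
    [Module K V] (T : J → V →ₗ[K] V) (v : ι → V) (lam : ι → J → K)
    (hv : ∀ i, v i ≠ 0) (hT : ∀ i j, T j (v i) = lam i j • v i)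
    (hne : ∀ i i', i ≠ i' → ∃ j, lam i j ≠ lam i' j) : LinearIndependent K v := by
  classical
  rw [linearIndependent_iff']
  intro s
  induction s using Finset.induction_on with
  | empty =>
    intro g _ i hi
    simp at hi
  | insert i₀ s hi₀ ih =>
    intro g hg
    have key : ∀ i ∈ s, g i = 0 := by
      intro i hi
      have hii₀ : i ≠ i₀ := fun h => hi₀ (h ▸ hi)
      obtain ⟨j, hj⟩ := hne i i₀ hii₀
      have h1 : ∑ i ∈ insert i₀ s, g i • lam i j • v i = 0 := by
        have := congrArg (T j) hg
        rw [map_sum, map_zero] at this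
        rw [← this]
        refine Finset.sum_congr rfl fun i _ => ?_
        rw [map_smul, hT]
      have h2 : ∑ i ∈ insert i₀ s, g i • lam i₀ j • v i = 0 := by
        have := congrArg (fun x => lam i₀ j • x) hg
        simp only [Finset.smul_sum, smul_zero] at this
        rw [← this]
        refine Finset.sum_congr rfl fun i _ => ?_
        rw [smul_comm]
      have h3 : ∑ i ∈ s, (g i * (lam i j - lam i₀ j)) • v i = 0 := by
        have h4 : ∑ i ∈ insert i₀ s, (g i * (lam i j - lam i₀ j)) • v i = 0 := by
          have hterm : ∀ i, (g i * (lam i j - lam i₀ j)) • v i =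
              g i • lam i j • v i - g i • lam i₀ j • v i := by
            intro i
            rw [mul_sub, sub_smul, mul_smul, mul_smul]
          simp only [hterm, Finset.sum_sub_distrib, h1, h2, sub_zero]
        rw [Finset.sum_insert hi₀] at h4
        simpa using h4
      have h5 := ih _ h3 i hi
      rcases mul_eq_zero.1 h5 with h | h
      · exact h
      · exact absurd (sub_eq_zero.1 h) hj
    intro i hi
    rcases Finset.mem_insert.1 hi with rfl | hi
    · rw [Finset.sum_insert hi₀,
        Finset.sum_eq_zero (fun i hi => by rw [key i hi, zero_smul]), add_zero] at hg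
      exact (smul_eq_zero.1 hg).resolve_right (hv i)
    · exact key i hi

/-- The formal Hecke operator `T_p` (with character value `c`) on sequences. -/
def heckeSeq (c : ℂ) (p : ℕ) : (ℕ → ℂ) →ₗ[ℂ] (ℕ → ℂ) where
  toFun a n := a (p * n) + c * (if p ∣ n then a (n / p) else 0)
  map_add' a b := by
    funext n
    by_cases h : p ∣ n
    · simp only [Pi.add_apply, if_pos h]; ring
    · simp only [Pi.add_apply, if_neg h]; ring
  map_smul' t a := by
    funext n
    by_cases h : p ∣ n
    · simp only [Pi.smul_apply, smul_eq_mul, if_pos h, RingHom.id_apply]; ring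
    · simp only [Pi.smul_apply, smul_eq_mul, if_neg h, RingHom.id_apply]; ring

theorem heckeSeq_apply (c : ℂ) (p : ℕ) (a : ℕ → ℂ) (n : ℕ) :
    heckeSeq c p a n = a (p * n) + c * (if p ∣ n then a (n / p) else 0) := rfl

/-- The system of eigenvalues away from the level, extended by zero. -/
def sysOf (N : ℕ) (f : CuspForm (Gamma1 N) 1) : ℕ → ℂ :=
  fun p => if p.Prime ∧ ¬ p ∣ N then qCoeff f p else 0

theorem sysOf_apply (N : ℕ) (f : CuspForm (Gamma1 N) 1) {p : ℕ} (hp : p.Prime) (hpN : ¬ p ∣ N) :
    sysOf N f p = qCoeff f p := by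
  rw [sysOf, if_pos ⟨hp, hpN⟩]

theorem sysOf_apply_of_not (N : ℕ) (f : CuspForm (Gamma1 N) 1) {p : ℕ}
    (h : ¬ (p.Prime ∧ ¬ p ∣ N)) : sysOf N f p = 0 := by
  rw [sysOf, if_neg h]

/-- The set of eigenvalue systems of the forms satisfying the hypotheses of S48 for `ψ`. -/
def sysSet (N : ℕ) (ψ : DirichletCharacter ℂ N) : Set (ℕ → ℂ) :=
  {lam | ∃ g : CuspForm (Gamma1 N) 1, IsDSEigen N ψ g ∧ sysOf N g = lam}

theorem IsDSEigen_heckeSeq {N : ℕ} {ψ : DirichletCharacter ℂ N} {g : CuspForm (Gamma1 N) 1}
    (hg : IsDSEigen N ψ g) {p : ℕ} (hp : p.Prime) (hpN : ¬ p ∣ N) :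
    heckeSeq (ψ (p : ZMod N)) p (qSeq N 1 g) = qCoeff g p • qSeq N 1 g := by
  funext n
  rw [heckeSeq_apply, Pi.smul_apply, smul_eq_mul]
  exact hg.hecke p hp hpN n

/-- Forms with the same character and pairwise different systems are linearly independent. -/
theorem linearIndependent_of_sysOf_injective {N : ℕ} (ψ : DirichletCharacter ℂ N) {ι : Type*}
    (g : ι → CuspForm (Gamma1 N) 1) (hg : ∀ i, IsDSEigen N ψ (g i))
    (hinj : Function.Injective fun i => sysOf N (g i)) : LinearIndependent ℂ g := by
  have hLI : LinearIndependent ℂ (fun i => qSeq N 1 (g i)) := by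
    refine linearIndependent_of_eigenSystems (J := {p : ℕ // p.Prime ∧ ¬ p ∣ N})
      (fun j => heckeSeq (ψ ((j : ℕ) : ZMod N)) j) _ (fun i j => qCoeff (g i) (j : ℕ)) ?_ ?_ ?_
    · intro i h
      have h1 := congrFun h 1
      rw [qSeq_apply, (hg i).one] at h1
      exact one_ne_zero h1
    · intro i j
      exact IsDSEigen_heckeSeq (hg i) j.2.1 j.2.2
    · intro i i' hii'
      by_contra hall
      have hall : ∀ j : {p : ℕ // p.Prime ∧ ¬ p ∣ N}, qCoeff (g i) (j : ℕ) = qCoeff (g i') (j : ℕ) := by
        intro j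
        by_contra hj
        exact hall ⟨j, hj⟩
      refine hii' (hinj ?_)
      funext p
      show sysOf N (g i) p = sysOf N (g i') p
      by_cases hp : p.Prime ∧ ¬ p ∣ N
      · rw [sysOf_apply N _ hp.1 hp.2, sysOf_apply N _ hp.1 hp.2]
        exact hall ⟨p, hp⟩
      · rw [sysOf_apply_of_not N _ hp, sysOf_apply_of_not N _ hp]
  exact LinearIndependent.of_comp (qSeq N 1) hLI

theorem sysSet_finite (N : ℕ) [NeZero N] (ψ : DirichletCharacter ℂ N) : (sysSet N ψ).Finite := by
  classical
  have hfd := finiteDimensional_cuspForm_Gamma1 N 1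
  by_contra hinf
  obtain ⟨t, ht, htc⟩ := Set.Infinite.exists_subset_card_eq hinf
    (Module.finrank ℂ (CuspForm (Gamma1 N) 1) + 1)
  have hex : ∀ x : t, ∃ g : CuspForm (Gamma1 N) 1, IsDSEigen N ψ g ∧ sysOf N g = x.1 :=
    fun x => ht x.2
  choose g hg using hex
  have hLI : LinearIndependent ℂ g := by
    refine linearIndependent_of_sysOf_injective ψ g (fun x => (hg x).1) ?_
    intro x y hxy
    apply Subtype.ext
    have : sysOf N (g x) = sysOf N (g y) := hxy
    rw [(hg x).2, (hg y).2] at this
    exact this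
  have hcard := hLI.fintype_card_le_finrank
  rw [Fintype.card_coe, htc] at hcard
  omega

/-- The conjugate of a form satisfying the hypotheses of S48 satisfies them for the conjugate
character. -/
theorem isDSEigen_conj {N : ℕ} {ε : DirichletCharacter ℂ N} {f f' : CuspForm (Gamma1 N) 1}
    (hf : IsDSEigen N ε f) (σ : ℂ →+* ℂ) (hf' : ∀ n, qCoeff f' n = σ (qCoeff f n)) :
    IsDSEigen N (ε.ringHomComp σ) f' := by
  constructor
  · rw [hf', hf.one, map_one]
  · intro p hp hpN n
    have h := congrArg σ (hf.hecke p hp hpN n)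
    rw [map_add, map_mul, map_mul] at h
    simp only [hf']
    rw [MulChar.ringHomComp_apply, ← h]
    by_cases hd : p ∣ n
    · rw [if_pos hd, if_pos hd]
    · rw [if_neg hd, if_neg hd, map_zero]

/-- **B1-ALG, finiteness of the conjugates.** -/
theorem finiteConj_of_conj (hC : ConjStatement) : FiniteConjStatement := by
  classical
  intro N _ ε f hf
  let E : Set (ℕ → ℂ) := ⋃ ψ : DirichletCharacter ℂ N, sysSet N ψ
  have hE : E.Finite := Set.finite_iUnion fun ψ => sysSet_finite N ψ
  let s : Finset (ℕ → ℂ) := hE.toFinset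
  let e : s ≃ Fin s.card := s.equivFin
  have hmem : ∀ i : Fin s.card, ∃ (g : CuspForm (Gamma1 N) 1) (ψ : DirichletCharacter ℂ N),
      IsDSEigen N ψ g ∧ sysOf N g = (e.symm i).1 := by
    intro i
    have h1 : (e.symm i).1 ∈ E := hE.mem_toFinset.1 (e.symm i).2
    obtain ⟨ψ, g, hg, hgs⟩ := Set.mem_iUnion.1 h1
    exact ⟨g, ψ, hg, hgs⟩
  choose g ψ hg using hmem
  refine ⟨s.card, g, ψ, fun i => (hg i).1, fun σ => ?_⟩
  obtain ⟨f', hf'⟩ := hC N f σ
  have hf'eig : IsDSEigen N (ε.ringHomComp σ) f' := isDSEigen_conj hf σ hf'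
  have hin : sysOf N f' ∈ E := Set.mem_iUnion.2 ⟨_, f', hf'eig, rfl⟩
  refine ⟨e ⟨sysOf N f', hE.mem_toFinset.2 hin⟩, fun p hp hpN => ?_⟩
  have h1 : sysOf N (g (e ⟨sysOf N f', hE.mem_toFinset.2 hin⟩)) = sysOf N f' := by
    rw [(hg _).2, Equiv.symm_apply_apply]
  have h2 := congrFun h1 p
  rw [sysOf_apply N _ hp hpN, sysOf_apply N _ hp hpN] at h2
  rw [h2, hf']

end Fermat.Agent.H69.DS1
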