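import Mathlib
import Fermat.Agent.H69.DS1Basic
import Fermat.Agent.H20.DS.Interfaces2

/-!
# P-DS block (1), B1-ALG (helper69): integrality of the eigenvalues `a_p`

`integral_of_intStruct : IntStructGamma1Statement → IntegralStatement`.

If all `q`-coefficients of `f` lie in a finitely generated `ℤ`-submodule of `ℂ` (which follows from
the integral structure of `S₁(Γ₁(N))`), the Hecke relations at `p` show that the
`ℤ`-module generated by the `ε(p)^i a_{p^j}` is finitely generated and stable under multiplication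
by `a_p`; hence `a_p` is integral.
-/

set_option autoImplicit false

noncomputable section

open CongruenceSubgroup UpperHalfPlane ModularFormClass
open scoped MatrixGroups ModularForm

namespace Fermat.Agent.H69.DS1

open Fermat.Agent.H20.DS

/-- **B1-INTERP'.**  `S_k(Γ₁(N))` is finite-dimensional (unconditional; Sturm bound of the
prelude for arithmetic subgroups). -/
theorem finDimGamma1 : FinDimGamma1Statement :=
  fun N _ k => finiteDimensional_cuspForm_Gamma1 N k

/-- Pure algebra: a sequence with values in a finitely generated `ℤ`-module satisfying the Hecke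
relation at `p` with a root of unity `e` has `a p` integral. -/
theorem isIntegral_of_hecke_of_fg (a : ℕ → ℂ) (e : ℂ) (p : ℕ) (hp : p.Prime) {m : ℕ}
    (hm : 0 < m) (he : e ^ m = 1) (h1 : a 1 = 1)
    (hT : ∀ n, a (p * n) + e * (if p ∣ n then a (n / p) else 0) = a p * a n)
    (M : Submodule ℤ ℂ) (hM : M.FG) (ha : ∀ n, a n ∈ M) : IsIntegral ℤ (a p) := by
  classical
  -- the big finitely generated module
  let big : Submodule ℤ ℂ := ⨆ i : Fin m, M.map ((LinearMap.mulLeft ℤ (e ^ (i : ℕ))))
  have hbig : big.FG := Submodule.fg_iSup _ fun i => hM.map _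
  have hmem : ∀ (i n : ℕ), e ^ i * a n ∈ big := by
    intro i n
    have hi : e ^ i = e ^ (i % m) := by
      conv_lhs => rw [← Nat.div_add_mod i m]
      rw [pow_add, pow_mul, he, one_pow, one_mul]
    rw [hi]
    refine Submodule.mem_iSup_of_mem (⟨i % m, Nat.mod_lt _ hm⟩ : Fin m) ?_
    exact ⟨a n, ha n, rfl⟩
  let L : Submodule ℤ ℂ := Submodule.span ℤ {x | ∃ i j : ℕ, x = e ^ i * a (p ^ j)}
  have hL : L ≤ big := by
    refine Submodule.span_le.2 ?_
    rintro x ⟨i, j, rfl⟩
    exact hmem i _
  have hLfg : L.FG := hbig.of_le hL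
  have hLne : L ≠ ⊥ := by
    intro h
    have h1L : (1 : ℂ) ∈ L := Submodule.subset_span ⟨0, 0, by simp [h1]⟩
    rw [h] at h1L
    exact one_ne_zero ((Submodule.mem_bot ℤ).1 h1L)
  have hgen : ∀ i j : ℕ, e ^ i * a (p ^ j) ∈ L := fun i j => Submodule.subset_span ⟨i, j, rfl⟩
  refine isIntegral_of_smul_mem_submodule L hLne hLfg (a p) ?_
  intro x hx
  induction hx using Submodule.span_induction with
  | mem x hx =>
    obtain ⟨i, j, rfl⟩ := hx
    have hrel := hT (p ^ j)
    have hkey : a p • (e ^ i * a (p ^ j)) =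
        e ^ i * a (p ^ (j + 1)) + e ^ (i + 1) * (if p ∣ p ^ j then a (p ^ j / p) else 0) := by
      rw [smul_eq_mul, pow_succ' p j, pow_succ e i]
      linear_combination (-(e ^ i)) * hrel
    rw [hkey]
    refine L.add_mem (hgen i (j + 1)) ?_
    rcases Nat.eq_zero_or_pos j with hj | hj
    · subst hj
      have : ¬ p ∣ p ^ 0 := by
        rw [pow_zero]
        exact hp.one_lt.ne' ∘ Nat.dvd_one.1
      rw [if_neg this, mul_zero]
      exact L.zero_mem
    · have hdvd : p ∣ p ^ j := dvd_pow_self p hj.ne'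
      rw [if_pos hdvd]
      have : p ^ j / p = p ^ (j - 1) := by
        obtain ⟨j', rfl⟩ : ∃ j', j = j' + 1 := ⟨j - 1, by omega⟩
        rw [pow_succ, Nat.mul_div_cancel _ hp.pos]
        simp
      rw [this]
      exact hgen (i + 1) (j - 1)
  | zero => simp
  | add x y _ _ hx hy =>
    rw [smul_add]
    exact L.add_mem hx hy
  | smul c x _ hx =>
    rw [smul_comm]
    exact L.smul_mem c hx

/-- The value of a Dirichlet character at a prime not dividing the level is a root of unity. -/
theorem dirichlet_pow_totient (N : ℕ) [NeZero N] (ε : DirichletCharacter ℂ N) (p : ℕ)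
    (hp : p.Prime) (hpN : ¬ p ∣ N) : ε (p : ZMod N) ^ (Nat.totient N) = 1 := by
  have hcop : Nat.Coprime p N := (Nat.Prime.coprime_iff_not_dvd hp).2 hpN
  have hu : ((ZMod.unitOfCoprime p hcop : (ZMod N)ˣ) : ZMod N) = (p : ZMod N) :=
    ZMod.coe_unitOfCoprime p hcop
  rw [← hu, ← map_pow, ← Units.val_pow_eq_pow_val, ZMod.pow_totient, Units.val_one, map_one]

/-- For `N ≤ 2` there is no nonzero cusp form of weight one on `Γ₁(N)`. -/
theorem cuspForm_eq_zero_of_le_two (N : ℕ) (hN : N ∣ 2) (f : CuspForm (Gamma1 N) 1) : f = 0 := by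
  have hmem : (-1 : GL (Fin 2) ℝ) ∈ ((Gamma1 N : Subgroup SL(2, ℤ)) : Subgroup (GL (Fin 2) ℝ)) := by
    refine ⟨-1, ?_, by ext; simp⟩
    show (-1 : SL(2, ℤ)) ∈ Gamma1 N
    rw [Gamma1_mem]
    have h2 : ((-1 : ℤ) : ZMod N) = 1 := by
      have : ((2 : ℕ) : ZMod N) = 0 := (ZMod.natCast_eq_zero_iff 2 N).2 hN
      have h' : ((2 : ℤ) : ZMod N) = 0 := by exact_mod_cast this
      have : ((-1 : ℤ) : ZMod N) - 1 = 0 := by
        have : ((-1 : ℤ) : ZMod N) - 1 = -((2 : ℤ) : ZMod N) := by push_cast; ring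
        rw [this, h', neg_zero]
      exact sub_eq_zero.1 this
    simp [h2]
  have h0 : (CuspForm.toModularFormₗ f : ModularForm (Gamma1 N) 1) = 0 :=
    ModularForm.eq_zero_of_neg_one_mem hmem (by decide) _
  exact CuspForm.toModularFormₗ_injective (by rw [h0, map_zero])

theorem qCoeff_zero_form (n : ℕ) : qCoeff (0 : ℍ → ℂ) n = 0 := by
  simp [qCoeff, qExpansion_zero]

/-- **B1-ALG, integrality.** -/
theorem integral_of_intStruct (hI : IntStructGamma1Statement) : IntegralStatement := by
  intro N _ ε f hf p hp hpN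
  by_cases h3 : 3 ≤ N
  · obtain ⟨r, b, hb, hspan⟩ := hI N h3 1
    have hfmem : f ∈ Submodule.span ℂ (Set.range b) := by rw [hspan]; trivial
    obtain ⟨c, hc⟩ := (Submodule.mem_span_range_iff_exists_fun ℂ).1 hfmem
    choose mcoef hmcoef using hb
    have hqf : ∀ n, qCoeff f n = ∑ i, c i * (mcoef i n : ℂ) := by
      intro n
      have h1 : qSeq N 1 f = ∑ i, c i • qSeq N 1 (b i) := by
        rw [← hc, map_sum]
        simp
      have h2 := congrFun h1 n
      rw [qSeq_apply, Finset.sum_apply] at h2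
      rw [h2]
      refine Finset.sum_congr rfl fun i _ => ?_
      rw [Pi.smul_apply, qSeq_apply, smul_eq_mul]
      congr 1
      exact hmcoef i n
    let M : Submodule ℤ ℂ := Submodule.span ℤ (Set.range c)
    have hMfg : M.FG := Submodule.fg_span (Set.finite_range c)
    have haM : ∀ n, qCoeff f n ∈ M := by
      intro n
      rw [hqf n]
      refine M.sum_mem fun i _ => ?_
      have : c i * (mcoef i n : ℂ) = (mcoef i n) • c i := by
        rw [zsmul_eq_mul, mul_comm]
      rw [this]
      exact M.smul_mem _ (Submodule.subset_span ⟨i, rfl⟩)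
    have hNpos : 0 < N := Nat.pos_of_ne_zero (NeZero.ne N)
    exact isIntegral_of_hecke_of_fg (fun n => qCoeff f n) (ε (p : ZMod N)) p hp
      (Nat.totient_pos.2 hNpos) (dirichlet_pow_totient N ε p hp hpN) hf.one
      (fun n => hf.hecke p hp hpN n) M hMfg haM
  · exfalso
    have hN2 : N ∣ 2 := by
      have hN0 : N ≠ 0 := NeZero.ne N
      have : N = 1 ∨ N = 2 := by omega
      rcases this with h | h <;> rw [h]
      exact one_dvd 2
    have hf0 : f = 0 := cuspForm_eq_zero_of_le_two N hN2 f
    have h1 := hf.one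
    rw [hf0] at h1
    have : qCoeff (⇑(0 : CuspForm (Gamma1 N) 1)) 1 = 0 := by
      rw [show (⇑(0 : CuspForm (Gamma1 N) 1) : ℍ → ℂ) = 0 from rfl]
      exact qCoeff_zero_form 1
    rw [this] at h1
    exact zero_ne_one h1

end Fermat.Agent.H69.DS1
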