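/-
P-DS / P-ES1 / ES1-C-DEGC (row 734, helper69), part 1: the index EQUALITY.

For a prime `p ∤ M` and every subgroup `K` of `SL(2, ℤ)` containing `Γ₁(M)`:
`[K : K ∩ Γ₀(p)] = p + 1`, i.e. `K` acts transitively on `SL(2, ℤ) / Γ₀(p) = P¹(𝔽_p)`
(explicit representatives `[[1, 0], [M t, 1]]` and `[[1 + u M, u], [M, 1]]` in `Γ₁(M)`).

Mathlib + `Fermat.Agent.H57.Gamma0Index` only.
-/
import Fermat.Agent.H57.Gamma0Index

set_option autoImplicit false

namespace Fermat.Agent.H69.ES1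

open CongruenceSubgroup Matrix.SpecialLinearGroup Matrix
open scoped MatrixGroups

/-- If `K` meets every left coset of `H`, then the index of `H ∩ K` in `K` is the index of `H`. -/
theorem relIndex_eq_index_of_cover {G : Type*} [Group G] (H K : Subgroup G)
    (h : ∀ g : G, ∃ k ∈ K, k⁻¹ * g ∈ H) : H.relIndex K = H.index := by
  rw [Subgroup.relIndex]
  have key := Fermat.Agent.H57.index_eq_card_of_surjective (H.subgroupOf K)
    (fun k : ↥K => ((k : G) : G ⧸ H)) ?_ ?_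
  · rw [key, Subgroup.index]
  · intro a b
    rw [Subgroup.mem_subgroupOf]
    exact QuotientGroup.eq
  · intro x
    induction x using QuotientGroup.induction_on with
    | H g =>
      obtain ⟨k, hk, hkg⟩ := h g
      exact ⟨⟨k, hk⟩, QuotientGroup.eq.mpr hkg⟩

/-- The index of `Γ₀(p)` in `SL(2, ℤ)` is `p + 1`. -/
theorem index_Gamma0_prime {p : ℕ} (hp : p.Prime) : (Gamma0 p).index = p + 1 := by
  have : NeZero p := ⟨hp.ne_zero⟩
  rw [Fermat.Agent.H57.index_Gamma0 p]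
  have h := Fermat.Agent.H57.dedekindPsi_mul_prime_of_not_dvd (M := 1) one_ne_zero hp
    (by
      intro h1
      exact hp.one_lt.ne' (Nat.dvd_one.mp h1))
  rw [one_mul, ModularCurve.dedekindPsi_one, mul_one] at h
  exact h

/-- The element `[[1 + u c, u], [c, 1]]` of `SL(2, ℤ)`. -/
def twoStep (u c : ℤ) : SL(2, ℤ) :=
  ⟨!![1 + u * c, u; c, 1], by rw [Matrix.det_fin_two_of]; ring⟩

@[simp] theorem twoStep_apply_zero_zero (u c : ℤ) : twoStep u c 0 0 = 1 + u * c := rfl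
@[simp] theorem twoStep_apply_zero_one (u c : ℤ) : twoStep u c 0 1 = u := rfl
@[simp] theorem twoStep_apply_one_zero (u c : ℤ) : twoStep u c 1 0 = c := rfl
@[simp] theorem twoStep_apply_one_one (u c : ℤ) : twoStep u c 1 1 = 1 := rfl

theorem twoStep_mem_Gamma1 (M : ℕ) (u t : ℤ) : twoStep u ((M : ℤ) * t) ∈ Gamma1 M := by
  rw [Gamma1_mem]
  refine ⟨?_, ?_, ?_⟩
  · rw [twoStep_apply_zero_zero]
    push_cast
    simp
  · rw [twoStep_apply_one_one]
    simp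
  · rw [twoStep_apply_one_zero]
    push_cast
    simp

/-- `Γ₁(M)` meets every left coset of `Γ₀(p)` for a prime `p ∤ M`. -/
theorem exists_Gamma1_inv_mul_mem_Gamma0 {M p : ℕ} (hp : p.Prime) (hpM : ¬ p ∣ M)
    (g : SL(2, ℤ)) : ∃ k ∈ Gamma1 M, k⁻¹ * g ∈ Gamma0 p := by
  have : NeZero p := ⟨hp.ne_zero⟩
  have : Fact p.Prime := ⟨hp⟩
  have hM : ((M : ℕ) : ZMod p) ≠ 0 := by
    intro h
    exact hpM ((ZMod.natCast_eq_zero_iff M p).mp h)
  by_cases ha : ((g 0 0 : ℤ) : ZMod p) = 0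
  · -- `k = [[1 + u M, u], [M, 1]]` with `1 + u M ≡ 0`
    obtain ⟨u, hu⟩ := ZMod.intCast_surjective (-(((M : ℕ) : ZMod p))⁻¹ : ZMod p)
    refine ⟨twoStep u ((M : ℤ) * 1), twoStep_mem_Gamma1 M u 1, ?_⟩
    rw [Gamma0_mem, Fermat.Agent.H57.inv_mul_apply_one_zero]
    rw [twoStep_apply_zero_zero, twoStep_apply_one_zero]
    push_cast
    rw [ha, mul_zero, sub_zero, hu, mul_one, neg_mul, inv_mul_cancel₀ hM]
    simp
  · -- `k = [[1, 0], [M t, 1]]` with `M t a ≡ c`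
    obtain ⟨t, ht⟩ := ZMod.intCast_surjective
      ((((g 1 0 : ℤ) : ZMod p) * (((M : ℕ) : ZMod p) * ((g 0 0 : ℤ) : ZMod p))⁻¹ : ZMod p))
    refine ⟨twoStep 0 ((M : ℤ) * t), twoStep_mem_Gamma1 M 0 t, ?_⟩
    rw [Gamma0_mem, Fermat.Agent.H57.inv_mul_apply_one_zero]
    rw [twoStep_apply_zero_zero, twoStep_apply_one_zero]
    push_cast
    rw [ht]
    field_simp
    ring

/-- **The index equality**: `[K : K ∩ Γ₀(p)] = p + 1` for `Γ₁(M) ≤ K`, `p ∤ M` prime. -/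
theorem relIndex_Gamma0_of_Gamma1_le {M p : ℕ} (hp : p.Prime) (hpM : ¬ p ∣ M)
    (K : Subgroup SL(2, ℤ)) (hK : Gamma1 M ≤ K) : (Gamma0 p).relIndex K = p + 1 := by
  rw [relIndex_eq_index_of_cover (Gamma0 p) K, index_Gamma0_prime hp]
  intro g
  obtain ⟨k, hk, hkg⟩ := exists_Gamma1_inv_mul_mem_Gamma0 (M := M) hp hpM g
  exact ⟨k, hK hk, hkg⟩

/-- **The index equality**, absolute form. -/
theorem index_inf_Gamma0_of_Gamma1_le {M p : ℕ} (hp : p.Prime) (hpM : ¬ p ∣ M)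
    (K : Subgroup SL(2, ℤ)) (hK : Gamma1 M ≤ K) :
    (K ⊓ Gamma0 p).index = (p + 1) * K.index := by
  rw [← Subgroup.relIndex_mul_index (inf_le_left : K ⊓ Gamma0 p ≤ K),
    Subgroup.inf_relIndex_left, relIndex_Gamma0_of_Gamma1_le hp hpM K hK]

/-- **The index equality**, as cardinalities of coset spaces. -/
theorem card_quotient_inf_Gamma0_of_Gamma1_le {M p : ℕ} (hp : p.Prime) (hpM : ¬ p ∣ M)
    (K : Subgroup SL(2, ℤ)) (hK : Gamma1 M ≤ K) :
    Nat.card (SL(2, ℤ) ⧸ (K ⊓ Gamma0 p)) = (p + 1) * Nat.card (SL(2, ℤ) ⧸ K) :=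
  index_inf_Gamma0_of_Gamma1_le hp hpM K hK

end Fermat.Agent.H69.ES1
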