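/-
P-DS / P-ES1 / ES1-C-DEGC (row 734, helper69), part 2: the assembly.

`[ℂ · F1 M · V_p(F1 M) : ℂ · F1 M] = p + 1` for a prime `p ∤ M`, from

* the generic degree statement `Fermat.Agent.H23.ES1A.degreeStatement` (degree over `ℂ(j)` =
  index of the uniformising group) for the model `model1 M` of `X₁(M)` and for ANY modular model
  `X2` with group `⟨Γ₁(M), -1⟩ ∩ Γ₀(p)` and field `ℂ · heckeField (F1 M) p`,
* the index equality `[K : K ∩ Γ₀(p)] = p + 1` (`ES1DegCIndex`),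
* the tower law.
-/
import Fermat.Agent.H69.ES1DegCIndex
import Fermat.Agent.H23.ES1A.Unconditional
import Fermat.Agent.H32.ES1.Model1
import Fermat.Agent.H65.EsC.DegreeAlpha

set_option autoImplicit false

noncomputable section

namespace Fermat.Agent.H69.ES1

open AlgebraicCurve IntermediateField ModularCurve CongruenceSubgroup
open Fermat.Agent.H29.ES1 Fermat.Agent.H23.ES1A
open scoped MatrixGroups

/-- The tower law: the degree along `α` from the degrees over `ℂ(j)` of the two models. -/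
theorem finrankAlong_alphaGen_of_degree (M p d : ℕ) [NeZero M] [NeZero p]
    (X1 X2 : Model)
    (hF1 : X1.F = laurentBaseChange ℂ (F1 M))
    (hF2 : X2.F = laurentBaseChange ℂ (heckeField (F1 M) p))
    (hj : (X2.j : LaurentSeries ℂ) = (X1.j : LaurentSeries ℂ))
    (h1 : DegreeStatement X1) (h2 : DegreeStatement X2)
    (hidx : Nat.card (SL(2, ℤ) ⧸ X2.Γ) = d * Nat.card (SL(2, ℤ) ⧸ X1.Γ))
    (hpos : Nat.card (SL(2, ℤ) ⧸ X1.Γ) ≠ 0) :
    finrankAlong ℂ (alphaGen ℂ (F1 M) p) = d := by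
  obtain ⟨Γ1, A, R1, j1⟩ := X1
  obtain ⟨Γ2, B, R2, j2⟩ := X2
  dsimp only at hF1 hF2 hj h1 h2 hidx hpos
  subst hF1
  subst hF2
  obtain ⟨-, -, e1⟩ := h1
  obtain ⟨-, -, e2⟩ := h2
  dsimp only at e1 e2
  rw [Fermat.Agent.H65.finrank_adjoin_coe_eq_relfinrank] at e1 e2
  rw [hj] at e2
  have hle : laurentBaseChange ℂ (F1 M) ≤ laurentBaseChange ℂ (heckeField (F1 M) p) :=
    es1_laurentBaseChange_mono ℂ (le_heckeField (F1 M) p)
  have hα : alphaGen ℂ (F1 M) p = IntermediateField.inclusion hle := rfl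
  rw [hα, Fermat.Agent.H65.finrankAlong_inclusion_eq_relfinrank]
  have hJ : ℂ⟮(j1 : LaurentSeries ℂ)⟯ ≤ laurentBaseChange ℂ (F1 M) := by
    rw [IntermediateField.adjoin_le_iff]
    rintro _ rfl
    exact j1.2
  have hmul := IntermediateField.relfinrank_mul_relfinrank hJ hle
  rw [e1, e2, hidx, mul_comm] at hmul
  exact Nat.eq_of_mul_eq_mul_right (Nat.pos_of_ne_zero hpos) hmul

/-- **ES1-C-DEGC**, generic form: for ANY modular model `X2` of the Hecke correspondence
(group `⟨Γ₁(M), -1⟩ ∩ Γ₀(p)`, field `ℂ · F1 M · V_p(F1 M)`, the same `j`), the degree of `α` is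
`p + 1`. -/
theorem finrankAlong_alphaGen_of_model (hV : VFunStatement) (M : ℕ) [NeZero M] (hM : 5 ≤ M)
    (p : ℕ) [NeZero p] (hp : p.Prime) (hpM : ¬ p ∣ M)
    (X2 : Model) (hΓ : X2.Γ = gamma1pm M ⊓ Gamma0 p)
    (hF : X2.F = laurentBaseChange ℂ (heckeField (F1 M) p))
    (hj : (X2.j : LaurentSeries ℂ) = ((model1 M).j : LaurentSeries ℂ))
    (hX2 : X2.IsModular) :
    finrankAlong ℂ (alphaGen ℂ (F1 M) p) = p + 1 := by
  have hX1 : (model1 M).IsModular := Fermat.Agent.H32.ES1M.model1Statement hV M hM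
  have hfi := hX1.finiteIndex
  refine finrankAlong_alphaGen_of_degree M p (p + 1) (model1 M) X2 rfl hF hj
    (degreeStatement _ hX1) (degreeStatement _ hX2) ?_ ?_
  · rw [hΓ]
    exact card_quotient_inf_Gamma0_of_Gamma1_le hp hpM (gamma1pm M) le_sup_left
  · exact Subgroup.FiniteIndex.index_ne_zero

/-- **The Hecke-level model exists**: a modular model of the Hecke correspondence of level `p`
over `X₁(M)`. -/
def HeckeModel1Statement : Prop :=
  ∀ (M : ℕ) [NeZero M], 5 ≤ M → ∀ (p : ℕ) [NeZero p], p.Prime → ¬ p ∣ M →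
    ∃ X2 : Model, X2.Γ = gamma1pm M ⊓ Gamma0 p ∧
      X2.F = laurentBaseChange ℂ (heckeField (F1 M) p) ∧
      (X2.j : LaurentSeries ℂ) = ((model1 M).j : LaurentSeries ℂ) ∧ X2.IsModular

/-- **ES1-C-DEGC** from the existence of the Hecke-level model. -/
theorem finrankAlong_alphaGen_of_heckeModel (hV : VFunStatement) (hH : HeckeModel1Statement)
    (M : ℕ) [NeZero M] (hM : 5 ≤ M) (p : ℕ) [NeZero p] (hp : p.Prime) (hpM : ¬ p ∣ M) :
    finrankAlong ℂ (alphaGen ℂ (F1 M) p) = p + 1 := by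
  obtain ⟨X2, hΓ, hF, hj, hX2⟩ := hH M hM p hp hpM
  exact finrankAlong_alphaGen_of_model hV M hM p hp hpM X2 hΓ hF hj hX2

end Fermat.Agent.H69.ES1

end
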