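/-
P-DS / P-ES1 / ES1-C-DEGC (row 734, helper69), FINAL: the degree of the degeneracy map `α` of
the Hecke correspondence of level `p` over `X₁(M)` is EXACTLY `p + 1` over `ℂ`, UNCONDITIONAL.

* `degC1 : Fermat.Agent.H32.Es1C.DegC1Statement`
  (`finrankAlong ℂ (alphaGen ℂ (F1 M) p) = p + 1` for `M ≥ 5`, `p ∤ M` prime);
* `normRep1_final : Fermat.Agent.H21.Es1C.NormRep1Statement` (row 735 made unconditional).

Inputs: the modular Hecke-level model `Fermat.Agent.H77.es1dModel` (helper77, row 667), the
generic degree statement of helper23, the index equality `ES1DegCIndex`.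
-/
import Fermat.Agent.H69.ES1DegC
import Fermat.Agent.H77.ES1Deg.ModelB
import Fermat.Agent.H32.Es1C.NormRep1Final

set_option autoImplicit false

noncomputable section

namespace Fermat.Agent.H69.ES1

open AlgebraicCurve ModularCurve
open Fermat.Agent.H29.ES1

/-- The analytic generators `V_a` exist (rows ES1-GEN-b1/b2/c, landed). -/
theorem vFun_unconditional : VFunStatement :=
  Fermat.Agent.H99.ES1.vFunStatement Fermat.Agent.H60.latSumStatement
    Fermat.Agent.H87.ES1.latSumQExp

/-- The Hecke-level model exists. -/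
theorem heckeModel1 : HeckeModel1Statement := by
  intro M _ hM p _ hp hpM
  exact ⟨Fermat.Agent.H77.es1dModel M p, rfl, rfl, coe_alphaGen (F1 M) p _,
    Fermat.Agent.H77.es1d_isModular
      (Fermat.Agent.H32.ES1M.model1Statement vFun_unconditional M hM) hp hpM⟩

/-- **ES1-C-DEGC** (row 734): `[ℂ · F1 M · V_p(F1 M) : ℂ · F1 M] = p + 1`. -/
theorem degC1 : Fermat.Agent.H32.Es1C.DegC1Statement := by
  intro M _ hM p _ hp hpM
  exact finrankAlong_alphaGen_of_heckeModel vFun_unconditional heckeModel1 M hM p hp hpM

/-- **ES1-C-NORM** (row 735), unconditional. -/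
theorem normRep1_final : Fermat.Agent.H21.Es1C.NormRep1Statement :=
  Fermat.Agent.H32.Es1C.normRep1 degC1

end Fermat.Agent.H69.ES1

end
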