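import Mathlib

/-!
# Automorphisms of an algebraically closed field moving a transcendental element (helper69)

For `K` algebraically closed, `k → K` a field extension and `c : K` transcendental over `k`, there
is a `k`-automorphism `σ` of `K` with `σ c = c + 1`.  Consequences (characteristic zero):

* the orbit of a transcendental element under a finite-index subgroup of `Aut(K/k)` is infinite;
* an element with finite orbit under a finite-index subgroup is algebraic over `k`; if `k` is
  algebraically closed it lies in `k`.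

Used for the descent `ℂ → ℚ̄` (P-ES, block ES-B).
-/

set_option autoImplicit false

namespace Fermat.Agent.H69

open MvPolynomial

section shift

variable {k : Type*} [CommRing k] {ι : Type*}

/-- The `k`-algebra endomorphism of `k[X_i]` with `X_i ↦ X_i + d i`. -/
noncomputable def mvShiftHom (d : ι → k) : MvPolynomial ι k →ₐ[k] MvPolynomial ι k :=
  aeval fun i => X i + C (d i)

@[simp] lemma mvShiftHom_X (d : ι → k) (i : ι) : mvShiftHom d (X i) = X i + C (d i) := by
  simp [mvShiftHom]

lemma mvShiftHom_comp (d e : ι → k) :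
    (mvShiftHom d).comp (mvShiftHom e) = mvShiftHom (fun i => d i + e i) := by
  apply MvPolynomial.algHom_ext
  intro i
  simp only [AlgHom.comp_apply, mvShiftHom_X, map_add, MvPolynomial.algHom_C,
    MvPolynomial.algebraMap_eq]
  ring

lemma mvShiftHom_zero : mvShiftHom (fun _ : ι => (0 : k)) = AlgHom.id k _ := by
  apply MvPolynomial.algHom_ext
  intro i
  simp

/-- The `k`-algebra automorphism of `k[X_i]` with `X_i ↦ X_i + d i`. -/
noncomputable def mvShift (d : ι → k) : MvPolynomial ι k ≃ₐ[k] MvPolynomial ι k :=
  AlgEquiv.ofAlgHom (mvShiftHom d) (mvShiftHom fun i => -d i)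
    (by rw [mvShiftHom_comp]; simp [mvShiftHom_zero])
    (by rw [mvShiftHom_comp]; simp [mvShiftHom_zero])

@[simp] lemma mvShift_X (d : ι → k) (i : ι) : mvShift d (X i) = X i + C (d i) :=
  mvShiftHom_X d i

end shift

variable {k K : Type*} [Field k] [Field K] [Algebra k K]

/-- A transcendental element of an algebraically closed extension can be translated by `1` by an
automorphism fixing the base field. -/
theorem exists_algEquiv_apply_eq_add_one [IsAlgClosed K] {c : K} (hc : Transcendental k c) :
    ∃ σ : K ≃ₐ[k] K, σ c = c + 1 := by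
  classical
  have hind : AlgebraicIndepOn k id ({c} : Set K) := by
    have : AlgebraicIndependent k (fun _ : Unit => c) :=
      algebraicIndependent_unique_type_iff.mpr hc
    rw [AlgebraicIndepOn]
    exact (algebraicIndependent_unique_type_iff (ι := ({c} : Set K)) (x := fun i => id i.1)).mpr
      (by
        have : ((default : ({c} : Set K)) : K) = c := (default : ({c} : Set K)).2
        simpa [this] using hc)
  obtain ⟨B, hcB, hB⟩ := exists_isTranscendenceBasis_superset hind
  have hcmem : c ∈ B := hcB rfl
  let v : B → K := Subtype.val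
  let A₀ := Algebra.adjoin k (Set.range v)
  have : IsAlgClosure A₀ K := IsAlgClosed.isAlgClosure_of_transcendence_basis v hB
  let d : B → k := fun b => if (b : K) = c then 1 else 0
  let e : A₀ ≃ₐ[k] A₀ := (hB.1.aevalEquiv.symm.trans (mvShift d)).trans hB.1.aevalEquiv
  let σ₀ : K ≃+* K := IsAlgClosure.equivOfEquiv K K e.toRingEquiv
  have hσ₀ : ∀ a : A₀, σ₀ (algebraMap A₀ K a) = algebraMap A₀ K (e a) := fun a =>
    IsAlgClosure.equivOfEquiv_algebraMap K K e.toRingEquiv a
  have hcomm : ∀ r : k, σ₀ (algebraMap k K r) = algebraMap k K r := by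
    intro r
    have h1 : algebraMap k K r = algebraMap A₀ K (algebraMap k A₀ r) := rfl
    rw [h1, hσ₀, AlgEquiv.commutes]
  refine ⟨AlgEquiv.ofRingEquiv (f := σ₀) hcomm, ?_⟩
  change σ₀ c = c + 1
  have hc' : c = algebraMap A₀ K (hB.1.aevalEquiv (X ⟨c, hcmem⟩)) := by
    rw [AlgebraicIndependent.algebraMap_aevalEquiv, aeval_X]
  have he : e (hB.1.aevalEquiv (X ⟨c, hcmem⟩)) =
      hB.1.aevalEquiv (X ⟨c, hcmem⟩ + C (d ⟨c, hcmem⟩)) := by
    simp only [e, AlgEquiv.trans_apply, AlgEquiv.symm_apply_apply, mvShift_X]
  conv_lhs => rw [hc']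
  rw [hσ₀, he, AlgebraicIndependent.algebraMap_aevalEquiv, map_add, aeval_X, aeval_C]
  simp [d, v]

/-- Iterating: `σ ^ n` translates by `n`. -/
lemma algEquiv_pow_apply_of_apply_eq_add_one (σ : K ≃ₐ[k] K) {c : K} (h : σ c = c + 1) (n : ℕ) :
    (σ ^ n) c = c + n := by
  induction n with
  | zero => simp
  | succ n ih =>
    rw [pow_succ', AlgEquiv.mul_apply, ih, map_add, h, map_natCast]
    push_cast
    ring

/-- The orbit of a transcendental element under a finite-index subgroup of `Aut(K/k)` is
infinite (characteristic zero). -/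
theorem infinite_orbit_of_transcendental [IsAlgClosed K] [CharZero K]
    (H : Subgroup (K ≃ₐ[k] K)) (hH : H.index ≠ 0) {c : K} (hc : Transcendental k c) :
    {x : K | ∃ σ ∈ H, σ c = x}.Infinite := by
  obtain ⟨σ, hσ⟩ := exists_algEquiv_apply_eq_add_one hc
  obtain ⟨n, hn0, -, hnH⟩ := Subgroup.exists_pow_mem_of_index_ne_zero hH σ
  have hinj : Function.Injective fun m : ℕ => c + ((n * m : ℕ) : K) := by
    intro a b hab
    have h1 : ((n * a : ℕ) : K) = ((n * b : ℕ) : K) := add_left_cancel hab
    have h2 : n * a = n * b := Nat.cast_injective h1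
    exact Nat.eq_of_mul_eq_mul_left hn0 h2
  refine Set.infinite_of_injective_forall_mem hinj fun m => ?_
  refine ⟨(σ ^ n) ^ m, H.pow_mem hnH m, ?_⟩
  rw [← pow_mul, algEquiv_pow_apply_of_apply_eq_add_one σ hσ]

/-- An element with finite orbit under a finite-index subgroup of `Aut(K/k)` is algebraic. -/
theorem isAlgebraic_of_finite_orbit [IsAlgClosed K] [CharZero K]
    (H : Subgroup (K ≃ₐ[k] K)) (hH : H.index ≠ 0) {c : K}
    (hfin : {x : K | ∃ σ ∈ H, σ c = x}.Finite) : IsAlgebraic k c := by
  by_contra hc
  exact infinite_orbit_of_transcendental H hH hc hfin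

/-- If moreover `k` is algebraically closed, an element with finite orbit lies in `k`. -/
theorem mem_range_algebraMap_of_finite_orbit [IsAlgClosed k] [IsAlgClosed K] [CharZero K]
    (H : Subgroup (K ≃ₐ[k] K)) (hH : H.index ≠ 0) {c : K}
    (hfin : {x : K | ∃ σ ∈ H, σ c = x}.Finite) : c ∈ Set.range (algebraMap k K) := by
  have hint : IsIntegral k c := (isAlgebraic_of_finite_orbit H hH hfin).isIntegral
  have hdeg : (minpoly k c).degree = 1 :=
    IsAlgClosed.degree_eq_one_of_irreducible k (minpoly.irreducible hint)
  exact minpoly.mem_range_of_degree_eq_one k c hdeg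

/-- The fixed field of a finite-index subgroup of `Aut(K/k)` is `k` (`k`, `K` algebraically
closed of characteristic zero). -/
theorem mem_range_algebraMap_of_fixed [IsAlgClosed k] [IsAlgClosed K] [CharZero K]
    (H : Subgroup (K ≃ₐ[k] K)) (hH : H.index ≠ 0) {c : K} (hfix : ∀ σ ∈ H, σ c = c) :
    c ∈ Set.range (algebraMap k K) := by
  refine mem_range_algebraMap_of_finite_orbit H hH ((Set.finite_singleton c).subset ?_)
  rintro x ⟨σ, hσ, rfl⟩
  exact hfix σ hσ

end Fermat.Agent.H69
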