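import Fermat.Agent.H69.DS1FiniteConj
import Fermat.Agent.H6.DS.ConjFinal

/-!
# P-DS block (1), DS-1c (helper69): `FiniteConjStatement`, unconditional

`Fermat.Agent.H69.DS1.finiteConj_of_conj` applied to the landed
`Fermat.Agent.H6.DS.conjStatement`.
-/

set_option autoImplicit false

namespace Fermat.Agent.H69.DS1

/-- **DS-1c.**  `Fermat.Agent.H20.DS.FiniteConjStatement`, unconditional. -/
theorem finiteConjStatement : Fermat.Agent.H20.DS.FiniteConjStatement :=
  finiteConj_of_conj Fermat.Agent.H6.DS.conjStatement

end Fermat.Agent.H69.DS1
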