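import Fermat.Agent.H69.DSBoundedImage

/-!
# P-DS block (5b): bounded image, form with a real density `η < 1/4`

`G` a finite subgroup of `GL₂(k)` acting semisimply, `2 ≠ 0` in `k`, `H ⊆ G` a finite set whose
traces lie in the finite set `T`, and `(1 - η) |G| ≤ |H|`.  Then `(1 - 4 η) |G| ≤ |T|⁴`.
-/

set_option autoImplicit false

noncomputable section

namespace Fermat.Agent.H69.DS

open Matrix

variable {k : Type*} [Field k]

/-- **Bounded image**, real form: `(1 - 4 η) |G| ≤ |T|⁴`. -/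
theorem one_sub_four_mul_card_le (h2 : (2 : k) ≠ 0) (G : Subgroup (GL (Fin 2) k)) [Finite ↥G]
    (hss : IsSemisimpleRep (subgroupRep G)) (T : Finset k) (H : Finset (GL (Fin 2) k))
    (hHG : ∀ h ∈ H, h ∈ G)
    (hHT : ∀ h ∈ H, ((h : GL (Fin 2) k) : Matrix (Fin 2) (Fin 2) k).trace ∈ T)
    (η : ℝ) (hη : (1 - η) * (Nat.card ↥G : ℝ) ≤ (H.card : ℝ)) :
    (1 - 4 * η) * (Nat.card ↥G : ℝ) ≤ ((T.card : ℝ)) ^ 4 := by
  classical
  set H' : Set ↥G := {x | (x : GL (Fin 2) k) ∈ H} with hH'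
  have hfin : H'.Finite := Set.toFinite _
  have h1 := card_le_of_trace_mem (subgroupRep G) h2 (subgroupRep_injective G) hss H' T
    (fun x hx => hHT _ hx)
  -- `|H'| = |H|`
  have hcard : H'.ncard = H.card := by
    have himg : Subtype.val '' H' = (H : Set (GL (Fin 2) k)) := by
      ext x
      constructor
      · rintro ⟨y, hy, rfl⟩
        exact hy
      · intro hx
        exact ⟨⟨x, hHG x hx⟩, hx, rfl⟩
    rw [← Set.ncard_image_of_injective H' Subtype.val_injective, himg, Set.ncard_coe_finset]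
  have hcompl : (H'ᶜ).ncard + H'.ncard = Nat.card ↥G := by
    rw [add_comm]
    exact Set.ncard_add_ncard_compl H'
  have h3 : (Nat.card ↥G : ℝ) ≤ 4 * ((H'ᶜ).ncard : ℝ) + (T.card : ℝ) ^ 4 := by
    exact_mod_cast h1
  have h4 : ((H'ᶜ).ncard : ℝ) + (H.card : ℝ) = (Nat.card ↥G : ℝ) := by
    rw [← hcard]
    exact_mod_cast hcompl
  nlinarith

/-- **Bounded image**, in the form of row DS-5b: `(1 - 4 η) |G| ≤ max(|T|, 1)⁴`. -/
theorem one_sub_four_mul_card_le_max (h2 : (2 : k) ≠ 0) (G : Subgroup (GL (Fin 2) k))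
    [Finite ↥G] (hss : IsSemisimpleRep (subgroupRep G)) (T : Finset k)
    (H : Finset (GL (Fin 2) k)) (hHG : ∀ h ∈ H, h ∈ G)
    (hHT : ∀ h ∈ H, ((h : GL (Fin 2) k) : Matrix (Fin 2) (Fin 2) k).trace ∈ T)
    (η : ℝ) (hη : (1 - η) * (Nat.card ↥G : ℝ) ≤ (H.card : ℝ)) :
    (1 - 4 * η) * (Nat.card ↥G : ℝ) ≤ ((max T.card 1 : ℕ) : ℝ) ^ 4 := by
  refine (one_sub_four_mul_card_le h2 G hss T H hHG hHT η hη).trans ?_
  have : (T.card : ℝ) ≤ ((max T.card 1 : ℕ) : ℝ) := by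
    exact_mod_cast le_max_left _ _
  exact pow_le_pow_left₀ (Nat.cast_nonneg _) this 4

/-- Consequence: an explicit bound for the order, for `η < 1/4`. -/
theorem card_le_div (h2 : (2 : k) ≠ 0) (G : Subgroup (GL (Fin 2) k)) [Finite ↥G]
    (hss : IsSemisimpleRep (subgroupRep G)) (T : Finset k) (H : Finset (GL (Fin 2) k))
    (hHG : ∀ h ∈ H, h ∈ G)
    (hHT : ∀ h ∈ H, ((h : GL (Fin 2) k) : Matrix (Fin 2) (Fin 2) k).trace ∈ T)
    (η : ℝ) (hη4 : η < 1 / 4) (hη : (1 - η) * (Nat.card ↥G : ℝ) ≤ (H.card : ℝ)) :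
    (Nat.card ↥G : ℝ) ≤ ((T.card : ℝ)) ^ 4 / (1 - 4 * η) := by
  have hpos : 0 < 1 - 4 * η := by linarith
  rw [le_div_iff₀ hpos, mul_comm]
  exact one_sub_four_mul_card_le h2 G hss T H hHG hHT η hη

end Fermat.Agent.H69.DS

end
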