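/-
P-DS / P-ES1 / ES1-C-DEGC (row 734, helper69), part 3a: generic analytic lemmas for the
Hecke-level model.

* `growth_scale` : if all `SL(2, ℤ)`-translates of `h` have moderate growth at `i∞`, so have all
  translates of `z ↦ h (p z)` (Hermite normal form `diag(p, 1) γ = σ (g, B; 0, D)`).
* `mem_gamma1pm_iff` : `γ ∈ ⟨Γ₁(M), -1⟩ ↔ γ ∈ Γ₁(M) ∨ -γ ∈ Γ₁(M)`.
-/
import Fermat.Agent.H32.ES1.Model1A
import Fermat.Agent.H82.Separation

set_option autoImplicit false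

noncomputable section

open UpperHalfPlane ModularCurve CongruenceSubgroup
open scoped MatrixGroups Manifold

namespace Fermat.Agent.H69.ES1

open Fermat.Agent.H29.ES1 Fermat.Agent.H44 Fermat.Agent.H94.EsA Fermat.Agent.H23
open Fermat.Agent.H18

/-- Moderate growth of all translates is stable under `z ↦ p z`. -/
theorem growth_scale {h : ℍ → ℂ} (g : HasModerateGrowth h) (p : ℕ) [NeZero p] :
    HasModerateGrowth (fun z => h (scaleH p z)) := by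
  intro γ
  obtain ⟨g', D, B, σ, hg, hD, hne1, hne2, -, -, key⟩ :=
    Fermat.Agent.H82.sep_exists_decomp p γ
  obtain ⟨m, C, Y, hC, hb⟩ := g σ
  have hgR : (0 : ℝ) < ((g' : ℤ) : ℝ) := by exact_mod_cast hg
  have hDR : (0 : ℝ) < ((D : ℤ) : ℝ) := by exact_mod_cast hD
  have e : ∀ z : ℍ, scaleH p (γ • z)
      = σ • (upperGL ((g' : ℤ) : ℝ) (B : ℝ) ((D : ℤ) : ℝ) hne1 • z) := by
    intro z
    rw [Fermat.Agent.H82.sep_scaleH_eq p hne2]
    calc upperGL ((p : ℤ) : ℝ) ((0 : ℤ) : ℝ) ((1 : ℤ) : ℝ) hne2 • (γ • z)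
        = (upperGL ((p : ℤ) : ℝ) ((0 : ℤ) : ℝ) ((1 : ℤ) : ℝ) hne2 * (γ : GL (Fin 2) ℝ)) • z := by
          rw [mul_smul]; rfl
      _ = ((σ : GL (Fin 2) ℝ) * upperGL ((g' : ℤ) : ℝ) (B : ℝ) ((D : ℤ) : ℝ) hne1) • z := by
          rw [key]
      _ = σ • (upperGL ((g' : ℤ) : ℝ) (B : ℝ) ((D : ℤ) : ℝ) hne1 • z) := by
          rw [mul_smul]; rfl
  have hD1 : (1 : ℝ) ≤ ((D : ℤ) : ℝ) := by exact_mod_cast hD
  have hg1 : (1 : ℝ) ≤ ((g' : ℤ) : ℝ) := by exact_mod_cast hg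
  refine ⟨m * g', C, |Y| * ((D : ℤ) : ℝ), hC, fun z hz => ?_⟩
  show ‖h (scaleH p (γ • z))‖ ≤ _
  rw [e z]
  have him : (upperGL ((g' : ℤ) : ℝ) (B : ℝ) ((D : ℤ) : ℝ) hne1 • z : ℍ).im
      = ((g' : ℤ) : ℝ) * z.im / ((D : ℤ) : ℝ) := im_upperGL_smul _ _ _ hgR hDR z
  have hz0 : 0 < z.im := z.im_pos
  have hY : Y ≤ (upperGL ((g' : ℤ) : ℝ) (B : ℝ) ((D : ℤ) : ℝ) hne1 • z : ℍ).im := by
    rw [him, le_div_iff₀ hDR]
    calc Y * ((D : ℤ) : ℝ) ≤ |Y| * ((D : ℤ) : ℝ) :=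
          mul_le_mul_of_nonneg_right (le_abs_self Y) hDR.le
      _ ≤ z.im := hz
      _ ≤ ((g' : ℤ) : ℝ) * z.im := le_mul_of_one_le_left hz0.le hg1
  refine (hb _ hY).trans ?_
  apply mul_le_mul_of_nonneg_left _ hC
  apply Real.exp_le_exp.mpr
  rw [him]
  have hm0 : (0 : ℝ) ≤ (m : ℝ) := Nat.cast_nonneg m
  have hpi : 0 < Real.pi := Real.pi_pos
  have h1 : ((g' : ℤ) : ℝ) * z.im / ((D : ℤ) : ℝ) ≤ ((g' : ℤ) : ℝ) * z.im :=
    div_le_self (mul_nonneg hgR.le hz0.le) hD1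
  have h2 : 0 ≤ 2 * Real.pi * (m : ℝ) := by positivity
  calc 2 * Real.pi * (m : ℝ) * (((g' : ℤ) : ℝ) * z.im / ((D : ℤ) : ℝ))
      ≤ 2 * Real.pi * (m : ℝ) * (((g' : ℤ) : ℝ) * z.im) := mul_le_mul_of_nonneg_left h1 h2
    _ = 2 * Real.pi * ((m * g' : ℕ) : ℝ) * z.im := by
        push_cast
        ring

/-- The subgroup `{γ | γ ∈ H ∨ -γ ∈ H}` of `SL(2, ℤ)`. -/
def pmSubgroup (H : Subgroup SL(2, ℤ)) : Subgroup SL(2, ℤ) where
  carrier := {γ | γ ∈ H ∨ -γ ∈ H}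
  mul_mem' := by
    rintro a b (ha | ha) (hb | hb)
    · exact Or.inl (H.mul_mem ha hb)
    · right
      have : -(a * b) = a * -b := by rw [mul_neg]
      rw [this]
      exact H.mul_mem ha hb
    · right
      have : -(a * b) = -a * b := by rw [neg_mul]
      rw [this]
      exact H.mul_mem ha hb
    · left
      have : a * b = -a * -b := by rw [neg_mul_neg]
      rw [this]
      exact H.mul_mem ha hb
  one_mem' := Or.inl H.one_mem
  inv_mem' := by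
    rintro a (ha | ha)
    · exact Or.inl (H.inv_mem ha)
    · right
      have : -a⁻¹ = (-a)⁻¹ := by
        rw [eq_inv_iff_mul_eq_one, neg_mul_neg, inv_mul_cancel]
      rw [this]
      exact H.inv_mem ha

/-- Membership in `⟨Γ₁(M), -1⟩`. -/
theorem mem_gamma1pm_iff (M : ℕ) (γ : SL(2, ℤ)) :
    γ ∈ gamma1pm M ↔ γ ∈ Gamma1 M ∨ -γ ∈ Gamma1 M := by
  constructor
  · intro hγ
    have hle : gamma1pm M ≤ pmSubgroup (Gamma1 M) := by
      refine sup_le (fun x hx => Or.inl hx) ?_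
      rw [Subgroup.zpowers_le]
      right
      rw [neg_neg]
      exact (Gamma1 M).one_mem
    exact hle hγ
  · rintro (h | h)
    · exact Subgroup.mem_sup_left h
    · have : γ = -γ * (-1 : SL(2, ℤ)) := by rw [neg_mul_neg, mul_one]
      rw [this]
      exact Subgroup.mul_mem_sup h (Subgroup.mem_zpowers _)

/-- A function on `ℍ` fixed by `Γ₁(M) ∩ Γ₀(p)` is fixed by `⟨Γ₁(M), -1⟩ ∩ Γ₀(p)`. -/
theorem invariant_gamma1pm_inf {M p : ℕ} {h : ℍ → ℂ}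
    (hinv : ∀ γ ∈ Gamma1 M, γ ∈ Gamma0 p → ∀ z : ℍ, h (γ • z) = h z) :
    ∀ γ ∈ gamma1pm M ⊓ Gamma0 p, ∀ z : ℍ, h (γ • z) = h z := by
  rintro γ ⟨h1, h2⟩ z
  rcases (mem_gamma1pm_iff M γ).mp h1 with h1 | h1
  · exact hinv γ h1 h2 z
  · have h2' : γ ∈ Gamma0 p := h2
    have h3 : -γ ∈ Gamma0 p := by
      rw [Gamma0_mem] at h2' ⊢
      simp only [Matrix.SpecialLinearGroup.coe_neg, Matrix.neg_apply, Int.cast_neg]
      rw [h2', neg_zero]
    have := hinv (-γ) h1 h3 z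
    rwa [ModularGroup.SL_neg_smul] at this

end Fermat.Agent.H69.ES1

end
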