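import Mathlib

/-!
# Abstract free generators for a graded module over `ℂ[e4, e6]`

Pure graded linear algebra (no modular forms).  Given graded pieces `R m` (the "ring") and
`M K` (the "module") inside a commutative `ℂ`-algebra `A`, such that every element of positive
weight of `R` is of the form `e4 * a + e6 * b`, and such that `e4, e6` is a regular sequence on
`M`, the module `M` has a homogeneous free basis over `R`.
-/

namespace Fermat.Agent.H69

open Module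

/-- A "basis of `Mk` modulo `D`": a family of vectors of `Mk`, which together with `D` spans `Mk`,
and which is linearly independent modulo `D`. -/
theorem exists_basis_mod_sub {V : Type} [AddCommGroup V] [Module ℂ V] (Mk D : Submodule ℂ V) :
    ∃ (ι : Type) (g : ι → V), (∀ b, g b ∈ Mk) ∧
      (∀ φ ∈ Mk, ∃ γ : ι →₀ ℂ, ∃ d ∈ D, φ = d + Finsupp.linearCombination ℂ g γ) ∧
      (∀ γ : ι →₀ ℂ, Finsupp.linearCombination ℂ g γ ∈ D → γ = 0) := by
  obtain ⟨C, hC⟩ := Submodule.exists_isCompl (D.comap Mk.subtype)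
  let bas := Basis.ofVectorSpace ℂ C
  let L : C →ₗ[ℂ] V := Mk.subtype ∘ₗ C.subtype
  have hL : ∀ γ : (Basis.ofVectorSpaceIndex ℂ C) →₀ ℂ,
      Finsupp.linearCombination ℂ (fun b => L (bas b)) γ
        = L (Finsupp.linearCombination ℂ bas γ) := by
    intro γ
    rw [Finsupp.apply_linearCombination]
    rfl
  refine ⟨Basis.ofVectorSpaceIndex ℂ C, fun b => L (bas b), ?_, ?_, ?_⟩
  · intro b
    exact (bas b : Mk).2
  · intro φ hφ
    have htop : (⟨φ, hφ⟩ : Mk) ∈ D.comap Mk.subtype ⊔ C := by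
      rw [hC.sup_eq_top]
      trivial
    obtain ⟨d, hd, c, hc, hdc⟩ := Submodule.mem_sup.1 htop
    refine ⟨bas.repr ⟨c, hc⟩, (d : V), hd, ?_⟩
    rw [hL, Basis.linearCombination_repr]
    have := congrArg (fun x : Mk => (x : V)) hdc
    simpa [L] using this.symm
  · intro γ hγ
    rw [hL] at hγ
    have h0 : ((Finsupp.linearCombination ℂ bas γ : C) : Mk) = 0 :=
      Submodule.disjoint_def.1 hC.disjoint _ hγ (Finsupp.linearCombination ℂ bas γ).2
    have h1 : Finsupp.linearCombination ℂ bas γ = 0 := by exact_mod_cast h0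
    exact linearIndependent_iff.1 bas.linearIndependent γ h1

section Main

variable {A : Type} [CommRing A] [Algebra ℂ A]

/-- The decomposable part `e4 * M (K - 4) + e6 * M (K - 6)`. -/
def decSub (M : ℤ → Submodule ℂ A) (e4 e6 : A) (K : ℤ) : Submodule ℂ A :=
  (M (K - 4)).map (LinearMap.mulLeft ℂ e4) ⊔ (M (K - 6)).map (LinearMap.mulLeft ℂ e6)

theorem mem_decSub {M : ℤ → Submodule ℂ A} {e4 e6 : A} {K : ℤ} {x : A} :
    x ∈ decSub M e4 e6 K ↔ ∃ u ∈ M (K - 4), ∃ v ∈ M (K - 6), x = e4 * u + e6 * v := by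
  simp only [decSub, Submodule.mem_sup, Submodule.mem_map, LinearMap.mulLeft_apply]
  constructor
  · rintro ⟨_, ⟨u, hu, rfl⟩, _, ⟨v, hv, rfl⟩, rfl⟩
    exact ⟨u, hu, v, hv, rfl⟩
  · rintro ⟨u, hu, v, hv, rfl⟩
    exact ⟨_, ⟨u, hu, rfl⟩, _, ⟨v, hv, rfl⟩, rfl⟩

variable {ι : ℤ → Type}

/-- Graded coefficient families of weight `K`. -/
def IsGradedCoeff (R : ℤ → Submodule ℂ A) (K : ℤ) (r : (Σ K, ι K) →₀ A) : Prop :=
  ∀ j, r j ∈ R (K - j.1)

/-- The linear combination map. -/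
noncomputable def lcomb (g : ∀ K, ι K → A) : ((Σ K, ι K) →₀ A) →ₗ[A] A :=
  Finsupp.linearCombination A (fun j : Σ K, ι K => g j.1 j.2)

/-- Embedding of constant coefficients in weight `K`. -/
noncomputable def embedC (K : ℤ) : (ι K →₀ ℂ) →+ ((Σ K, ι K) →₀ A) :=
  Finsupp.liftAddHom (fun b =>
    (Finsupp.singleAddHom (⟨K, b⟩ : Σ K, ι K)).comp (algebraMap ℂ A).toAddMonoidHom)

theorem embedC_single (K : ℤ) (b : ι K) (c : ℂ) :
    (embedC K (Finsupp.single b c) : (Σ K, ι K) →₀ A)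
      = Finsupp.single (⟨K, b⟩ : Σ K, ι K) (algebraMap ℂ A c) := by
  simp [embedC]

theorem mem_cast {R : ℤ → Submodule ℂ A} {m n : ℤ} (h : m = n) {x : A} (hx : x ∈ R m) :
    x ∈ R n := h ▸ hx

theorem isGradedCoeff_zero (R : ℤ → Submodule ℂ A) (K : ℤ) :
    IsGradedCoeff R K (0 : (Σ K, ι K) →₀ A) := fun _ => zero_mem _

theorem IsGradedCoeff.add {R : ℤ → Submodule ℂ A} {K : ℤ} {r s : (Σ K, ι K) →₀ A}
    (hr : IsGradedCoeff R K r) (hs : IsGradedCoeff R K s) : IsGradedCoeff R K (r + s) :=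
  fun j => by
    rw [Finsupp.add_apply]
    exact add_mem (hr j) (hs j)

theorem IsGradedCoeff.neg {R : ℤ → Submodule ℂ A} {K : ℤ} {r : (Σ K, ι K) →₀ A}
    (hr : IsGradedCoeff R K r) : IsGradedCoeff R K (-r) :=
  fun j => by
    rw [Finsupp.neg_apply]
    exact neg_mem (hr j)

theorem IsGradedCoeff.smul {R : ℤ → Submodule ℂ A}
    (hRR : ∀ m n : ℤ, ∀ a ∈ R m, ∀ b ∈ R n, a * b ∈ R (m + n))
    {m K K' : ℤ} (hK : m + K = K') {e : A} (he : e ∈ R m) {r : (Σ K, ι K) →₀ A}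
    (hr : IsGradedCoeff R K r) : IsGradedCoeff R K' (e • r) :=
  fun j => by
    rw [Finsupp.smul_apply, smul_eq_mul]
    exact mem_cast (by omega) (hRR m (K - j.1) e he (r j) (hr j))

theorem isGradedCoeff_single {R : ℤ → Submodule ℂ A} {K : ℤ} (j : Σ K, ι K) {x : A}
    (hx : x ∈ R (K - j.1)) : IsGradedCoeff R K (Finsupp.single j x) :=
  fun j' => by
    classical
    rw [Finsupp.single_apply]
    split_ifs with h
    · subst h
      exact hx
    · exact zero_mem _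

theorem isGradedCoeff_embedC {R : ℤ → Submodule ℂ A} (h1 : (1 : A) ∈ R 0) (K : ℤ)
    (γ : ι K →₀ ℂ) : IsGradedCoeff R K (embedC K γ : (Σ K, ι K) →₀ A) := by
  induction γ using Finsupp.induction_linear with
  | zero =>
    rw [map_zero]
    exact isGradedCoeff_zero R K
  | add f g hf hg =>
    rw [map_add]
    exact hf.add hg
  | single b c =>
    rw [embedC_single]
    apply isGradedCoeff_single
    have : algebraMap ℂ A c = c • (1 : A) := by rw [Algebra.algebraMap_eq_smul_one]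
    rw [this]
    exact mem_cast (by simp) ((R 0).smul_mem c h1)

omit [Algebra ℂ A] in
theorem lcomb_single (g : ∀ K, ι K → A) (j : Σ K, ι K) (x : A) :
    lcomb g (Finsupp.single j x) = x * g j.1 j.2 := by
  simp [lcomb, Finsupp.linearCombination_single]

omit [Algebra ℂ A] in
theorem lcomb_smul (g : ∀ K, ι K → A) (e : A) (r : (Σ K, ι K) →₀ A) :
    lcomb g (e • r) = e * lcomb g r := by
  rw [map_smul, smul_eq_mul]

theorem lcomb_embedC (g : ∀ K, ι K → A) (K : ℤ) (γ : ι K →₀ ℂ) :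
    lcomb g (embedC K γ) = Finsupp.linearCombination ℂ (g K) γ := by
  induction γ using Finsupp.induction_linear with
  | zero => simp
  | add f g' hf hg => rw [map_add, map_add, map_add, hf, hg]
  | single b c =>
    rw [embedC_single, lcomb_single, Finsupp.linearCombination_single, Algebra.smul_def]

theorem lcomb_mem {M R : ℤ → Submodule ℂ A} {g : ∀ K, ι K → A}
    (hRM : ∀ m K : ℤ, ∀ r ∈ R m, ∀ φ ∈ M K, r * φ ∈ M (m + K))
    (hg : ∀ K b, g K b ∈ M K) {K : ℤ} {r : (Σ K, ι K) →₀ A} (hr : IsGradedCoeff R K r) :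
    lcomb g r ∈ M K := by
  rw [lcomb, Finsupp.linearCombination_apply, Finsupp.sum]
  refine Submodule.sum_mem _ fun j _ => ?_
  rw [smul_eq_mul]
  exact mem_cast (by omega) (hRM (K - j.1) j.1 (r j) (hr j) (g j.1 j.2) (hg j.1 j.2))

/-- The index types in negative weights are empty. -/
theorem idx_nonneg {M : ℤ → Submodule ℂ A} {e4 e6 : A} {g : ∀ K, ι K → A}
    (hMneg : ∀ K : ℤ, K < 0 → M K = ⊥)
    (hg : ∀ K b, g K b ∈ M K)
    (hindep : ∀ K, ∀ γ : ι K →₀ ℂ,
      Finsupp.linearCombination ℂ (g K) γ ∈ decSub M e4 e6 K → γ = 0)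
    (j : Σ K, ι K) : 0 ≤ j.1 := by
  by_contra hlt
  rw [not_le] at hlt
  have h0 : g j.1 j.2 = 0 := by
    have := hg j.1 j.2
    rw [hMneg j.1 hlt] at this
    simpa using this
  have h1 : Finsupp.single j.2 (1 : ℂ) = 0 := by
    apply hindep j.1
    rw [Finsupp.linearCombination_single, h0, smul_zero]
    exact zero_mem _
  have := congrArg (fun γ => γ j.2) h1
  simp at this

/-- Decomposition of a graded coefficient family. -/
theorem exists_decomp {R : ℤ → Submodule ℂ A} {e4 e6 : A}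
    (hR0 : ∀ r ∈ R 0, ∃ c : ℂ, r = algebraMap ℂ A c)
    (hRneg : ∀ m : ℤ, m < 0 → R m = ⊥)
    (hRdecomp : ∀ m : ℤ, 0 < m → ∀ r ∈ R m,
      ∃ a ∈ R (m - 4), ∃ b ∈ R (m - 6), r = e4 * a + e6 * b)
    (K : ℤ) (r : (Σ K, ι K) →₀ A) (hr : IsGradedCoeff R K r) :
    ∃ (γ : ι K →₀ ℂ) (a b : (Σ K, ι K) →₀ A),
      IsGradedCoeff R (K - 4) a ∧ IsGradedCoeff R (K - 6) b ∧
        r = embedC K γ + e4 • a + e6 • b := by
  classical
  -- the statement for a single term
  have hsingle : ∀ j : Σ K, ι K, ∃ (γ : ι K →₀ ℂ) (a b : (Σ K, ι K) →₀ A),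
      IsGradedCoeff R (K - 4) a ∧ IsGradedCoeff R (K - 6) b ∧
        Finsupp.single j (r j) = embedC K γ + e4 • a + e6 • b := by
    intro j
    have hj := hr j
    rcases lt_trichotomy j.1 K with hlt | heq | hgt
    · obtain ⟨a, ha, b, hb, hab⟩ := hRdecomp (K - j.1) (by omega) (r j) hj
      refine ⟨0, Finsupp.single j a, Finsupp.single j b,
        isGradedCoeff_single j (mem_cast (by omega) ha),
        isGradedCoeff_single j (mem_cast (by omega) hb), ?_⟩
      rw [map_zero, zero_add, Finsupp.smul_single, Finsupp.smul_single, ← Finsupp.single_add,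
        smul_eq_mul, smul_eq_mul, hab]
    · obtain ⟨K', b⟩ := j
      simp only at heq
      subst heq
      obtain ⟨c, hc⟩ := hR0 _ (mem_cast (by simp) hj)
      refine ⟨Finsupp.single b c, 0, 0, isGradedCoeff_zero R _, isGradedCoeff_zero R _, ?_⟩
      rw [embedC_single, smul_zero, smul_zero, add_zero, add_zero, hc]
    · have h0 : r j = 0 := by
        rw [hRneg (K - j.1) (by omega)] at hj
        simpa using hj
      refine ⟨0, 0, 0, isGradedCoeff_zero R _, isGradedCoeff_zero R _, ?_⟩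
      rw [h0, map_zero, smul_zero, smul_zero, add_zero, add_zero, Finsupp.single_zero]
  -- sum over a finset
  have hsum : ∀ s : Finset (Σ K, ι K), ∃ (γ : ι K →₀ ℂ) (a b : (Σ K, ι K) →₀ A),
      IsGradedCoeff R (K - 4) a ∧ IsGradedCoeff R (K - 6) b ∧
        ∑ j ∈ s, Finsupp.single j (r j) = embedC K γ + e4 • a + e6 • b := by
    intro s
    induction s using Finset.induction_on with
    | empty =>
      refine ⟨0, 0, 0, isGradedCoeff_zero R _, isGradedCoeff_zero R _, ?_⟩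
      simp
    | insert j s hjs ih =>
      obtain ⟨γ, a, b, ha, hb, h⟩ := ih
      obtain ⟨γ', a', b', ha', hb', h'⟩ := hsingle j
      refine ⟨γ' + γ, a' + a, b' + b, ha'.add ha, hb'.add hb, ?_⟩
      rw [Finset.sum_insert hjs, h, h', map_add, smul_add, smul_add]
      abel
  obtain ⟨γ, a, b, ha, hb, h⟩ := hsum r.support
  refine ⟨γ, a, b, ha, hb, ?_⟩
  rw [← h]
  exact (Finsupp.sum_single r).symm

/-- Generation, by strong induction on the weight. -/
theorem gen_aux {M R : ℤ → Submodule ℂ A} {e4 e6 : A} {g : ∀ K, ι K → A}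
    (hMneg : ∀ K : ℤ, K < 0 → M K = ⊥)
    (hRR : ∀ m n : ℤ, ∀ a ∈ R m, ∀ b ∈ R n, a * b ∈ R (m + n))
    (h1 : (1 : A) ∈ R 0) (he4 : e4 ∈ R 4) (he6 : e6 ∈ R 6)
    (hspan : ∀ K, ∀ φ ∈ M K, ∃ γ : ι K →₀ ℂ, ∃ d ∈ decSub M e4 e6 K,
      φ = d + Finsupp.linearCombination ℂ (g K) γ) :
    ∀ n : ℕ, ∀ K : ℤ, K < n → ∀ φ ∈ M K,
      ∃ r : (Σ K, ι K) →₀ A, IsGradedCoeff R K r ∧ φ = lcomb g r := by
  intro n
  induction n with
  | zero =>
    intro K hK φ hφ
    refine ⟨0, isGradedCoeff_zero R K, ?_⟩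
    rw [hMneg K (by simpa using hK)] at hφ
    rw [map_zero]
    simpa using hφ
  | succ n ih =>
    intro K hK φ hφ
    obtain ⟨γ, d, hd, rfl⟩ := hspan K φ hφ
    obtain ⟨u, hu, v, hv, rfl⟩ := mem_decSub.1 hd
    obtain ⟨ru, hru, rfl⟩ := ih (K - 4) (by push_cast at hK ⊢; omega) u hu
    obtain ⟨rv, hrv, rfl⟩ := ih (K - 6) (by push_cast at hK ⊢; omega) v hv
    refine ⟨e4 • ru + e6 • rv + embedC K γ,
      ((hru.smul hRR (by omega) he4).add (hrv.smul hRR (by omega) he6)).add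
        (isGradedCoeff_embedC h1 K γ), ?_⟩
    rw [map_add, map_add, lcomb_smul, lcomb_smul, lcomb_embedC]

/-- Uniqueness, by strong induction on the weight. -/
theorem uniq_aux {M R : ℤ → Submodule ℂ A} {e4 e6 : A} {g : ∀ K, ι K → A}
    (hR0 : ∀ r ∈ R 0, ∃ c : ℂ, r = algebraMap ℂ A c)
    (hRneg : ∀ m : ℤ, m < 0 → R m = ⊥)
    (hMneg : ∀ K : ℤ, K < 0 → M K = ⊥)
    (hRR : ∀ m n : ℤ, ∀ a ∈ R m, ∀ b ∈ R n, a * b ∈ R (m + n))
    (hRM : ∀ m K : ℤ, ∀ r ∈ R m, ∀ φ ∈ M K, r * φ ∈ M (m + K))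
    (h1 : (1 : A) ∈ R 0) (he4 : e4 ∈ R 4) (he6 : e6 ∈ R 6)
    (hRdecomp : ∀ m : ℤ, 0 < m → ∀ r ∈ R m,
      ∃ a ∈ R (m - 4), ∃ b ∈ R (m - 6), r = e4 * a + e6 * b)
    (hreg4 : ∀ K : ℤ, ∀ φ ∈ M K, e4 * φ = 0 → φ = 0)
    (hreg6 : ∀ K : ℤ, ∀ φ ∈ M (K - 6), ∀ ψ ∈ M (K - 4), e6 * φ = e4 * ψ →
      ∃ χ ∈ M (K - 10), φ = e4 * χ)
    (hg : ∀ K b, g K b ∈ M K)
    (hspan : ∀ K, ∀ φ ∈ M K, ∃ γ : ι K →₀ ℂ, ∃ d ∈ decSub M e4 e6 K,
      φ = d + Finsupp.linearCombination ℂ (g K) γ)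
    (hindep : ∀ K, ∀ γ : ι K →₀ ℂ,
      Finsupp.linearCombination ℂ (g K) γ ∈ decSub M e4 e6 K → γ = 0) :
    ∀ n : ℕ, ∀ K : ℤ, K < n → ∀ r : (Σ K, ι K) →₀ A, IsGradedCoeff R K r →
      lcomb g r = 0 → r = 0 := by
  intro n
  induction n with
  | zero =>
    intro K hK r hr _
    ext j
    have hj := hr j
    have hk := idx_nonneg hMneg hg hindep j
    rw [hRneg (K - j.1) (by push_cast at hK; omega)] at hj
    simpa using hj
  | succ n ih =>
    intro K hK r hr hr0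
    obtain ⟨γ, a, b, ha, hb, rfl⟩ := exists_decomp hR0 hRneg hRdecomp K r hr
    have hla : lcomb g a ∈ M (K - 4) := lcomb_mem hRM hg ha
    have hlb : lcomb g b ∈ M (K - 6) := lcomb_mem hRM hg hb
    rw [map_add, map_add, lcomb_smul, lcomb_smul, lcomb_embedC] at hr0
    -- the constant part vanishes
    have hγ : γ = 0 := by
      apply hindep K
      have : Finsupp.linearCombination ℂ (g K) γ
          = e4 * (-(lcomb g a)) + e6 * (-(lcomb g b)) := by
        linear_combination hr0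
      rw [this]
      exact mem_decSub.2 ⟨_, neg_mem hla, _, neg_mem hlb, rfl⟩
    subst hγ
    rw [map_zero, zero_add] at hr0
    -- use regularity
    have h6 : e6 * lcomb g b = e4 * (-(lcomb g a)) := by linear_combination hr0
    obtain ⟨χ, hχ, hbχ⟩ := hreg6 K (lcomb g b) hlb (-(lcomb g a)) (neg_mem hla) h6
    obtain ⟨t, ht, rfl⟩ := gen_aux hMneg hRR h1 he4 he6 hspan (K - 10).toNat.succ (K - 10)
      (by push_cast; omega) χ hχ
    have hb' : b = e4 • t := by
      have hgr : IsGradedCoeff R (K - 6) (b + -(e4 • t)) :=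
        hb.add (ht.smul hRR (by omega) he4).neg
      have := ih (K - 6) (by push_cast at hK ⊢; omega) _ hgr (by
        rw [map_add, map_neg, lcomb_smul, hbχ]
        ring)
      exact add_neg_eq_zero.1 this
    have ha' : a = -(e6 • t) := by
      have hgr : IsGradedCoeff R (K - 4) (a + e6 • t) :=
        ha.add (ht.smul hRR (by omega) he6)
      have hmem : lcomb g (a + e6 • t) ∈ M (K - 4) := lcomb_mem hRM hg hgr
      have hz : lcomb g (a + e6 • t) = 0 := by
        apply hreg4 (K - 4) _ hmem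
        rw [map_add, lcomb_smul]
        rw [hbχ] at hr0
        linear_combination hr0
      have := ih (K - 4) (by push_cast at hK ⊢; omega) _ hgr hz
      exact eq_neg_of_add_eq_zero_left this
    rw [ha', hb', map_zero, zero_add, smul_neg, smul_smul, smul_smul, mul_comm e4 e6]
    exact neg_add_cancel _

end Main

/-- **DIM-10**: abstract free generators. -/
theorem exists_free_generators {A : Type} [CommRing A] [Algebra ℂ A]
    (M R : ℤ → Submodule ℂ A) (e4 e6 : A)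
    (hR0 : ∀ r ∈ R 0, ∃ c : ℂ, r = algebraMap ℂ A c)
    (hRneg : ∀ m : ℤ, m < 0 → R m = ⊥)
    (hMneg : ∀ K : ℤ, K < 0 → M K = ⊥)
    (hRR : ∀ m n : ℤ, ∀ a ∈ R m, ∀ b ∈ R n, a * b ∈ R (m + n))
    (hRM : ∀ m K : ℤ, ∀ r ∈ R m, ∀ φ ∈ M K, r * φ ∈ M (m + K))
    (h1 : (1 : A) ∈ R 0) (he4 : e4 ∈ R 4) (he6 : e6 ∈ R 6)
    (hRdecomp : ∀ m : ℤ, 0 < m → ∀ r ∈ R m, ∃ a ∈ R (m - 4), ∃ b ∈ R (m - 6), r = e4 * a + e6 * b)
    (hfin : ∀ K : ℤ, FiniteDimensional ℂ (M K))
    (hreg4 : ∀ K : ℤ, ∀ φ ∈ M K, e4 * φ = 0 → φ = 0)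
    (hreg6 : ∀ K : ℤ, ∀ φ ∈ M (K - 6), ∀ ψ ∈ M (K - 4), e6 * φ = e4 * ψ → ∃ χ ∈ M (K - 10), φ = e4 * χ) :
    ∃ (J : Type) (k : J → ℤ) (f : J → A),
      (∀ j, 0 ≤ k j) ∧ (∀ j, f j ∈ M (k j)) ∧
      (∀ (K : ℤ), ∀ φ ∈ M K, ∃ (s : Finset J) (r : J → A),
        (∀ j ∈ s, r j ∈ R (K - k j)) ∧ φ = ∑ j ∈ s, r j * f j) ∧
      (∀ (K : ℤ) (s : Finset J) (r : J → A), (∀ j ∈ s, r j ∈ R (K - k j)) →
        ∑ j ∈ s, r j * f j = 0 → ∀ j ∈ s, r j = 0) := by
  classical
  choose ι g hg hspan hindep using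
    fun K : ℤ => exists_basis_mod_sub (M K) (decSub M e4 e6 K)
  refine ⟨Σ K, ι K, fun j => j.1, fun j => g j.1 j.2, ?_, ?_, ?_, ?_⟩
  · exact fun j => idx_nonneg hMneg hg hindep j
  · exact fun j => hg j.1 j.2
  · intro K φ hφ
    obtain ⟨r, hr, rfl⟩ := gen_aux hMneg hRR h1 he4 he6 hspan K.toNat.succ K
      (by push_cast; omega) φ hφ
    refine ⟨r.support, r, fun j _ => hr j, ?_⟩
    rw [lcomb, Finsupp.linearCombination_apply, Finsupp.sum]
    simp only [smul_eq_mul]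
  · intro K s r hr hsum j hj
    let r' : (Σ K, ι K) →₀ A := Finsupp.onFinset s (fun j => if j ∈ s then r j else 0)
      (by
        intro a ha
        by_contra h
        simp [h] at ha)
    have hr' : IsGradedCoeff R K r' := by
      intro j
      simp only [r', Finsupp.onFinset_apply]
      split_ifs with h
      · exact hr j h
      · exact zero_mem _
    have hlc : lcomb g r' = 0 := by
      rw [lcomb, Finsupp.linearCombination_apply,
        Finsupp.sum_of_support_subset _ Finsupp.support_onFinset_subset _ (by simp)]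
      refine Eq.trans (Finset.sum_congr rfl fun j hj => ?_) hsum
      simp [hj]
    have h0 := uniq_aux hR0 hRneg hMneg hRR hRM h1 he4 he6 hRdecomp hreg4 hreg6 hg hspan
      hindep K.toNat.succ K (by push_cast; omega) r' hr' hlc
    have h0j : r' j = 0 := by rw [h0]; rfl
    simpa [r', hj] using h0j

end Fermat.Agent.H69
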