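import Mathlib.RingTheory.Regular.ProjectiveDimension
import Mathlib.RingTheory.FiniteLength
import Mathlib.RingTheory.SimpleModule.Basic
import Mathlib.Algebra.Category.ModuleCat.Projective
import Mathlib.Algebra.Homology.ShortComplex.ModuleCat

/-!
# A finitely generated module of maximal depth over a regular local ring is free

`B` is a Noetherian local ring whose maximal ideal is generated by a `B`-regular sequence `rs`
(so `B` is regular, `pd_B (B/𝔪) = rs.length`).  If `N` is a finitely generated `B`-module
admitting a weakly regular sequence `xs ⊆ 𝔪` with `xs.length = rs.length` and `N / xs N` of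
finite length, then `N` is free.  (Auslander–Buchsbaum in the special case needed for patching.)
-/

set_option autoImplicit false

namespace Fermat.Agent.H69

open CategoryTheory RingTheory.Sequence IsLocalRing

universe u

variable {B : Type u} [CommRing B] [IsLocalRing B] [IsNoetherianRing B]

/-- The residue field has projective dimension `≤ rs.length` when `rs` is a regular sequence
generating the maximal ideal. -/
lemma hasProjDimLT_residue (rs : List B) (hreg : IsWeaklyRegular B rs)
    (hmax : Ideal.ofList rs = maximalIdeal B) :
    HasProjectiveDimensionLT (ModuleCat.of B (B ⧸ maximalIdeal B)) (rs.length + 1) := by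
  have hmem : ∀ r ∈ rs, r ∈ maximalIdeal B := by
    intro r hr
    rw [← hmax]
    exact Ideal.subset_span hr
  have hR : IsRegular B rs := IsRegular.of_isWeaklyRegular_of_mem_maximalIdeal B hmem hreg
  have h1 := ModuleCat.projectiveDimension_quotient_eq_length.{u, u} rs hR
  have e : (Shrink.{u} (B ⧸ Ideal.ofList rs)) ≃ₗ[B] (B ⧸ maximalIdeal B) :=
    (Shrink.linearEquiv B (B ⧸ Ideal.ofList rs)).trans
      (Submodule.quotEquivOfEq _ _ hmax)
  have h2 : projectiveDimension (ModuleCat.of B (B ⧸ maximalIdeal B)) = rs.length := by
    rw [← h1]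
    exact (projectiveDimension_eq_of_iso e.toModuleIso).symm
  exact (projectiveDimension_le_iff _ _).mp h2.le

omit [IsNoetherianRing B] in
/-- Every finite length module has projective dimension bounded by that of the residue field. -/
lemma hasProjDimLT_of_isFiniteLength (n : ℕ)
    (hk : HasProjectiveDimensionLT (ModuleCat.of B (B ⧸ maximalIdeal B)) (n + 1))
    (L : Type u) [AddCommGroup L] [Module B L] (hL : IsFiniteLength B L) :
    HasProjectiveDimensionLT (ModuleCat.of B L) (n + 1) := by
  induction hL with
  | of_subsingleton =>
    rename_i M _ _ _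
    have hz : Limits.IsZero (ModuleCat.of B M) := ModuleCat.isZero_of_subsingleton _
    have := hz.hasProjectiveDimensionLT_zero
    exact hasProjectiveDimensionLT_of_ge _ 0 _ (Nat.zero_le _)
  | of_simple_quotient h ih =>
    rename_i M _ _ N' hs
    obtain ⟨I, hI, ⟨e⟩⟩ := isSimpleModule_iff_quot_maximal.mp hs
    have hIm : I = maximalIdeal B := IsLocalRing.eq_maximalIdeal hI
    subst hIm
    have hsurj : Function.Surjective N'.mkQ := Submodule.mkQ_surjective N'
    have hS := LinearMap.shortExact_shortComplexKer hsurj
    have hker : LinearMap.ker N'.mkQ = N' := Submodule.ker_mkQ N'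
    have h1 : HasProjectiveDimensionLT (N'.mkQ.shortComplexKer).X₁ (n + 1) := by
      have e1 : (ModuleCat.of B N') ≅ (N'.mkQ.shortComplexKer).X₁ :=
        (LinearEquiv.ofEq _ _ hker.symm).toModuleIso
      exact hasProjectiveDimensionLT_of_iso e1 _
    have h3 : HasProjectiveDimensionLT (N'.mkQ.shortComplexKer).X₃ (n + 1) := by
      have e3 : (ModuleCat.of B (B ⧸ maximalIdeal B)) ≅ (N'.mkQ.shortComplexKer).X₃ :=
        e.symm.toModuleIso
      exact hasProjectiveDimensionLT_of_iso e3 _
    exact hS.hasProjectiveDimensionLT_X₂ (n + 1) h1 h3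

/-- **Freeness criterion.** -/
theorem free_of_isWeaklyRegular (rs : List B) (hreg : IsWeaklyRegular B rs)
    (hmax : Ideal.ofList rs = maximalIdeal B)
    (N : Type u) [AddCommGroup N] [Module B N] [Module.Finite B N]
    (xs : List B) (hlen : xs.length = rs.length) (hxs : IsWeaklyRegular N xs)
    (hmem : ∀ x ∈ xs, x ∈ maximalIdeal B)
    (hfl : IsFiniteLength B (N ⧸ Ideal.ofList xs • (⊤ : Submodule B N))) :
    Module.Free B N := by
  rcases subsingleton_or_nontrivial N with hN | hN
  · exact Module.Free.of_subsingleton B N
  have h1 := ModuleCat.projectiveDimension_quotient_eq_add_length_of_isWeaklyRegular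
    (ModuleCat.of B N) xs hxs hmem
  have h2 : projectiveDimension
      (ModuleCat.of B (N ⧸ Ideal.ofList xs • (⊤ : Submodule B N))) ≤ (rs.length : ℕ) :=
    (projectiveDimension_le_iff _ _).mpr
      (hasProjDimLT_of_isFiniteLength rs.length (hasProjDimLT_residue rs hreg hmax) _ hfl)
  rw [h1, hlen] at h2
  have h3 : projectiveDimension (ModuleCat.of B N) ≤ ((0 : ℕ) : WithBot ℕ∞) := by
    have h2' : projectiveDimension (ModuleCat.of B N) + (rs.length : ℕ)
        ≤ ((0 : ℕ) : WithBot ℕ∞) + (rs.length : ℕ) := by
      simpa using h2
    exact (ENat.WithBot.add_le_add_natCast_right_iff).mp h2'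
  have h4 : HasProjectiveDimensionLE (ModuleCat.of B N) 0 := (projectiveDimension_le_iff _ _).mp h3
  have h5 : Projective (ModuleCat.of B N) := (projective_iff_hasProjectiveDimensionLE_zero _).mpr h4
  have h6 : Module.Projective B N := (IsProjective.iff_projective N).mpr h5
  exact Module.free_of_flat_of_isLocalRing

end Fermat.Agent.H69
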